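/-
T4-L (helper5): the local language of T4 (S36) — definitions.

A *presentation* `P : T4Pres F` of a subring `B` of a field `F` is a set `P.vals` of discrete
valuation subrings of `F` with `B = ⋂ V`, of finite character, each of which is a localisation of
`B` (ESSENTIAL).  In the application `B` is a chart ring of the normal model of `X₀(N'q²)` over the
unramified DVR `W`, and `P.vals` = {places of `F / L` finite on the chart} ∪ {`O_inf, O_mid, O_0`}.

For a (maximal) ideal `𝔫` of `B`:
* `P.through 𝔫`  — the valuation rings of the presentation whose centre is contained in `𝔫`;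
* `P.loc 𝔫`      — their intersection, which is the localisation `B_𝔫` inside `F`;
* `P.center 𝔫 V` — the centre of `V ∈ P.through 𝔫` in `B_𝔫` (a height-one prime);
* `P.SmoothAt 𝔫 V` — `B_𝔫 ⧸ center` is a principal ideal ring (a field or a DVR: the branch of
  the divisor `V` through the point `𝔫` is smooth);
* `P.RegAt 𝔫`    — some smooth branch `V₀` through `𝔫` is cut out by a single equation `a ∈ B`
  (uniformiser of `V₀`, unit at all other `V` through `𝔫`): then `B_𝔫` is regular, hence factorial;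
* `P.vert q`, `P.ov q` — the "vertical" valuation rings (`q` a non-unit) and their intersection;
* `P.BranchVal 𝔫 V f κ` — `f` is a unit of `V` whose reduction lies in the branch ring and takes
  the value `κ ∈ B ⧸ 𝔫` at the point.
-/
import Mathlib

set_option autoImplicit false

namespace Fermat.Agent.T4

/-- a presentation of a subring `B` of a field as an intersection of discrete valuation rings which
are localisations of `B`, with finite character -/
structure T4Pres (F : Type*) [Field F] where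
  /-- the ring -/
  B : Subring F
  /-- the discrete valuation rings -/
  vals : Set (ValuationSubring F)
  dvr : ∀ V ∈ vals, IsDiscreteValuationRing V
  mem_iff : ∀ f : F, f ∈ B ↔ ∀ V ∈ vals, f ∈ V
  finite_char : ∀ f : F, f ≠ 0 → {V ∈ vals | f ∉ V}.Finite
  /-- (ESSENTIAL) every `V` is the localisation of `B` at its centre -/
  essential : ∀ V ∈ vals, ∀ f ∈ V, ∃ c ∈ B, V.valuation c = 1 ∧ c * f ∈ B

namespace T4Pres

variable {F : Type*} [Field F] (P : T4Pres F)

theorem B_le {V : ValuationSubring F} (hV : V ∈ P.vals) {f : F} (hf : f ∈ P.B) : f ∈ V :=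
  (P.mem_iff f).mp hf V hV

/-- the valuation rings of the presentation whose centre on `B` is contained in `𝔫` -/
def through (𝔫 : Ideal P.B) : Set (ValuationSubring F) :=
  {V ∈ P.vals | ∀ b : P.B, V.valuation (b : F) < 1 → b ∈ 𝔫}

theorem mem_through {𝔫 : Ideal P.B} {V : ValuationSubring F} :
    V ∈ P.through 𝔫 ↔ V ∈ P.vals ∧ ∀ b : P.B, V.valuation (b : F) < 1 → b ∈ 𝔫 := Iff.rfl

/-- the localisation `B_𝔫`, as the intersection of the valuation rings through `𝔫` -/
def loc (𝔫 : Ideal P.B) : Subring F where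
  carrier := {f | ∀ V ∈ P.through 𝔫, f ∈ V}
  mul_mem' := fun hf hg V hV => V.mul_mem _ _ (hf V hV) (hg V hV)
  one_mem' := fun V _ => V.one_mem
  add_mem' := fun hf hg V hV => V.add_mem _ _ (hf V hV) (hg V hV)
  zero_mem' := fun V _ => V.zero_mem
  neg_mem' := fun hf V hV => V.neg_mem _ (hf V hV)

theorem mem_loc {𝔫 : Ideal P.B} {f : F} : f ∈ P.loc 𝔫 ↔ ∀ V ∈ P.through 𝔫, f ∈ V := Iff.rfl

theorem B_le_loc (𝔫 : Ideal P.B) : P.B ≤ P.loc 𝔫 :=
  fun _ hf V hV => P.B_le hV.1 hf

/-- the centre of `V ∈ P.through 𝔫` on `B_𝔫` -/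
def center (𝔫 : Ideal P.B) (V : ValuationSubring F) (hV : V ∈ P.through 𝔫) :
    Ideal ↥(P.loc 𝔫) where
  carrier := {f | V.valuation (f : F) < 1}
  add_mem' := by
    intro f g hf hg
    exact lt_of_le_of_lt (V.valuation.map_add _ _) (max_lt hf hg)
  zero_mem' := by
    show V.valuation ((0 : ↥(P.loc 𝔫)) : F) < 1
    rw [Subring.coe_zero, map_zero]; exact zero_lt_one
  smul_mem' := by
    intro c f hf
    show V.valuation ((c * f : ↥(P.loc 𝔫)) : F) < 1
    rw [Subring.coe_mul, map_mul]
    have hc : V.valuation (c : F) ≤ 1 := (V.valuation_le_one_iff _).mpr (c.2 V hV)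
    calc V.valuation (c : F) * V.valuation (f : F) ≤ 1 * V.valuation (f : F) :=
          mul_le_mul_left hc _
      _ = V.valuation (f : F) := one_mul _
      _ < 1 := hf

theorem mem_center {𝔫 : Ideal P.B} {V : ValuationSubring F} {hV : V ∈ P.through 𝔫}
    {f : ↥(P.loc 𝔫)} : f ∈ P.center 𝔫 V hV ↔ V.valuation (f : F) < 1 := Iff.rfl

/-- the branch of `V` through `𝔫` is smooth: `B_𝔫 ⧸ center` is a principal ideal ring -/
def SmoothAt (𝔫 : Ideal P.B) (V : ValuationSubring F) (hV : V ∈ P.through 𝔫) : Prop :=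
  IsPrincipalIdealRing (↥(P.loc 𝔫) ⧸ P.center 𝔫 V hV)

/-- regularity of `B` at `𝔫`: a smooth branch `V₀` through `𝔫` which is cut out by one equation
`a ∈ B` -/
def RegAt (𝔫 : Ideal P.B) : Prop :=
  ∃ (V₀ : ValuationSubring F) (hV₀ : V₀ ∈ P.through 𝔫) (a : F), a ∈ P.B ∧
    V₀.valuation a < 1 ∧ (∀ x : F, V₀.valuation x < 1 → V₀.valuation x ≤ V₀.valuation a) ∧
    (∀ V ∈ P.through 𝔫, V ≠ V₀ → V.valuation a = 1) ∧ P.SmoothAt 𝔫 V₀ hV₀

/-- the vertical valuation rings: those in which `q` is not a unit -/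
def vert (q : F) : Set (ValuationSubring F) := {V ∈ P.vals | V.valuation q < 1}

/-- the intersection of the vertical valuation rings -/
def ov (q : F) : Subring F where
  carrier := {f | ∀ V ∈ P.vert q, f ∈ V}
  mul_mem' := fun hf hg V hV => V.mul_mem _ _ (hf V hV) (hg V hV)
  one_mem' := fun V _ => V.one_mem
  add_mem' := fun hf hg V hV => V.add_mem _ _ (hf V hV) (hg V hV)
  zero_mem' := fun V _ => V.zero_mem
  neg_mem' := fun hf V hV => V.neg_mem _ (hf V hV)

theorem mem_ov {q f : F} : f ∈ P.ov q ↔ ∀ V ∈ P.vert q, f ∈ V := Iff.rfl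

theorem B_le_ov (q : F) : P.B ≤ P.ov q := fun _ hf V hV => P.B_le hV.1 hf

/-- `f ≡ g` modulo `q · Ov` -/
def CongrOv (q f g : F) : Prop := ∃ o ∈ P.ov q, f - g = q * o

/-- `f` is a unit of `V` whose reduction modulo `𝔪_V` is the reduction of an element `b / c` of
`B_𝔫` with value `κ` at `𝔫` -/
def BranchVal (𝔫 : Ideal P.B) (V : ValuationSubring F) (f : F) (κ : P.B ⧸ 𝔫) : Prop :=
  ∃ b c : P.B, c ∉ 𝔫 ∧ V.valuation (f * (c : F) - (b : F)) < 1 ∧
    κ * Ideal.Quotient.mk 𝔫 c = Ideal.Quotient.mk 𝔫 b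

end T4Pres

end Fermat.Agent.T4
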