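/-
T4-L (helper5): `P.loc 𝔫` is the localisation of `B` at the prime `𝔫`.
-/
import Fermat.Agent.Lib.T4.Local.Defs

set_option autoImplicit false
set_option linter.style.haveILetI false

namespace Fermat.Agent.T4

variable {F : Type*} [Field F]

/-- Archimedean property of a discrete valuation subring: a nonzero non-unit `x` absorbs every
element of the field after multiplication with a power -/
theorem t4l_arch (V : ValuationSubring F) [IsDiscreteValuationRing V] {x : F}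
    (hx : V.valuation x < 1) (hx0 : x ≠ 0) (f : F) : ∃ n : ℕ, x ^ n * f ∈ V := by
  by_cases hf : f ∈ V
  · exact ⟨0, by rwa [pow_zero, one_mul]⟩
  have hf0 : f ≠ 0 := fun h => hf (h ▸ V.zero_mem)
  have hg : f⁻¹ ∈ V := (V.mem_or_inv_mem f).resolve_left hf
  have hxV : x ∈ V := (V.valuation_le_one_iff x).mp hx.le
  obtain ⟨ϖ, hϖ⟩ := IsDiscreteValuationRing.exists_irreducible V
  set g' : V := ⟨f⁻¹, hg⟩ with hg'
  set x' : V := ⟨x, hxV⟩ with hx'
  have hg'0 : g' ≠ 0 := fun h => inv_ne_zero hf0 (congrArg Subtype.val h)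
  have hx'0 : x' ≠ 0 := fun h => hx0 (congrArg Subtype.val h)
  obtain ⟨k, hk⟩ := IsDiscreteValuationRing.associated_pow_irreducible hg'0 hϖ
  obtain ⟨j, hj⟩ := IsDiscreteValuationRing.associated_pow_irreducible hx'0 hϖ
  have hj1 : 1 ≤ j := by
    rcases Nat.eq_zero_or_pos j with rfl | h
    · exfalso
      rw [pow_zero] at hj
      have hu : IsUnit x' := (associated_one_iff_isUnit.mp hj)
      rw [V.valuation_eq_one_iff] at hu
      exact hx.ne hu
    · exact h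
  -- `g' ∣ x' ^ k`
  have hdvd : g' ∣ x' ^ k := by
    have h1 : Associated (x' ^ k) ((ϖ ^ j) ^ k) := hj.pow_pow
    have h2 : ϖ ^ k ∣ (ϖ ^ j) ^ k := by
      rw [← pow_mul]
      exact pow_dvd_pow ϖ (Nat.le_mul_of_pos_left k hj1)
    exact (hk.dvd_iff_dvd_left).mpr ((h1.dvd_iff_dvd_right).mpr h2)
  obtain ⟨h, hh⟩ := hdvd
  refine ⟨k, ?_⟩
  have h3 : x ^ k = f⁻¹ * (h : F) := by
    have := congrArg Subtype.val hh
    simpa using this
  rw [h3, mul_comm f⁻¹, mul_assoc, inv_mul_cancel₀ hf0, mul_one]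
  exact h.2

namespace T4Pres

variable (P : T4Pres F)

theorem valuation_eq_one_of_not_mem {𝔫 : Ideal P.B} {V : ValuationSubring F}
    (hV : V ∈ P.through 𝔫) {c : P.B} (hc : c ∉ 𝔫) : V.valuation (c : F) = 1 := by
  rcases lt_or_eq_of_le ((V.valuation_le_one_iff _).mpr (P.B_le hV.1 c.2)) with h | h
  · exact absurd (hV.2 c h) hc
  · exact h

/-- `B_𝔫 = {f | ∃ c ∈ B ∖ 𝔫, c f ∈ B}` -/
theorem mem_loc_iff {𝔫 : Ideal P.B} [h𝔫 : 𝔫.IsPrime] {f : F} :
    f ∈ P.loc 𝔫 ↔ ∃ c : P.B, c ∉ 𝔫 ∧ (c : F) * f ∈ P.B := by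
  classical
  constructor
  · intro hf
    rcases eq_or_ne f 0 with rfl | hf0
    · exact ⟨1, (Ideal.ne_top_iff_one 𝔫).mp h𝔫.ne_top, by rw [mul_zero]; exact P.B.zero_mem⟩
    have hfin := P.finite_char f hf0
    -- for every bad `V` an element of `B ∖ 𝔫` killing the pole
    have hbad : ∀ V ∈ hfin.toFinset, ∃ c : P.B, c ∉ 𝔫 ∧ (c : F) * f ∈ V := by
      intro V hV
      rw [Set.Finite.mem_toFinset] at hV
      obtain ⟨hV1, hV2⟩ := hV
      have hnt : V ∉ P.through 𝔫 := fun h => hV2 (hf V h)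
      rw [mem_through, not_and] at hnt
      have h1 := hnt hV1
      push Not at h1
      obtain ⟨b, hb1, hb2⟩ := h1
      haveI := P.dvr V hV1
      have hb0 : (b : F) ≠ 0 := by
        intro h0
        apply hb2
        have : b = 0 := Subtype.ext h0
        rw [this]; exact 𝔫.zero_mem
      obtain ⟨n, hn⟩ := t4l_arch V hb1 hb0 f
      refine ⟨b ^ n, fun h => hb2 (h𝔫.mem_of_pow_mem n h), ?_⟩
      rwa [Subring.coe_pow]
    choose! cfun hc1 hc2 using hbad
    refine ⟨∏ V ∈ hfin.toFinset, cfun V, ?_, ?_⟩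
    · intro hmem
      obtain ⟨V, hV, hV'⟩ := (Ideal.IsPrime.prod_mem_iff).mp hmem
      exact hc1 V hV hV'
    · rw [P.mem_iff]
      intro V hV
      by_cases hfV : f ∈ V
      · exact V.mul_mem _ _ (P.B_le hV (∏ V ∈ hfin.toFinset, cfun V).2) hfV
      · have hVmem : V ∈ hfin.toFinset := by
          rw [Set.Finite.mem_toFinset]; exact ⟨hV, hfV⟩
        rw [← Finset.mul_prod_erase _ _ hVmem, Subring.coe_mul, mul_assoc,
          mul_comm ((∏ x ∈ hfin.toFinset.erase V, cfun x : P.B) : F), ← mul_assoc]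
        exact V.mul_mem _ _ (hc2 V hVmem) (P.B_le hV (∏ x ∈ hfin.toFinset.erase V, cfun x).2)
  · rintro ⟨c, hc, hcf⟩ V hV
    have h1 : V.valuation (c : F) = 1 := P.valuation_eq_one_of_not_mem hV hc
    have h2 : V.valuation ((c : F) * f) ≤ 1 := (V.valuation_le_one_iff _).mpr (P.B_le hV.1 hcf)
    rw [map_mul, h1, one_mul] at h2
    exact (V.valuation_le_one_iff _).mp h2

/-- the units of `B_𝔫` -/
theorem isUnit_loc_iff {𝔫 : Ideal P.B} (f : ↥(P.loc 𝔫)) :
    IsUnit f ↔ (f : F) ≠ 0 ∧ ∀ V ∈ P.through 𝔫, V.valuation (f : F) = 1 := by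
  constructor
  · intro hu
    obtain ⟨g, hg⟩ := isUnit_iff_exists_inv.mp hu
    have h1 : (f : F) * (g : F) = 1 := by
      have := congrArg Subtype.val hg
      simpa using this
    refine ⟨left_ne_zero_of_mul_eq_one h1, fun V hV => ?_⟩
    have hf : V.valuation (f : F) ≤ 1 := (V.valuation_le_one_iff _).mpr (f.2 V hV)
    have hg' : V.valuation (g : F) ≤ 1 := (V.valuation_le_one_iff _).mpr (g.2 V hV)
    have h2 : V.valuation (f : F) * V.valuation (g : F) = 1 := by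
      rw [← map_mul, h1, map_one]
    rcases lt_or_eq_of_le hf with h | h
    · exfalso
      have : V.valuation (f : F) * V.valuation (g : F) < 1 :=
        lt_of_le_of_lt (mul_le_mul_right hg' _) (by rwa [mul_one])
      exact this.ne h2
    · exact h
  · rintro ⟨hf0, h⟩
    have hinv : (f : F)⁻¹ ∈ P.loc 𝔫 := by
      intro V hV
      rw [← V.valuation_le_one_iff, map_inv₀, h V hV, inv_one]
    refine isUnit_iff_exists_inv.mpr ⟨⟨_, hinv⟩, ?_⟩
    apply Subtype.ext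
    show (f : F) * (f : F)⁻¹ = 1
    exact mul_inv_cancel₀ hf0

/-- `B → B_𝔫` -/
def locIncl (𝔫 : Ideal P.B) : ↥P.B →+* ↥(P.loc 𝔫) := Subring.inclusion (P.B_le_loc 𝔫)

/-- `B_𝔫` as a `B`-algebra -/
@[reducible] def locAlgebra (𝔫 : Ideal P.B) : Algebra ↥P.B ↥(P.loc 𝔫) := (P.locIncl 𝔫).toAlgebra

theorem coe_locIncl (𝔫 : Ideal P.B) (b : P.B) : ((P.locIncl 𝔫 b : ↥(P.loc 𝔫)) : F) = (b : F) := rfl

/-- `P.loc 𝔫` is the localisation of `B` at the prime `𝔫` -/
theorem isLocalization_loc (𝔫 : Ideal P.B) [h𝔫 : 𝔫.IsPrime] :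
    letI := P.locAlgebra 𝔫
    IsLocalization.AtPrime ↥(P.loc 𝔫) 𝔫 := by
  letI := P.locAlgebra 𝔫
  refine (isLocalization_iff _ _).mpr ⟨?_, ?_, ?_⟩
  · rintro ⟨c, hc⟩
    show IsUnit (P.locIncl 𝔫 c)
    rw [P.isUnit_loc_iff]
    have hc' : c ∉ 𝔫 := hc
    refine ⟨?_, fun V hV => P.valuation_eq_one_of_not_mem hV hc'⟩
    intro h0
    apply hc'
    have : c = 0 := Subtype.ext h0
    rw [this]; exact 𝔫.zero_mem
  · intro z
    obtain ⟨c, hc, hcz⟩ := P.mem_loc_iff.mp z.2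
    refine ⟨(⟨(c : F) * z, hcz⟩, ⟨c, hc⟩), ?_⟩
    apply Subtype.ext
    show (z : F) * (c : F) = (c : F) * z
    exact mul_comm _ _
  · intro x y hxy
    refine ⟨1, ?_⟩
    have h1 : (x : F) = (y : F) := congrArg (fun t : ↥(P.loc 𝔫) => (t : F)) hxy
    rw [Subtype.ext h1]

theorem isLocalRing_loc (𝔫 : Ideal P.B) [h𝔫 : 𝔫.IsPrime] : IsLocalRing ↥(P.loc 𝔫) := by
  letI := P.locAlgebra 𝔫
  haveI := P.isLocalization_loc 𝔫
  exact IsLocalization.AtPrime.isLocalRing ↥(P.loc 𝔫) 𝔫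

theorem isNoetherianRing_loc (𝔫 : Ideal P.B) [h𝔫 : 𝔫.IsPrime] [hB : IsNoetherianRing P.B] :
    IsNoetherianRing ↥(P.loc 𝔫) := by
  letI := P.locAlgebra 𝔫
  haveI := P.isLocalization_loc 𝔫
  exact IsLocalization.isNoetherianRing 𝔫.primeCompl ↥(P.loc 𝔫) hB

/-- the maximal ideal of `B_𝔫` consists of the `b / c` with `b ∈ 𝔫` -/
theorem mem_maximalIdeal_loc_iff (𝔫 : Ideal P.B) [h𝔫 : 𝔫.IsPrime] (f : ↥(P.loc 𝔫)) :
    letI := P.isLocalRing_loc 𝔫
    f ∈ IsLocalRing.maximalIdeal ↥(P.loc 𝔫) ↔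
      ∃ b c : P.B, b ∈ 𝔫 ∧ c ∉ 𝔫 ∧ (c : F) * f = (b : F) := by
  letI := P.isLocalRing_loc 𝔫
  rw [IsLocalRing.mem_maximalIdeal, mem_nonunits_iff]
  obtain ⟨c, hc, hcf⟩ := P.mem_loc_iff.mp f.2
  constructor
  · intro hnu
    refine ⟨⟨_, hcf⟩, c, ?_, hc, rfl⟩
    by_contra hb
    apply hnu
    rw [P.isUnit_loc_iff]
    have hcv : ∀ V ∈ P.through 𝔫, V.valuation (c : F) = 1 :=
      fun V hV => P.valuation_eq_one_of_not_mem hV hc
    have hbv : ∀ V ∈ P.through 𝔫, V.valuation ((c : F) * f) = 1 :=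
      fun V hV => P.valuation_eq_one_of_not_mem hV (c := ⟨_, hcf⟩) hb
    refine ⟨?_, fun V hV => ?_⟩
    · intro h0
      apply hb
      have : (⟨(c : F) * f, hcf⟩ : P.B) = 0 :=
        Subtype.ext (show (c : F) * (f : F) = 0 by rw [h0, mul_zero])
      rw [this]; exact 𝔫.zero_mem
    · have := hbv V hV
      rwa [map_mul, hcv V hV, one_mul] at this
  · rintro ⟨b, c', hb, hc', hbf⟩ hu
    rw [P.isUnit_loc_iff] at hu
    letI := P.locAlgebra 𝔫
    haveI := P.isLocalization_loc 𝔫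
    have h1 : IsUnit (algebraMap ↥P.B ↥(P.loc 𝔫) b) := by
      show IsUnit (P.locIncl 𝔫 b)
      rw [P.isUnit_loc_iff]
      refine ⟨?_, fun V hV => ?_⟩
      · show (b : F) ≠ 0
        rw [← hbf]
        refine mul_ne_zero ?_ hu.1
        intro h0
        apply hc'
        have : c' = 0 := Subtype.ext h0
        rw [this]; exact 𝔫.zero_mem
      · show V.valuation (b : F) = 1
        rw [← hbf, map_mul, hu.2 V hV, P.valuation_eq_one_of_not_mem hV hc', one_mul]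
    have h2 := (IsLocalization.AtPrime.isUnit_to_map_iff ↥(P.loc 𝔫) 𝔫 b).mp h1
    exact h2 hb

/-- a subring of a field all of whose elements are fractions is a fraction ring -/
theorem _root_.Fermat.Agent.T4.t4l_isFractionRing (A : Subring F)
    (h : ∀ f : F, ∃ x y : A, (y : F) ≠ 0 ∧ f * (y : F) = (x : F)) : IsFractionRing ↥A F := by
  refine (isLocalization_iff _ _).mpr ⟨?_, ?_, ?_⟩
  · rintro ⟨y, hy⟩
    have hy0 : (y : F) ≠ 0 := by
      intro h0
      have : y = 0 := Subtype.ext h0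
      rw [this] at hy
      exact zero_notMem_nonZeroDivisors hy
    exact isUnit_iff_ne_zero.mpr hy0
  · intro z
    obtain ⟨x, y, hy, hz⟩ := h z
    have hy' : y ∈ nonZeroDivisors ↥A := by
      rw [mem_nonZeroDivisors_iff_ne_zero]
      intro h0
      exact hy (by rw [h0]; rfl)
    exact ⟨(x, ⟨y, hy'⟩), hz⟩
  · intro x y hxy
    exact ⟨1, by rw [Subtype.ext (show (x : F) = (y : F) from hxy)]⟩

/-- `F` is the fraction field of `B_𝔫` (if some valuation ring passes through `𝔫`) -/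
theorem isFractionRing_loc (𝔫 : Ideal P.B) (hne : (P.through 𝔫).Nonempty) :
    IsFractionRing ↥(P.loc 𝔫) F := by
  obtain ⟨V, hV⟩ := hne
  refine t4l_isFractionRing _ fun f => ?_
  rcases V.mem_or_inv_mem f with hf | hf
  · obtain ⟨c, hc, hc1, hcf⟩ := P.essential V hV.1 f hf
    refine ⟨⟨c * f, P.B_le_loc 𝔫 hcf⟩, ⟨c, P.B_le_loc 𝔫 hc⟩, ?_, ?_⟩
    · intro h0
      have h0' : c = 0 := h0
      rw [h0', map_zero] at hc1
      exact zero_ne_one hc1
    · exact mul_comm _ _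
  · rcases eq_or_ne f 0 with rfl | hf0
    · exact ⟨0, 1, one_ne_zero, by simp⟩
    obtain ⟨c, hc, hc1, hcf⟩ := P.essential V hV.1 f⁻¹ hf
    have hc0 : c ≠ 0 := by
      rintro rfl
      rw [map_zero] at hc1
      exact zero_ne_one hc1
    refine ⟨⟨c, P.B_le_loc 𝔫 hc⟩, ⟨c * f⁻¹, P.B_le_loc 𝔫 hcf⟩, ?_, ?_⟩
    · exact mul_ne_zero hc0 (inv_ne_zero hf0)
    · show f * (c * f⁻¹) = c
      field_simp

end T4Pres

end Fermat.Agent.T4
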