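import Mathlib

set_option autoImplicit false
set_option linter.style.haveILetI false

namespace Fermat.Agent.T4

open Ideal IsLocalRing

/-- **branches**: let `ψ : C → ∏ i, R i` be an integral ring homomorphism with nil kernel into a
finite product of local rings.  An element whose image lies in the maximal ideal of every factor
lies in every maximal ideal of `C`. -/
theorem t4l_mem_maximal_of_branches {C : Type*} [CommRing C] {ι : Type*} [Fintype ι]
    [DecidableEq ι] (R : ι → Type*) [∀ i, CommRing (R i)] [∀ i, IsLocalRing (R i)]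
    (ψ : C →+* ∀ i, R i) (hker : ∀ x, ψ x = 0 → IsNilpotent x) (hint : ψ.IsIntegral)
    (x : C) (hx : ∀ i, ψ x i ∈ maximalIdeal (R i)) (𝔫 : Ideal C) [h𝔫 : 𝔫.IsMaximal] :
    x ∈ 𝔫 := by
  let _ : Algebra C (∀ i, R i) := ψ.toAlgebra
  have : Algebra.IsIntegral C (∀ i, R i) := ⟨hint⟩
  have hle : RingHom.ker (algebraMap C (∀ i, R i)) ≤ 𝔫 := by
    intro y hy
    have h1 : IsNilpotent y := hker y hy
    obtain ⟨n, hn⟩ := h1
    exact h𝔫.isPrime.mem_of_pow_mem n (hn ▸ 𝔫.zero_mem)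
  obtain ⟨𝔔, h𝔔, h𝔔𝔫⟩ := Ideal.exists_ideal_over_maximal_of_isIntegral 𝔫 hle
  rw [← h𝔔𝔫, Ideal.mem_comap]
  show ψ x ∈ 𝔔
  set y := ψ x with hy
  -- some idempotent `e_i` is not in `𝔔`
  have h1 : ∃ i, (Pi.single i 1 : ∀ i, R i) ∉ 𝔔 := by
    by_contra hcon
    push Not at hcon
    apply h𝔔.ne_top
    rw [Ideal.eq_top_iff_one]
    have : (1 : ∀ i, R i) = ∑ i, Pi.single i 1 := by
      rw [Finset.univ_sum_single]; rfl
    rw [this]
    exact 𝔔.sum_mem fun i _ => hcon i
  obtain ⟨i, hi⟩ := h1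
  by_contra hy𝔔
  -- `1 - y t ∈ 𝔔` for some `t`
  obtain ⟨t, ht⟩ := (Ideal.Quotient.maximal_ideal_iff_isField_quotient 𝔔 |>.mp h𝔔).mul_inv_cancel
    (a := Ideal.Quotient.mk 𝔔 y) (by rwa [Ne, Ideal.Quotient.eq_zero_iff_mem])
  obtain ⟨t, rfl⟩ := Ideal.Quotient.mk_surjective t
  rw [← map_mul, ← map_one (Ideal.Quotient.mk 𝔔), Ideal.Quotient.eq] at ht
  -- multiply by `e_i`
  have h2 : (Pi.single i 1 : ∀ i, R i) * (y * t - 1) ∈ 𝔔 := 𝔔.mul_mem_left _ ht
  -- this is `e_i` times a unit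
  have hu : IsUnit (y i * t i - 1) := by
    have h3 : y i * t i ∈ maximalIdeal (R i) := Ideal.mul_mem_right _ _ (hx i)
    have h4 : y i * t i - 1 ∉ maximalIdeal (R i) := by
      intro h5
      have h6 : (1 : R i) ∈ maximalIdeal (R i) := by
        have := (maximalIdeal (R i)).sub_mem h3 h5
        rwa [sub_sub_cancel] at this
      exact (Ideal.ne_top_iff_one _).mp (maximalIdeal.isMaximal (R i)).ne_top h6
    rwa [mem_maximalIdeal, mem_nonunits_iff, not_not] at h4
  obtain ⟨u, hu⟩ := hu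
  have h7 : (Pi.single i 1 : ∀ i, R i) * (y * t - 1) * Pi.single i (↑u⁻¹ : R i)
      = Pi.single i 1 := by
    funext j
    by_cases hj : j = i
    · subst hj
      simp only [Pi.mul_apply, Pi.single_eq_same, Pi.sub_apply, Pi.one_apply, one_mul]
      rw [← hu, Units.mul_inv]
    · simp only [Pi.mul_apply, Pi.single_eq_of_ne hj, zero_mul]
  exact hi (h7 ▸ 𝔔.mul_mem_right _ h2)

/-- **the local lemma**: `S` a local ring, `C = S[r]` with `r ^ m ∈ S`, `m` and `ρ` units of `S`,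
and `r - ρ` in every maximal ideal of `C` ("`r ≡ ρ` on every branch").  Then `C = S`. -/
theorem t4l_local_lemma {S C : Type*} [CommRing S] [IsLocalRing S] [CommRing C] [Algebra S C]
    (r : C) (ρ : S) (m : ℕ) (hm : IsUnit (m : S)) (hρ : IsUnit ρ)
    (hgen : Algebra.adjoin S {r} = ⊤) (t : S) (ht : algebraMap S C t = r ^ m)
    (hbr : ∀ 𝔫 : Ideal C, 𝔫.IsMaximal → r - algebraMap S C ρ ∈ 𝔫) :
    Function.Surjective (algebraMap S C) := by
  rcases subsingleton_or_nontrivial C with hC | hC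
  · intro c; exact ⟨0, Subsingleton.elim _ _⟩
  have hm0 : m ≠ 0 := by
    rintro rfl
    rw [Nat.cast_zero] at hm
    exact not_isUnit_zero hm
  set ρ' := algebraMap S C ρ with hρ'
  -- `t - ρ ^ m` is in the maximal ideal
  have ht𝔪 : t - ρ ^ m ∈ maximalIdeal S := by
    obtain ⟨𝔫, h𝔫⟩ := Ideal.exists_maximal C
    rw [mem_maximalIdeal, mem_nonunits_iff]
    intro hu
    have h1 : algebraMap S C (t - ρ ^ m) ∈ 𝔫 := by
      rw [map_sub, map_pow, ht]
      have h2 : r - ρ' ∣ r ^ m - ρ' ^ m := sub_dvd_pow_sub_pow r ρ' m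
      obtain ⟨c, hc⟩ := h2
      rw [hc]
      exact 𝔫.mul_mem_right _ (hbr 𝔫 h𝔫)
    exact h𝔫.ne_top (Ideal.eq_top_of_isUnit_mem _ h1 (hu.map _))
  -- the geometric sum `h(r)` is a unit
  set h := ∑ i ∈ Finset.range m, r ^ i * ρ' ^ (m - 1 - i) with hh
  have hgeom : h * (r - ρ') = r ^ m - ρ' ^ m := (Commute.all r ρ').geom_sum₂_mul m
  have hunit : IsUnit h := by
    by_contra hnu
    obtain ⟨𝔫, h𝔫, hh𝔫⟩ := exists_max_ideal_of_mem_nonunits (mem_nonunits_iff.mpr hnu)
    have hr𝔫 : r - ρ' ∈ 𝔫 := hbr 𝔫 h𝔫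
    -- `h ≡ m ρ^(m-1)` modulo `𝔫`
    have h1 : h - (m : C) * ρ' ^ (m - 1) ∈ 𝔫 := by
      have h2 : (m : C) * ρ' ^ (m - 1) = ∑ i ∈ Finset.range m, ρ' ^ i * ρ' ^ (m - 1 - i) := by
        rw [Finset.sum_congr rfl (g := fun _ => ρ' ^ (m - 1))]
        · rw [Finset.sum_const, Finset.card_range, nsmul_eq_mul]
        · intro i hi
          rw [← pow_add]
          congr 1
          have := Finset.mem_range.mp hi
          omega
      rw [h2, hh, ← Finset.sum_sub_distrib]
      refine 𝔫.sum_mem fun i _ => ?_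
      rw [← sub_mul]
      refine 𝔫.mul_mem_right _ ?_
      obtain ⟨c, hc⟩ := sub_dvd_pow_sub_pow r ρ' i
      rw [hc]
      exact 𝔫.mul_mem_right _ hr𝔫
    have h3 : (m : C) * ρ' ^ (m - 1) ∈ 𝔫 := by
      have := 𝔫.sub_mem hh𝔫 h1
      rwa [sub_sub_cancel] at this
    have h4 : IsUnit ((m : C) * ρ' ^ (m - 1)) := by
      have : (m : C) * ρ' ^ (m - 1) = algebraMap S C ((m : S) * ρ ^ (m - 1)) := by
        rw [map_mul, map_natCast, map_pow]
      rw [this]
      exact (hm.mul (hρ.pow _)).map _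
    exact h𝔫.ne_top (Ideal.eq_top_of_isUnit_mem _ h3 h4)
  -- `r - ρ ∈ 𝔪 C`
  have hr𝔪 : r - ρ' ∈ (maximalIdeal S).map (algebraMap S C) := by
    obtain ⟨u, hu⟩ := hunit
    have h1 : r - ρ' = ↑u⁻¹ * (r ^ m - ρ' ^ m) := by
      rw [← hgeom, ← hu, ← mul_assoc, Units.inv_mul, one_mul]
    rw [h1]
    refine Ideal.mul_mem_left _ _ ?_
    have h2 : r ^ m - ρ' ^ m = algebraMap S C (t - ρ ^ m) := by
      rw [map_sub, map_pow, ht]
    rw [h2]
    exact Ideal.mem_map_of_mem _ ht𝔪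
  -- `C = S + 𝔪 C` as `S`-modules
  set N : Submodule S C := LinearMap.range (Algebra.linearMap S C) with hN
  set J : Ideal C := (maximalIdeal S).map (algebraMap S C) with hJ
  have hsmul : (maximalIdeal S) • (⊤ : Submodule S C) = J.restrictScalars S := by
    rw [hJ, Ideal.smul_top_eq_map]
  have hall : ∀ c : C, c ∈ N ⊔ (maximalIdeal S) • (⊤ : Submodule S C) := by
    intro c
    have hc : c ∈ Algebra.adjoin S {r} := by rw [hgen]; exact Algebra.mem_top
    rw [hsmul]
    induction hc using Algebra.adjoin_induction with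
    | mem x hx =>
      rw [Set.mem_singleton_iff] at hx
      subst hx
      have : x = ρ' + (x - ρ') := by ring
      rw [this]
      exact Submodule.add_mem_sup ⟨ρ, rfl⟩ hr𝔪
    | algebraMap s => exact Submodule.mem_sup_left ⟨s, rfl⟩
    | add x y _ _ hx hy => exact Submodule.add_mem _ hx hy
    | mul x y _ _ hx hy =>
      obtain ⟨a, ⟨a', rfl⟩, b, hb, rfl⟩ := Submodule.mem_sup.mp hx
      obtain ⟨c, ⟨c', rfl⟩, d, hd, rfl⟩ := Submodule.mem_sup.mp hy
      have hb' : b ∈ J := hb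
      have hd' : d ∈ J := hd
      have : (Algebra.linearMap S C a' + b) * (Algebra.linearMap S C c' + d)
          = Algebra.linearMap S C (a' * c')
            + (Algebra.linearMap S C a' * d + b * (Algebra.linearMap S C c' + d)) := by
        simp only [Algebra.linearMap_apply, map_mul]; ring
      rw [this]
      refine Submodule.add_mem_sup ⟨a' * c', rfl⟩ ?_
      show _ ∈ J
      exact J.add_mem (J.mul_mem_left _ hd') (J.mul_mem_right _ hb')
  have hfg : (⊤ : Submodule S C).FG := by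
    have hint : IsIntegral S r := by
      refine ⟨Polynomial.X ^ m - Polynomial.C t, Polynomial.monic_X_pow_sub_C t hm0, ?_⟩
      rw [Polynomial.eval₂_sub, Polynomial.eval₂_pow, Polynomial.eval₂_X, Polynomial.eval₂_C, ht,
        sub_self]
    have := hint.fg_adjoin_singleton
    rwa [hgen, Algebra.top_toSubmodule] at this
  have hjac : maximalIdeal S ≤ Ideal.jacobson (⊥ : Ideal S) := by
    rw [IsLocalRing.jacobson_eq_maximalIdeal ⊥ bot_ne_top]
  have hfin : (⊤ : Submodule S C) ≤ N :=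
    Submodule.le_of_le_smul_of_le_jacobson_bot hfg hjac fun c _ => hall c
  intro c
  obtain ⟨s, hs⟩ := hfin (Submodule.mem_top : c ∈ ⊤)
  exact ⟨s, hs⟩

end Fermat.Agent.T4
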