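/-
T4-L (helper5): the local lemma at a point `𝔫` of the special fibre, in the language of `T4Pres`.

`P.glue_local`: `𝔫` a maximal ideal of `B` containing `q`; all vertical branches through `𝔫` smooth;
`s` a local generator (`s ^ m * z` a unit of `B_𝔫`, `z ≡ 1 mod q`) whose branch values are all equal
to one `κ ≠ 0`.  Then `s ∈ B_𝔫 + q · O_𝔫`, `O_𝔫` = the intersection of the vertical valuation rings
through `𝔫`.
-/
import Fermat.Agent.Lib.T4.Local.Gen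
import Fermat.Agent.Lib.T4.Local.LocalLemma

set_option autoImplicit false
set_option linter.style.haveILetI false

namespace Fermat.Agent.T4

variable {F : Type*} [Field F]

/-- in a linearly ordered group with zero, `x ^ m = 1` forces `x = 1` -/
theorem t4l_eq_one_of_pow_eq_one {Γ : Type*} [LinearOrderedCommGroupWithZero Γ] {x : Γ} {m : ℕ}
    (hm : m ≠ 0) (h : x ^ m = 1) : x = 1 := by
  rcases lt_trichotomy x 1 with h1 | h1 | h1
  · exact absurd h (pow_lt_one₀ zero_le h1 hm).ne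
  · exact h1
  · exact absurd h (one_lt_pow₀ h1 hm).ne'

namespace T4Pres

variable (P : T4Pres F)

theorem vert_finite {q : F} (hq0 : q ≠ 0) : (P.vert q).Finite := by
  refine (P.finite_char q⁻¹ (inv_ne_zero hq0)).subset ?_
  rintro V ⟨hV, hVq⟩
  refine ⟨hV, fun hmem => ?_⟩
  have h1 : V.valuation q⁻¹ ≤ 1 := (V.valuation_le_one_iff _).mpr hmem
  rw [map_inv₀] at h1
  have h2 : V.valuation q ≠ 0 := by rwa [ne_eq, map_eq_zero]
  have h3 : 1 ≤ V.valuation q := by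
    have := (inv_le_one₀ (zero_lt_iff.mpr h2)).mp h1
    exact this
  exact absurd hVq (not_lt.mpr h3)

/-- the vertical valuation rings through `𝔫` -/
def vthrough (𝔫 : Ideal P.B) (q : F) : Set (ValuationSubring F) := P.through 𝔫 ∩ P.vert q

theorem vthrough_finite (𝔫 : Ideal P.B) {q : F} (hq0 : q ≠ 0) : (P.vthrough 𝔫 q).Finite :=
  (P.vert_finite hq0).subset Set.inter_subset_right

/-- `O_𝔫`: the intersection of the vertical valuation rings through `𝔫` -/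
def ovAt (𝔫 : Ideal P.B) (q : F) : Subring F where
  carrier := {f | ∀ V ∈ P.vthrough 𝔫 q, f ∈ V}
  mul_mem' := fun hf hg V hV => V.mul_mem _ _ (hf V hV) (hg V hV)
  one_mem' := fun V _ => V.one_mem
  add_mem' := fun hf hg V hV => V.add_mem _ _ (hf V hV) (hg V hV)
  zero_mem' := fun V _ => V.zero_mem
  neg_mem' := fun hf V hV => V.neg_mem _ (hf V hV)

theorem mem_ovAt {𝔫 : Ideal P.B} {q f : F} :
    f ∈ P.ovAt 𝔫 q ↔ ∀ V ∈ P.vthrough 𝔫 q, f ∈ V := Iff.rfl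

theorem loc_le_ovAt (𝔫 : Ideal P.B) (q : F) : P.loc 𝔫 ≤ P.ovAt 𝔫 q :=
  fun _ hf V hV => hf V hV.1

theorem ov_le_ovAt (𝔫 : Ideal P.B) (q : F) : P.ov q ≤ P.ovAt 𝔫 q :=
  fun _ hf V hV => hf V hV.2

/-- an element of `O_𝔫` which is a non-unit in all vertical valuation rings through `𝔫` has a power
divisible by `q` -/
theorem exists_pow_div_mem_ovAt (𝔫 : Ideal P.B) {q : F} (hq0 : q ≠ 0) {x : F}
    (hx : ∀ V ∈ P.vthrough 𝔫 q, V.valuation x < 1) :
    ∃ N : ℕ, x ^ N / q ∈ P.ovAt 𝔫 q := by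
  classical
  rcases eq_or_ne x 0 with rfl | hx0
  · exact ⟨1, by rw [pow_one, zero_div]; exact (P.ovAt 𝔫 q).zero_mem⟩
  have hfin := P.vthrough_finite 𝔫 hq0
  have hV : ∀ V ∈ hfin.toFinset, ∃ n : ℕ, x ^ n * q⁻¹ ∈ V := by
    intro V hV
    rw [Set.Finite.mem_toFinset] at hV
    haveI := P.dvr V hV.1.1
    exact t4l_arch V (hx V hV) hx0 q⁻¹
  choose! nfun hn using hV
  refine ⟨∑ V ∈ hfin.toFinset, nfun V, fun V hV => ?_⟩
  have hVmem : V ∈ hfin.toFinset := by rwa [Set.Finite.mem_toFinset]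
  have hxV : x ∈ V := (V.valuation_le_one_iff x).mp (hx V hV).le
  rw [← Finset.add_sum_erase _ _ hVmem, pow_add, div_eq_mul_inv, mul_assoc,
    mul_comm (x ^ _) q⁻¹, ← mul_assoc]
  exact V.mul_mem _ _ (hn V hVmem) (V.pow_mem hxV _)

end T4Pres

end Fermat.Agent.T4

namespace Fermat.Agent.T4

variable {F : Type*} [Field F]

namespace T4Pres

variable (P : T4Pres F)

noncomputable section Residue

variable (𝔫 : Ideal P.B) (q : F)

/-- `O_𝔫 → V` -/
def ovAtToVal (V : ValuationSubring F) (hV : V ∈ P.vthrough 𝔫 q) : ↥(P.ovAt 𝔫 q) →+* ↥V where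
  toFun f := ⟨f, f.2 V hV⟩
  map_one' := rfl
  map_mul' _ _ := rfl
  map_zero' := rfl
  map_add' _ _ := rfl

/-- the reduction `O_𝔫 → κ(V)` -/
def ovAtRes (V : ValuationSubring F) (hV : V ∈ P.vthrough 𝔫 q) :
    ↥(P.ovAt 𝔫 q) →+* IsLocalRing.ResidueField ↥V :=
  (IsLocalRing.residue ↥V).comp (P.ovAtToVal 𝔫 q V hV)

theorem ovAtRes_eq_zero_iff {V : ValuationSubring F} (hV : V ∈ P.vthrough 𝔫 q)
    (f : ↥(P.ovAt 𝔫 q)) : P.ovAtRes 𝔫 q V hV f = 0 ↔ V.valuation (f : F) < 1 := by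
  show IsLocalRing.residue ↥V (P.ovAtToVal 𝔫 q V hV f) = 0 ↔ _
  rw [IsLocalRing.residue_eq_zero_iff, V.valuation_lt_one_iff]
  rfl

/-- `B_𝔫 → O_𝔫` -/
def locToOvAt : ↥(P.loc 𝔫) →+* ↥(P.ovAt 𝔫 q) := Subring.inclusion (P.loc_le_ovAt 𝔫 q)

/-- the reduction `B_𝔫 → κ(V)` -/
def locRes (V : ValuationSubring F) (hV : V ∈ P.vthrough 𝔫 q) :
    ↥(P.loc 𝔫) →+* IsLocalRing.ResidueField ↥V :=
  (P.ovAtRes 𝔫 q V hV).comp (P.locToOvAt 𝔫 q)

/-- the branch ring: the image of `B_𝔫` in `κ(V)` -/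
def branchRing (V : ValuationSubring F) (hV : V ∈ P.vthrough 𝔫 q) :
    Subring (IsLocalRing.ResidueField ↥V) := (P.locRes 𝔫 q V hV).range

/-- `B_𝔫 → ` the branch ring -/
def locResB (V : ValuationSubring F) (hV : V ∈ P.vthrough 𝔫 q) :
    ↥(P.loc 𝔫) →+* ↥(P.branchRing 𝔫 q V hV) := (P.locRes 𝔫 q V hV).rangeRestrict

theorem locResB_surjective (V : ValuationSubring F) (hV : V ∈ P.vthrough 𝔫 q) :
    Function.Surjective (P.locResB 𝔫 q V hV) := (P.locRes 𝔫 q V hV).rangeRestrict_surjective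

theorem coe_locResB (V : ValuationSubring F) (hV : V ∈ P.vthrough 𝔫 q) (a : ↥(P.loc 𝔫)) :
    ((P.locResB 𝔫 q V hV a : ↥(P.branchRing 𝔫 q V hV)) : IsLocalRing.ResidueField ↥V)
      = P.locRes 𝔫 q V hV a := rfl

theorem isLocalRing_branchRing [h𝔫 : 𝔫.IsPrime] (V : ValuationSubring F)
    (hV : V ∈ P.vthrough 𝔫 q) : IsLocalRing ↥(P.branchRing 𝔫 q V hV) := by
  haveI := P.isLocalRing_loc 𝔫
  exact IsLocalRing.of_surjective' (P.locResB 𝔫 q V hV) (P.locResB_surjective 𝔫 q V hV)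

/-- a non-unit of `B_𝔫` maps to a non-unit of the branch ring -/
theorem locResB_mem_maximalIdeal [h𝔫 : 𝔫.IsPrime] (V : ValuationSubring F)
    (hV : V ∈ P.vthrough 𝔫 q) (a : ↥(P.loc 𝔫))
    (ha : letI := P.isLocalRing_loc 𝔫; a ∈ IsLocalRing.maximalIdeal ↥(P.loc 𝔫)) :
    letI := P.isLocalRing_branchRing 𝔫 q V hV
    P.locResB 𝔫 q V hV a ∈ IsLocalRing.maximalIdeal ↥(P.branchRing 𝔫 q V hV) := by
  letI := P.isLocalRing_loc 𝔫
  letI := P.isLocalRing_branchRing 𝔫 q V hV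
  haveI : IsLocalHom (P.locResB 𝔫 q V hV) :=
    IsLocalHom.of_surjective _ (P.locResB_surjective 𝔫 q V hV)
  rw [IsLocalRing.mem_maximalIdeal, mem_nonunits_iff] at ha ⊢
  exact fun h => ha (IsLocalHom.map_nonunit a h)

end Residue

end T4Pres

end Fermat.Agent.T4
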