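/-
T4-L (helper5): the local lemma at a point `𝔫` of the special fibre (main statement).
-/
import Fermat.Agent.Lib.T4.Local.GlueLocal

set_option autoImplicit false
set_option linter.style.haveILetI false

namespace Fermat.Agent.T4

variable {F : Type*} [Field F]

namespace T4Pres

variable (P : T4Pres F)

/-- `z ≡ 1 mod q · Ov` is a unit in every vertical valuation ring -/
theorem valuation_eq_one_of_congrOv {q z : F} (hz : P.CongrOv q z 1) {V : ValuationSubring F}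
    (hV : V ∈ P.vert q) : V.valuation z = 1 := by
  obtain ⟨o, ho, hzo⟩ := hz
  have h1 : z = 1 + q * o := by rw [← hzo]; ring
  have h2 : V.valuation (q * o) < 1 := by
    rw [map_mul]
    have ho1 : V.valuation o ≤ 1 := (V.valuation_le_one_iff _).mpr (ho V hV)
    calc V.valuation q * V.valuation o ≤ V.valuation q * 1 := mul_le_mul_right ho1 _
      _ = V.valuation q := mul_one _
      _ < 1 := hV.2
  rw [h1]
  have h3 := V.valuation.map_add_eq_of_lt_left (x := (1 : F)) (y := q * o)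
    (by rw [map_one]; exact h2)
  rw [h3, map_one]

/-- the value of a `BranchVal` is represented by an element of `B_𝔫` -/
theorem BranchVal.exists_loc {𝔫 : Ideal P.B} [h𝔫 : 𝔫.IsPrime] {V : ValuationSubring F}
    (hV : V ∈ P.through 𝔫) {f : F} {κ : P.B ⧸ 𝔫} (h : P.BranchVal 𝔫 V f κ) :
    ∃ (a : ↥(P.loc 𝔫)) (b c : P.B), c ∉ 𝔫 ∧ (c : F) * (a : F) = (b : F) ∧
      κ * Ideal.Quotient.mk 𝔫 c = Ideal.Quotient.mk 𝔫 b ∧ V.valuation (f - (a : F)) < 1 := by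
  obtain ⟨b, c, hc, hval, hκ⟩ := h
  have hc0 : (c : F) ≠ 0 := by
    intro h0
    apply hc
    have : c = 0 := Subtype.ext h0
    rw [this]; exact 𝔫.zero_mem
  have ha : (b : F) / (c : F) ∈ P.loc 𝔫 :=
    P.mem_loc_iff.mpr ⟨c, hc, by rw [mul_div_cancel₀ _ hc0]; exact b.2⟩
  refine ⟨⟨_, ha⟩, b, c, hc, mul_div_cancel₀ _ hc0, hκ, ?_⟩
  have hcv : V.valuation (c : F) = 1 := P.valuation_eq_one_of_not_mem hV hc
  have h1 : f - (b : F) / (c : F) = (f * (c : F) - (b : F)) / (c : F) := by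
    field_simp
  show V.valuation (f - (b : F) / (c : F)) < 1
  rw [h1, map_div₀, hcv, div_one]
  exact hval

/-- **the local lemma at a point**: `𝔫` a maximal ideal of `B` containing `q`, `z ≡ 1 mod q`,
`s` a local generator at `𝔫` all of whose branch values are equal to one `κ ≠ 0`.  Then
`s ∈ B_𝔫 + q · O_𝔫`. -/
theorem glue_local [IsNoetherianRing P.B] (𝔫 : Ideal P.B) [h𝔫 : 𝔫.IsMaximal] {q : F}
    (hq : q ∈ P.B) (hq0 : q ≠ 0) {m : ℕ} (hm : (m : F)⁻¹ ∈ P.B) (hmF : (m : F) ≠ 0)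
    {z : F} (hz : P.CongrOv q z 1)
    {s : F} (hs : ∀ V ∈ P.through 𝔫, V.valuation (s ^ m * z) = 1)
    {κ : P.B ⧸ 𝔫} (hκ0 : κ ≠ 0)
    (hκ : ∀ V ∈ P.through 𝔫, V ∈ P.vert q → P.BranchVal 𝔫 V s κ) :
    ∃ b ∈ P.loc 𝔫, (s - b) / q ∈ P.ovAt 𝔫 q := by
  classical
  haveI h𝔫p : 𝔫.IsPrime := h𝔫.isPrime
  letI := P.isLocalRing_loc 𝔫
  have hm0 : m ≠ 0 := by
    rintro rfl
    exact hmF (by simp)
  have hqO : q ∈ P.ovAt 𝔫 q := P.loc_le_ovAt 𝔫 q (P.B_le_loc 𝔫 hq)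
  -- `s` is a unit in the vertical valuation rings through `𝔫`
  have hsV : ∀ V ∈ P.vthrough 𝔫 q, V.valuation s = 1 := by
    intro V hV
    have h1 := hs V hV.1
    rw [map_mul, map_pow, P.valuation_eq_one_of_congrOv hz hV.2, mul_one] at h1
    exact t4l_eq_one_of_pow_eq_one hm0 h1
  have hsO : s ∈ P.ovAt 𝔫 q := fun V hV => (V.valuation_le_one_iff _).mp (hsV V hV).le
  -- the quotient ring `Q = O_𝔫 / q`
  set I : Ideal ↥(P.ovAt 𝔫 q) := Ideal.span {(⟨q, hqO⟩ : ↥(P.ovAt 𝔫 q))} with hI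
  let φ : ↥(P.loc 𝔫) →+* (↥(P.ovAt 𝔫 q) ⧸ I) := (Ideal.Quotient.mk I).comp (P.locToOvAt 𝔫 q)
  letI : Algebra ↥(P.loc 𝔫) (↥(P.ovAt 𝔫 q) ⧸ I) := φ.toAlgebra
  set r : ↥(P.ovAt 𝔫 q) ⧸ I := Ideal.Quotient.mk I ⟨s, hsO⟩ with hr
  set C : Subalgebra ↥(P.loc 𝔫) (↥(P.ovAt 𝔫 q) ⧸ I) := Algebra.adjoin ↥(P.loc 𝔫) {r} with hC
  have hrC : r ∈ C := Algebra.subset_adjoin (Set.mem_singleton r)
  set r' : ↥C := ⟨r, hrC⟩ with hr'
  -- the reductions `Q → κ(V)`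
  have hkill : ∀ (V : ValuationSubring F) (hV : V ∈ P.vthrough 𝔫 q),
      ∀ a ∈ I, P.ovAtRes 𝔫 q V hV a = 0 := by
    intro V hV a ha
    rw [hI, Ideal.mem_span_singleton] at ha
    obtain ⟨c, rfl⟩ := ha
    rw [map_mul]
    have : P.ovAtRes 𝔫 q V hV ⟨q, hqO⟩ = 0 := by
      rw [P.ovAtRes_eq_zero_iff]; exact hV.2.2
    rw [this, zero_mul]
  let red : ∀ (V : ValuationSubring F) (hV : V ∈ P.vthrough 𝔫 q),
      (↥(P.ovAt 𝔫 q) ⧸ I) →+* IsLocalRing.ResidueField ↥V :=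
    fun V hV => Ideal.Quotient.lift I (P.ovAtRes 𝔫 q V hV) (hkill V hV)
  have hred_mk : ∀ (V : ValuationSubring F) (hV : V ∈ P.vthrough 𝔫 q) (x : ↥(P.ovAt 𝔫 q)),
      red V hV (Ideal.Quotient.mk I x) = P.ovAtRes 𝔫 q V hV x := fun V hV x => rfl
  have hred_alg : ∀ (V : ValuationSubring F) (hV : V ∈ P.vthrough 𝔫 q) (a : ↥(P.loc 𝔫)),
      red V hV (algebraMap ↥(P.loc 𝔫) (↥(P.ovAt 𝔫 q) ⧸ I) a) = P.locRes 𝔫 q V hV a :=
    fun V hV a => rfl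
  -- the branch value as an element of `B_𝔫`
  have hbranch : ∀ (V : ValuationSubring F) (hV : V ∈ P.vthrough 𝔫 q),
      ∃ a : ↥(P.loc 𝔫), red V hV r = P.locRes 𝔫 q V hV a ∧
        ∃ b c : P.B, c ∉ 𝔫 ∧ (c : F) * (a : F) = (b : F) ∧
          κ * Ideal.Quotient.mk 𝔫 c = Ideal.Quotient.mk 𝔫 b := by
    intro V hV
    obtain ⟨a, b, c, hc, hca, hκc, hval⟩ := (hκ V hV.1 hV.2).exists_loc P hV.1
    refine ⟨a, ?_, b, c, hc, hca, hκc⟩
    rw [hr, hred_mk]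
    show P.ovAtRes 𝔫 q V hV ⟨s, hsO⟩ = P.ovAtRes 𝔫 q V hV (P.locToOvAt 𝔫 q a)
    rw [← sub_eq_zero, ← map_sub, P.ovAtRes_eq_zero_iff]
    exact hval
  -- the image of `C` lies in the branch rings
  have hCmem : ∀ (V : ValuationSubring F) (hV : V ∈ P.vthrough 𝔫 q) (x : ↥C),
      red V hV (x : ↥(P.ovAt 𝔫 q) ⧸ I) ∈ P.branchRing 𝔫 q V hV := by
    intro V hV x
    obtain ⟨x, hx⟩ := x
    show red V hV x ∈ P.branchRing 𝔫 q V hV
    induction hx using Algebra.adjoin_induction with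
    | mem y hy =>
      rw [Set.mem_singleton_iff] at hy
      subst hy
      obtain ⟨a, ha, _⟩ := hbranch V hV
      rw [ha]
      exact ⟨a, rfl⟩
    | algebraMap a => rw [hred_alg]; exact ⟨a, rfl⟩
    | add x y _ _ hx hy => rw [map_add]; exact Subring.add_mem _ hx hy
    | mul x y _ _ hx hy => rw [map_mul]; exact Subring.mul_mem _ hx hy
  -- the index type
  haveI : Fintype {V // V ∈ P.vthrough 𝔫 q} := (P.vthrough_finite 𝔫 hq0).fintype
  letI : ∀ i : {V // V ∈ P.vthrough 𝔫 q}, IsLocalRing ↥(P.branchRing 𝔫 q i.1 i.2) :=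
    fun i => P.isLocalRing_branchRing 𝔫 q i.1 i.2
  let ψi : ∀ i : {V // V ∈ P.vthrough 𝔫 q}, ↥C →+* ↥(P.branchRing 𝔫 q i.1 i.2) :=
    fun i => ((red i.1 i.2).comp C.val.toRingHom).codRestrict (P.branchRing 𝔫 q i.1 i.2)
      (fun x => hCmem i.1 i.2 x)
  let ψ : ↥C →+* ∀ i : {V // V ∈ P.vthrough 𝔫 q}, ↥(P.branchRing 𝔫 q i.1 i.2) :=
    RingHom.pi ψi
  have hψ_coe : ∀ (i : {V // V ∈ P.vthrough 𝔫 q}) (x : ↥C),
      ((ψ x i : ↥(P.branchRing 𝔫 q i.1 i.2)) : IsLocalRing.ResidueField ↥i.1)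
        = red i.1 i.2 (x : ↥(P.ovAt 𝔫 q) ⧸ I) := fun i x => rfl
  have hψ_alg : ∀ (i : {V // V ∈ P.vthrough 𝔫 q}) (a : ↥(P.loc 𝔫)),
      ψ (algebraMap ↥(P.loc 𝔫) ↥C a) i = P.locResB 𝔫 q i.1 i.2 a := by
    intro i a
    apply Subtype.ext
    rw [hψ_coe, P.coe_locResB]
    rfl
  -- nil kernel
  have hker : ∀ x : ↥C, ψ x = 0 → IsNilpotent x := by
    intro x hx
    obtain ⟨xt, hxt⟩ := Ideal.Quotient.mk_surjective (x : ↥(P.ovAt 𝔫 q) ⧸ I)
    have hval : ∀ V ∈ P.vthrough 𝔫 q, V.valuation (xt : F) < 1 := by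
      intro V hV
      have h1 := hψ_coe ⟨V, hV⟩ x
      rw [hx] at h1
      have h2 : red V hV (x : ↥(P.ovAt 𝔫 q) ⧸ I) = 0 := by
        rw [← h1]; rfl
      rw [← hxt, hred_mk, P.ovAtRes_eq_zero_iff] at h2
      exact h2
    obtain ⟨N, hN⟩ := P.exists_pow_div_mem_ovAt 𝔫 hq0 hval
    refine ⟨N, ?_⟩
    apply Subtype.ext
    show (x : ↥(P.ovAt 𝔫 q) ⧸ I) ^ N = 0
    rw [← hxt, ← map_pow, Ideal.Quotient.eq_zero_iff_mem, hI, Ideal.mem_span_singleton]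
    refine ⟨⟨_, hN⟩, ?_⟩
    apply Subtype.ext
    show (xt : F) ^ N = q * ((xt : F) ^ N / q)
    field_simp
  -- integrality
  have hint : ψ.IsIntegral := by
    intro y
    have hy : y = ∑ i, Pi.single i (y i) := (Finset.univ_sum_single y).symm
    rw [hy]
    refine Finset.sum_induction _ ψ.IsIntegralElem (fun a b ha hb => ha.add ψ hb)
      ⟨Polynomial.X, Polynomial.monic_X, by simp⟩ ?_
    intro i _
    obtain ⟨a, ha⟩ := P.locResB_surjective 𝔫 q i.1 i.2 (y i)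
    have h1 : Pi.single i (y i)
        = (Pi.single i 1 : ∀ i : {V // V ∈ P.vthrough 𝔫 q}, ↥(P.branchRing 𝔫 q i.1 i.2))
          * ψ (algebraMap ↥(P.loc 𝔫) ↥C a) := by
      funext j
      by_cases hj : j = i
      · subst hj
        rw [Pi.mul_apply, Pi.single_eq_same, Pi.single_eq_same, one_mul, hψ_alg, ha]
      · rw [Pi.mul_apply, Pi.single_eq_of_ne hj, Pi.single_eq_of_ne hj, zero_mul]
    rw [h1]
    refine RingHom.IsIntegralElem.mul ψ ?_ ψ.isIntegralElem_map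
    refine ⟨Polynomial.X * (Polynomial.X - Polynomial.C 1),
      Polynomial.monic_X.mul (Polynomial.monic_X_sub_C 1), ?_⟩
    rw [Polynomial.eval₂_mul, Polynomial.eval₂_sub, Polynomial.eval₂_X, Polynomial.eval₂_C,
      map_one, mul_sub, mul_one, sub_eq_zero]
    funext j
    by_cases hj : j = i
    · subst hj
      rw [Pi.mul_apply, Pi.single_eq_same, one_mul]
    · rw [Pi.mul_apply, Pi.single_eq_of_ne hj, zero_mul]
  -- the value `ρ`
  obtain ⟨b0, hb0⟩ := Ideal.Quotient.mk_surjective κ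
  have hb0𝔫 : b0 ∉ 𝔫 := by
    intro h
    apply hκ0
    rw [← hb0, Ideal.Quotient.eq_zero_iff_mem]
    exact h
  set ρ : ↥(P.loc 𝔫) := P.locIncl 𝔫 b0 with hρ
  have hρu : IsUnit ρ := by
    rw [P.isUnit_loc_iff]
    refine ⟨?_, fun V hV => P.valuation_eq_one_of_not_mem hV hb0𝔫⟩
    intro h0
    apply hb0𝔫
    have : b0 = 0 := Subtype.ext h0
    rw [this]; exact 𝔫.zero_mem
  -- the branch condition
  have hx : ∀ i : {V // V ∈ P.vthrough 𝔫 q},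
      ψ (r' - algebraMap ↥(P.loc 𝔫) ↥C ρ) i ∈
        IsLocalRing.maximalIdeal ↥(P.branchRing 𝔫 q i.1 i.2) := by
    intro i
    obtain ⟨a, ha, b, c, hc, hca, hκc⟩ := hbranch i.1 i.2
    have h1 : ψ r' i = P.locResB 𝔫 q i.1 i.2 a := by
      apply Subtype.ext
      rw [hψ_coe, P.coe_locResB]
      exact ha
    rw [map_sub, Pi.sub_apply, h1, hψ_alg, ← map_sub]
    refine P.locResB_mem_maximalIdeal 𝔫 q i.1 i.2 _ ?_
    rw [P.mem_maximalIdeal_loc_iff]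
    refine ⟨b - b0 * c, c, ?_, hc, ?_⟩
    · rw [← Ideal.Quotient.eq_zero_iff_mem, map_sub, map_mul, hb0, hκc, sub_self]
    · show (c : F) * ((a : F) - (b0 : F)) = (b : F) - (b0 : F) * (c : F)
      rw [mul_sub, hca]; ring
  have hbr : ∀ 𝔑 : Ideal ↥C, 𝔑.IsMaximal → r' - algebraMap ↥(P.loc 𝔫) ↥C ρ ∈ 𝔑 := by
    intro 𝔑 h𝔑
    exact t4l_mem_maximal_of_branches (fun i : {V // V ∈ P.vthrough 𝔫 q} =>
      ↥(P.branchRing 𝔫 q i.1 i.2)) ψ hker hint _ hx 𝔑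
  -- the hypotheses of the local lemma
  have hmu : IsUnit ((m : ℕ) : ↥(P.loc 𝔫)) := by
    refine isUnit_iff_exists_inv.mpr ⟨⟨(m : F)⁻¹, P.B_le_loc 𝔫 hm⟩, ?_⟩
    apply Subtype.ext
    show ((m : ↥(P.loc 𝔫)) : F) * (m : F)⁻¹ = 1
    rw [Subring.coe_natCast]
    exact mul_inv_cancel₀ hmF
  have hgen : Algebra.adjoin ↥(P.loc 𝔫) {r'} = ⊤ := by
    have h1 := Algebra.adjoin_adjoin_coe_preimage (R := ↥(P.loc 𝔫)) (s := ({r} : Set _))
    have h2 : ((↑) : ↥(Algebra.adjoin ↥(P.loc 𝔫) ({r} : Set _)) → _) ⁻¹' ({r} : Set _)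
        = {r'} := by
      ext x
      simp only [Set.mem_preimage, Set.mem_singleton_iff]
      exact ⟨fun h => Subtype.ext h, fun h => by rw [h]⟩
    rw [h2] at h1
    exact h1
  -- `t = s^m z`
  have htA : s ^ m * z ∈ P.loc 𝔫 := fun V hV => (V.valuation_le_one_iff _).mp (hs V hV).le
  have ht : algebraMap ↥(P.loc 𝔫) ↥C ⟨s ^ m * z, htA⟩ = r' ^ m := by
    apply Subtype.ext
    show φ ⟨s ^ m * z, htA⟩ = r ^ m
    rw [hr, ← map_pow]
    show Ideal.Quotient.mk I (P.locToOvAt 𝔫 q ⟨s ^ m * z, htA⟩) = _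
    rw [Ideal.Quotient.eq, hI, Ideal.mem_span_singleton]
    obtain ⟨o, ho, hzo⟩ := hz
    refine ⟨⟨s ^ m * o, (P.ovAt 𝔫 q).mul_mem ((P.ovAt 𝔫 q).pow_mem hsO m)
      (P.ov_le_ovAt 𝔫 q ho)⟩, ?_⟩
    apply Subtype.ext
    show s ^ m * z - s ^ m = q * (s ^ m * o)
    have : z = 1 + q * o := by rw [← hzo]; ring
    rw [this]; ring
  have hsurj := t4l_local_lemma r' ρ m hmu hρu hgen ⟨s ^ m * z, htA⟩ ht hbr
  obtain ⟨a, ha⟩ := hsurj r'
  refine ⟨a, a.2, ?_⟩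
  have h1 : φ a = r := congrArg Subtype.val ha
  rw [hr] at h1
  have h2 : Ideal.Quotient.mk I (P.locToOvAt 𝔫 q a) = Ideal.Quotient.mk I ⟨s, hsO⟩ := h1
  rw [Ideal.Quotient.eq, hI, Ideal.mem_span_singleton] at h2
  obtain ⟨o, ho⟩ := h2
  have h3 : (a : F) - s = q * (o : F) := congrArg Subtype.val ho
  have h4 : (s - (a : F)) / q = -(o : F) := by
    rw [div_eq_iff hq0]
    linear_combination -h3
  rw [h4]
  exact (P.ovAt 𝔫 q).neg_mem o.2

end T4Pres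

end Fermat.Agent.T4
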