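/-
T4-L (helper5): API for branch values.

`P.BranchVal 𝔫 V f κ`: the reduction of `f` on the branch `V` through `𝔫` lies in the branch ring
(the image of `B_𝔫`) and takes the value `κ ∈ B ⧸ 𝔫` at the point.
* `branchVal_of_mem` (elements of `B`), `BranchVal.of_loc` (elements congruent to an element of
  `B_𝔫`), `BranchVal.unique`, `BranchVal.mul`, `BranchVal.pow`, `BranchVal.ne_zero`,
* `exists_branchVal_of_pow`: on a SMOOTH branch, an `m`-th root of (the reduction of) an element of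
  `B_𝔫` has a branch value.
-/
import Fermat.Agent.Lib.T4.Local.GlueMain

set_option autoImplicit false
set_option linter.style.haveILetI false

namespace Fermat.Agent.T4

variable {F : Type*} [Field F]

namespace T4Pres

variable (P : T4Pres F)

/-- elements of `B` have the obvious branch value -/
theorem branchVal_of_mem {𝔫 : Ideal P.B} (h𝔫 : 𝔫 ≠ ⊤) (V : ValuationSubring F) (b : P.B) :
    P.BranchVal 𝔫 V (b : F) (Ideal.Quotient.mk 𝔫 b) :=
  ⟨b, 1, (Ideal.ne_top_iff_one 𝔫).mp h𝔫, by simp, by simp⟩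

/-- an element which is congruent on the branch `V` to an element `a` of `B_𝔫` has a branch
value -/
theorem BranchVal.of_loc {𝔫 : Ideal P.B} [h𝔫 : 𝔫.IsMaximal] {V : ValuationSubring F}
    (hV : V ∈ P.through 𝔫) {f a : F} (ha : a ∈ P.loc 𝔫) (h : V.valuation (f - a) < 1) :
    ∃ κ : P.B ⧸ 𝔫, P.BranchVal 𝔫 V f κ := by
  haveI := h𝔫.isPrime
  obtain ⟨c, hc, hca⟩ := P.mem_loc_iff.mp ha
  have hc0 : Ideal.Quotient.mk 𝔫 c ≠ 0 := fun h0 => hc (Ideal.Quotient.eq_zero_iff_mem.mp h0)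
  obtain ⟨d, hd⟩ := Ideal.Quotient.exists_inv hc0
  refine ⟨Ideal.Quotient.mk 𝔫 ⟨_, hca⟩ * d, ⟨_, hca⟩, c, hc, ?_, ?_⟩
  · have hcv : V.valuation (c : F) = 1 := P.valuation_eq_one_of_not_mem hV hc
    have h1 : f * (c : F) - (c : F) * a = (f - a) * (c : F) := by ring
    show V.valuation (f * (c : F) - (c : F) * a) < 1
    rw [h1, map_mul, hcv, mul_one]
    exact h
  · rw [mul_assoc, mul_comm d, hd, mul_one]

/-- the branch value is unique -/
theorem BranchVal.unique {𝔫 : Ideal P.B} [h𝔫 : 𝔫.IsPrime] {V : ValuationSubring F}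
    (hV : V ∈ P.through 𝔫) {f : F} {κ κ' : P.B ⧸ 𝔫} (h : P.BranchVal 𝔫 V f κ)
    (h' : P.BranchVal 𝔫 V f κ') : κ = κ' := by
  obtain ⟨b, c, hc, hval, hκ⟩ := h
  obtain ⟨b', c', hc', hval', hκ'⟩ := h'
  -- `b c' - b' c ∈ 𝔪_V ∩ B ⊆ 𝔫`
  have h1 : ((b * c' - b' * c : P.B) : F) =
      (f * (c' : F) - (b' : F)) * (c : F) - (f * (c : F) - (b : F)) * (c' : F) := by
    push_cast; ring
  have hcV : V.valuation (c : F) ≤ 1 := (V.valuation_le_one_iff _).mpr (P.B_le hV.1 c.2)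
  have hc'V : V.valuation (c' : F) ≤ 1 := (V.valuation_le_one_iff _).mpr (P.B_le hV.1 c'.2)
  have h2 : V.valuation ((b * c' - b' * c : P.B) : F) < 1 := by
    rw [h1]
    refine lt_of_le_of_lt (V.valuation.map_sub _ _) (max_lt ?_ ?_)
    · rw [map_mul]
      calc V.valuation (f * (c' : F) - (b' : F)) * V.valuation (c : F)
          ≤ V.valuation (f * (c' : F) - (b' : F)) * 1 := mul_le_mul_right hcV _
        _ = V.valuation (f * (c' : F) - (b' : F)) := mul_one _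
        _ < 1 := hval'
    · rw [map_mul]
      calc V.valuation (f * (c : F) - (b : F)) * V.valuation (c' : F)
          ≤ V.valuation (f * (c : F) - (b : F)) * 1 := mul_le_mul_right hc'V _
        _ = V.valuation (f * (c : F) - (b : F)) := mul_one _
        _ < 1 := hval
  have h3 : b * c' - b' * c ∈ 𝔫 := hV.2 _ h2
  have h4 : Ideal.Quotient.mk 𝔫 b * Ideal.Quotient.mk 𝔫 c' =
      Ideal.Quotient.mk 𝔫 b' * Ideal.Quotient.mk 𝔫 c := by
    rw [← map_mul, ← map_mul, ← sub_eq_zero, ← map_sub]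
    exact Ideal.Quotient.eq_zero_iff_mem.mpr h3
  haveI : IsDomain (P.B ⧸ 𝔫) := Ideal.Quotient.isDomain 𝔫
  have hc0 : Ideal.Quotient.mk 𝔫 c ≠ 0 := fun h0 => hc (Ideal.Quotient.eq_zero_iff_mem.mp h0)
  have hc'0 : Ideal.Quotient.mk 𝔫 c' ≠ 0 := fun h0 => hc' (Ideal.Quotient.eq_zero_iff_mem.mp h0)
  rw [← hκ, ← hκ'] at h4
  have h5 : κ * (Ideal.Quotient.mk 𝔫 c * Ideal.Quotient.mk 𝔫 c') =
      κ' * (Ideal.Quotient.mk 𝔫 c * Ideal.Quotient.mk 𝔫 c') := by
    calc κ * (Ideal.Quotient.mk 𝔫 c * Ideal.Quotient.mk 𝔫 c')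
        = κ * Ideal.Quotient.mk 𝔫 c * Ideal.Quotient.mk 𝔫 c' := by ring
      _ = κ' * Ideal.Quotient.mk 𝔫 c' * Ideal.Quotient.mk 𝔫 c := h4
      _ = κ' * (Ideal.Quotient.mk 𝔫 c * Ideal.Quotient.mk 𝔫 c') := by ring
  exact mul_right_cancel₀ (mul_ne_zero hc0 hc'0) h5

/-- branch values are multiplicative -/
theorem BranchVal.mul {𝔫 : Ideal P.B} [h𝔫 : 𝔫.IsPrime] {V : ValuationSubring F}
    (hV : V ∈ P.vals) {f g : F} {κ κ' : P.B ⧸ 𝔫} (h : P.BranchVal 𝔫 V f κ)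
    (h' : P.BranchVal 𝔫 V g κ') : P.BranchVal 𝔫 V (f * g) (κ * κ') := by
  obtain ⟨b, c, hc, hval, hκ⟩ := h
  obtain ⟨b', c', hc', hval', hκ'⟩ := h'
  refine ⟨b * b', c * c', fun hmem => ?_, ?_, ?_⟩
  · rcases h𝔫.mem_or_mem hmem with h1 | h1
    · exact hc h1
    · exact hc' h1
  · have h1 : f * g * ((c * c' : P.B) : F) - ((b * b' : P.B) : F) =
        (f * (c : F) - (b : F)) * (g * (c' : F)) + (b : F) * (g * (c' : F) - (b' : F)) := by
      push_cast; ring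
    have hbV : V.valuation (b : F) ≤ 1 := (V.valuation_le_one_iff _).mpr (P.B_le hV b.2)
    have hb'V : V.valuation (b' : F) ≤ 1 := (V.valuation_le_one_iff _).mpr (P.B_le hV b'.2)
    have hgc : V.valuation (g * (c' : F)) ≤ 1 := by
      have h2 : g * (c' : F) = (g * (c' : F) - (b' : F)) + (b' : F) := by ring
      rw [h2]
      exact le_trans (V.valuation.map_add _ _) (max_le hval'.le hb'V)
    rw [h1]
    refine lt_of_le_of_lt (V.valuation.map_add _ _) (max_lt ?_ ?_)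
    · rw [map_mul]
      calc V.valuation (f * (c : F) - (b : F)) * V.valuation (g * (c' : F))
          ≤ V.valuation (f * (c : F) - (b : F)) * 1 := mul_le_mul_right hgc _
        _ = V.valuation (f * (c : F) - (b : F)) := mul_one _
        _ < 1 := hval
    · rw [map_mul]
      calc V.valuation (b : F) * V.valuation (g * (c' : F) - (b' : F))
          ≤ 1 * V.valuation (g * (c' : F) - (b' : F)) := mul_le_mul_left hbV _
        _ = V.valuation (g * (c' : F) - (b' : F)) := one_mul _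
        _ < 1 := hval'
  · rw [map_mul, map_mul, ← hκ, ← hκ']; ring

/-- the constant `1` has branch value `1` -/
theorem branchVal_one {𝔫 : Ideal P.B} (h𝔫 : 𝔫 ≠ ⊤) (V : ValuationSubring F) :
    P.BranchVal 𝔫 V 1 1 := by
  have := P.branchVal_of_mem h𝔫 V 1
  simpa using this

/-- branch values of powers -/
theorem BranchVal.pow {𝔫 : Ideal P.B} [h𝔫 : 𝔫.IsPrime] {V : ValuationSubring F}
    (hV : V ∈ P.vals) {f : F} {κ : P.B ⧸ 𝔫} (h : P.BranchVal 𝔫 V f κ) (n : ℕ) :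
    P.BranchVal 𝔫 V (f ^ n) (κ ^ n) := by
  induction n with
  | zero => simpa using P.branchVal_one h𝔫.ne_top V
  | succ n ih => rw [pow_succ, pow_succ]; exact BranchVal.mul P hV ih h

/-- the branch value only depends on the reduction of `f` on the branch -/
theorem BranchVal.congr {𝔫 : Ideal P.B} {V : ValuationSubring F} (hV : V ∈ P.vals) {f g : F}
    {κ : P.B ⧸ 𝔫} (h : P.BranchVal 𝔫 V f κ) (hfg : V.valuation (f - g) < 1) :
    P.BranchVal 𝔫 V g κ := by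
  obtain ⟨b, c, hc, hval, hκ⟩ := h
  refine ⟨b, c, hc, ?_, hκ⟩
  have h1 : g * (c : F) - (b : F) = (f * (c : F) - (b : F)) - (f - g) * (c : F) := by ring
  have hcV : V.valuation (c : F) ≤ 1 := (V.valuation_le_one_iff _).mpr (P.B_le hV c.2)
  rw [h1]
  refine lt_of_le_of_lt (V.valuation.map_sub _ _) (max_lt hval ?_)
  rw [map_mul]
  calc V.valuation (f - g) * V.valuation (c : F) ≤ V.valuation (f - g) * 1 :=
        mul_le_mul_right hcV _
    _ = V.valuation (f - g) := mul_one _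
    _ < 1 := hfg

/-- `x ≡ y` modulo `𝔪_V` implies `x ^ m ≡ y ^ m` -/
theorem _root_.Fermat.Agent.T4.t4l_pow_sub_pow_lt (V : ValuationSubring F) {x y : F} (hy : y ∈ V)
    (h : V.valuation (x - y) < 1) (m : ℕ) : V.valuation (x ^ m - y ^ m) < 1 := by
  have hx : x ∈ V := by
    have h1 : x = (x - y) + y := by ring
    rw [h1]
    exact V.add_mem _ _ ((V.valuation_le_one_iff _).mp h.le) hy
  have h2 := Commute.geom_sum₂_mul (Commute.all x y) m
  rw [← h2, map_mul]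
  have h3 : (∑ i ∈ Finset.range m, x ^ i * y ^ (m - 1 - i)) ∈ V :=
    sum_mem fun i _ => V.mul_mem _ _ (pow_mem hx _) (pow_mem hy _)
  calc V.valuation (∑ i ∈ Finset.range m, x ^ i * y ^ (m - 1 - i)) * V.valuation (x - y)
      ≤ 1 * V.valuation (x - y) := mul_le_mul_left ((V.valuation_le_one_iff _).mpr h3) _
    _ = V.valuation (x - y) := one_mul _
    _ < 1 := h

/-- the value of an element of `B_𝔫` at the point `𝔫` -/
noncomputable def locVal (𝔫 : Ideal P.B) [h𝔫 : 𝔫.IsMaximal] : ↥(P.loc 𝔫) →+* P.B ⧸ 𝔫 :=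
  letI := P.locAlgebra 𝔫
  haveI := P.isLocalization_loc 𝔫
  IsLocalization.lift (M := 𝔫.primeCompl) (S := ↥(P.loc 𝔫)) (g := Ideal.Quotient.mk 𝔫) (by
    rintro ⟨c, hc⟩
    have hc0 : Ideal.Quotient.mk 𝔫 c ≠ 0 := fun h0 => hc (Ideal.Quotient.eq_zero_iff_mem.mp h0)
    obtain ⟨d, hd⟩ := Ideal.Quotient.exists_inv hc0
    exact IsUnit.of_mul_eq_one _ hd)

@[simp]
theorem locVal_locIncl (𝔫 : Ideal P.B) [h𝔫 : 𝔫.IsMaximal] (b : P.B) :
    P.locVal 𝔫 (P.locIncl 𝔫 b) = Ideal.Quotient.mk 𝔫 b := by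
  letI := P.locAlgebra 𝔫
  haveI := P.isLocalization_loc 𝔫
  exact IsLocalization.lift_eq _ b

theorem locVal_mul_mk {𝔫 : Ideal P.B} [h𝔫 : 𝔫.IsMaximal] {a : ↥(P.loc 𝔫)} {b c : P.B}
    (h : (c : F) * (a : F) = (b : F)) :
    P.locVal 𝔫 a * Ideal.Quotient.mk 𝔫 c = Ideal.Quotient.mk 𝔫 b := by
  have h1 : P.locIncl 𝔫 c * a = P.locIncl 𝔫 b := Subtype.ext h
  have h2 := congrArg (P.locVal 𝔫) h1
  rw [map_mul, locVal_locIncl, locVal_locIncl] at h2
  rw [mul_comm]; exact h2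

theorem locVal_eq_zero_iff {𝔫 : Ideal P.B} [h𝔫 : 𝔫.IsMaximal] (a : ↥(P.loc 𝔫)) :
    P.locVal 𝔫 a = 0 ↔ ¬ IsUnit a := by
  haveI := h𝔫.isPrime
  letI := P.isLocalRing_loc 𝔫
  haveI : IsDomain (P.B ⧸ 𝔫) := Ideal.Quotient.isDomain 𝔫
  constructor
  · intro h0 hu
    have := hu.map (P.locVal 𝔫)
    rw [h0] at this
    exact not_isUnit_zero this
  · intro hnu
    have hmem : a ∈ IsLocalRing.maximalIdeal ↥(P.loc 𝔫) := (IsLocalRing.mem_maximalIdeal a).mpr hnu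
    obtain ⟨b, c, hb, hc, hca⟩ := (P.mem_maximalIdeal_loc_iff 𝔫 a).mp hmem
    have h1 := P.locVal_mul_mk hca
    rw [Ideal.Quotient.eq_zero_iff_mem.mpr hb] at h1
    have hc0 : Ideal.Quotient.mk 𝔫 c ≠ 0 := fun h0 => hc (Ideal.Quotient.eq_zero_iff_mem.mp h0)
    exact (mul_eq_zero.mp h1).resolve_right hc0

/-- **branch values via `B_𝔫`**: `f` has branch value `κ` on `V` iff `f` is congruent on `V` to an
element of `B_𝔫` with value `κ` at `𝔫` -/
theorem branchVal_iff {𝔫 : Ideal P.B} [h𝔫 : 𝔫.IsMaximal] {V : ValuationSubring F}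
    (hV : V ∈ P.through 𝔫) {f : F} {κ : P.B ⧸ 𝔫} :
    P.BranchVal 𝔫 V f κ ↔
      ∃ a : ↥(P.loc 𝔫), V.valuation (f - (a : F)) < 1 ∧ P.locVal 𝔫 a = κ := by
  haveI := h𝔫.isPrime
  haveI : IsDomain (P.B ⧸ 𝔫) := Ideal.Quotient.isDomain 𝔫
  constructor
  · intro h
    obtain ⟨a, b, c, hc, hca, hκ, hval⟩ := BranchVal.exists_loc P hV h
    refine ⟨a, hval, ?_⟩
    have h1 := P.locVal_mul_mk hca
    have hc0 : Ideal.Quotient.mk 𝔫 c ≠ 0 := fun h0 => hc (Ideal.Quotient.eq_zero_iff_mem.mp h0)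
    exact mul_right_cancel₀ hc0 (h1.trans hκ.symm)
  · rintro ⟨a, hval, rfl⟩
    obtain ⟨c, hc, hca⟩ := P.mem_loc_iff.mp a.2
    refine ⟨⟨_, hca⟩, c, hc, ?_, P.locVal_mul_mk rfl⟩
    have hcv : V.valuation (c : F) = 1 := P.valuation_eq_one_of_not_mem hV hc
    have h1 : f * (c : F) - (c : F) * (a : F) = (f - (a : F)) * (c : F) := by ring
    show V.valuation (f * (c : F) - (c : F) * (a : F)) < 1
    rw [h1, map_mul, hcv, mul_one]
    exact hval

/-- elements of `B_𝔫` have the obvious branch value -/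
theorem branchVal_of_loc {𝔫 : Ideal P.B} [h𝔫 : 𝔫.IsMaximal] {V : ValuationSubring F}
    (hV : V ∈ P.through 𝔫) (a : ↥(P.loc 𝔫)) : P.BranchVal 𝔫 V (a : F) (P.locVal 𝔫 a) :=
  (P.branchVal_iff hV).mpr ⟨a, by rw [sub_self, map_zero]; exact zero_lt_one, rfl⟩

/-- if `f ^ m` is congruent on the branch `V` to `u ∈ B_𝔫`, then the `m`-th power of the branch
value of `f` is the value of `u` at `𝔫` -/
theorem BranchVal.pow_eq_locVal {𝔫 : Ideal P.B} [h𝔫 : 𝔫.IsMaximal] {V : ValuationSubring F}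
    (hV : V ∈ P.through 𝔫) {m : ℕ} {f : F} {κ : P.B ⧸ 𝔫} (h : P.BranchVal 𝔫 V f κ)
    (u : ↥(P.loc 𝔫)) (hval : V.valuation (f ^ m - (u : F)) < 1) : κ ^ m = P.locVal 𝔫 u := by
  haveI := h𝔫.isPrime
  have h1 : P.BranchVal 𝔫 V (u : F) (κ ^ m) :=
    BranchVal.congr P hV.1 (BranchVal.pow P hV.1 h m) hval
  exact BranchVal.unique P hV h1 (P.branchVal_of_loc hV u)

/-- the branch value of a local `m`-th root of a unit of `B_𝔫` is not zero -/
theorem BranchVal.ne_zero_of_pow {𝔫 : Ideal P.B} [h𝔫 : 𝔫.IsMaximal] {V : ValuationSubring F}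
    (hV : V ∈ P.through 𝔫) {m : ℕ} (hm : m ≠ 0) {f : F} {κ : P.B ⧸ 𝔫}
    (h : P.BranchVal 𝔫 V f κ) (u : ↥(P.loc 𝔫)) (hu : IsUnit u)
    (hval : V.valuation (f ^ m - (u : F)) < 1) : κ ≠ 0 := by
  intro h0
  have h1 := BranchVal.pow_eq_locVal P hV h u hval
  have h2 : P.locVal 𝔫 u ≠ 0 := fun h3 => (P.locVal_eq_zero_iff u).mp h3 hu
  rw [h0, zero_pow hm] at h1
  exact h2 h1.symm

/-- **roots on smooth branches**: if the branch of `V` through `𝔫` is smooth and `f ∈ V` is an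
`m`-th root, modulo `𝔪_V`, of an element `u` of `B_𝔫`, then `f` has a branch value at `𝔫` -/
theorem exists_branchVal_of_pow {𝔫 : Ideal P.B} [h𝔫 : 𝔫.IsMaximal] {V : ValuationSubring F}
    (hV : V ∈ P.through 𝔫) (hsm : P.SmoothAt 𝔫 V hV) {m : ℕ} (hm : m ≠ 0) {f : F} (hf : f ∈ V)
    (u : ↥(P.loc 𝔫)) (hval : V.valuation (f ^ m - (u : F)) < 1) :
    ∃ κ : P.B ⧸ 𝔫, P.BranchVal 𝔫 V f κ := by
  haveI := h𝔫.isPrime
  obtain ⟨c, hc, hc1, hcf⟩ := P.essential V hV.1 f hf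
  haveI : (P.center 𝔫 V hV).IsPrime := P.center_isPrime hV
  haveI : IsDomain (↥(P.loc 𝔫) ⧸ P.center 𝔫 V hV) := Ideal.Quotient.isDomain _
  haveI : IsPrincipalIdealRing (↥(P.loc 𝔫) ⧸ P.center 𝔫 V hV) := hsm
  set x' : ↥(P.loc 𝔫) := ⟨c * f, P.B_le_loc 𝔫 hcf⟩ with hx'
  set c' : ↥(P.loc 𝔫) := ⟨c, P.B_le_loc 𝔫 hc⟩ with hc'
  have hrel : (Ideal.Quotient.mk (P.center 𝔫 V hV) x') ^ m =
      (Ideal.Quotient.mk (P.center 𝔫 V hV) c') ^ m * Ideal.Quotient.mk (P.center 𝔫 V hV) u := by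
    rw [← map_pow, ← map_pow, ← map_mul, ← sub_eq_zero, ← map_sub,
      Ideal.Quotient.eq_zero_iff_mem, P.mem_center]
    show V.valuation ((c * f) ^ m - c ^ m * (u : F)) < 1
    have h1 : (c * f) ^ m - c ^ m * (u : F) = c ^ m * (f ^ m - (u : F)) := by ring
    rw [h1, map_mul, map_pow, hc1, one_pow, one_mul]
    exact hval
  have hdvd : Ideal.Quotient.mk (P.center 𝔫 V hV) c' ∣ Ideal.Quotient.mk (P.center 𝔫 V hV) x' :=
    (IsIntegrallyClosed.pow_dvd_pow_iff hm).mp ⟨_, hrel⟩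
  obtain ⟨abar, habar⟩ := hdvd
  obtain ⟨a, rfl⟩ := Ideal.Quotient.mk_surjective abar
  have h2 : V.valuation (c * f - c * (a : F)) < 1 := by
    rw [← map_mul, ← sub_eq_zero, ← map_sub, Ideal.Quotient.eq_zero_iff_mem, P.mem_center] at habar
    exact habar
  have h3 : V.valuation (f - (a : F)) < 1 := by
    have h4 : c * f - c * (a : F) = c * (f - (a : F)) := by ring
    rwa [h4, map_mul, hc1, one_mul] at h2
  exact ⟨_, (P.branchVal_iff hV).mpr ⟨a, h3, rfl⟩⟩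

end T4Pres

end Fermat.Agent.T4
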