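/-
T4-L (helper5): norms of local units along an extension of presentations.

* `t4l_norm_mem`, `t4l_norm_inv_mem`: the norm of an element integral over an integrally closed
  subring `A` of the base field lies in `A`.
* `T4PresOver P1 P`: the presentation `P` (of `B ⊆ F`) lies over `P1` (of `B₁ ⊆ F₁`) along a field
  embedding `F₁ → F`: `B₁` maps into `B` and `B` is integral over `B₁`.
* `T4PresOver.isIntegral_loc`: if `𝔫` is the only maximal ideal of `B` over `𝔫₁ = 𝔫 ∩ B₁`, then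
  `B_𝔫` is integral over `(B₁)_𝔫₁`.
* `T4PresOver.norm_valuation_eq_one`: the norm of a unit of `B_𝔫` is a unit of `(B₁)_𝔫₁`.
* `T4Pres.locVal_unique`: every ring homomorphism on `B_𝔫` which is the reduction on `B` is
  `locVal`.
-/
import Fermat.Agent.Lib.T4.Local.BranchVal

set_option autoImplicit false
set_option linter.style.haveILetI false

namespace Fermat.Agent.T4

variable {F1 F : Type*} [Field F1] [Field F] [Algebra F1 F]

/-- the norm of an integral element lies in an integrally closed subring -/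
theorem t4l_norm_mem (A : Subring F1) (hA : ∀ x : F1, IsIntegral ↥A x → x ∈ A) {u : F}
    (hu : IsIntegral ↥A u) : Algebra.norm F1 u ∈ A :=
  hA _ (Algebra.isIntegral_norm F1 hu)

theorem t4l_norm_inv_mem (A : Subring F1) (hA : ∀ x : F1, IsIntegral ↥A x → x ∈ A) {u : F}
    (hu0 : u ≠ 0) (hu : IsIntegral ↥A u⁻¹) : (Algebra.norm F1 u)⁻¹ ∈ A := by
  have h1 : Algebra.norm F1 u * Algebra.norm F1 u⁻¹ = 1 := by
    rw [← map_mul, mul_inv_cancel₀ hu0, map_one]
  rw [← eq_inv_of_mul_eq_one_right h1]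
  exact t4l_norm_mem A hA hu

/-- non-units of a valuation subring in terms of membership -/
theorem t4l_valuation_lt_one_iff {K : Type*} [Field K] (V : ValuationSubring K) (x : K) :
    V.valuation x < 1 ↔ x = 0 ∨ x⁻¹ ∉ V := by
  constructor
  · intro hx
    by_cases h0 : x = 0
    · exact Or.inl h0
    · refine Or.inr fun hmem => ?_
      have h1 : V.valuation x⁻¹ ≤ 1 := (V.valuation_le_one_iff _).mpr hmem
      rw [map_inv₀] at h1
      have hne : V.valuation x ≠ 0 := (V.valuation.ne_zero_iff).mpr h0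
      exact not_lt.mpr ((inv_le_one₀ (zero_lt_iff.mpr hne)).mp h1) hx
  · rintro (rfl | hx)
    · rw [map_zero]; exact zero_lt_one
    · by_contra hcon
      push Not at hcon
      apply hx
      rw [← V.valuation_le_one_iff, map_inv₀]
      exact inv_le_one_of_one_le₀ hcon

/-- the valuation of the restriction of a valuation subring along a field embedding -/
theorem t4l_valuation_comap_lt_one (V : ValuationSubring F) (x : F1) :
    (V.comap (algebraMap F1 F)).valuation x < 1 ↔ V.valuation (algebraMap F1 F x) < 1 := by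
  rw [t4l_valuation_lt_one_iff, t4l_valuation_lt_one_iff, ValuationSubring.mem_comap, map_inv₀,
    map_eq_zero]

namespace T4Pres

/-- `B_𝔫` is integrally closed in `F` -/
theorem loc_integrallyClosed (P : T4Pres F) (𝔫 : Ideal P.B) {x : F}
    (hx : IsIntegral ↥(P.loc 𝔫) x) : x ∈ P.loc 𝔫 := by
  intro V hV
  obtain ⟨p, hp, hpx⟩ := hx
  let φ : ↥(P.loc 𝔫) →+* ↥V := (Subring.inclusion (fun f hf => hf V hV : P.loc 𝔫 ≤ V.toSubring))
  have hint : IsIntegral ↥V x := by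
    refine ⟨p.map φ, hp.map φ, ?_⟩
    rw [Polynomial.eval₂_map]
    exact hpx
  obtain ⟨y, hy⟩ := IsIntegrallyClosed.isIntegral_iff.mp hint
  rw [← hy]
  exact y.2

/-- every ring homomorphism on `B_𝔫` which restricts to the reduction map on `B` is `locVal` -/
theorem locVal_unique (P : T4Pres F) {𝔫 : Ideal P.B} [h𝔫 : 𝔫.IsMaximal] {k' : Type*}
    [CommRing k'] (e : ↥(P.loc 𝔫) →+* k') (ε : P.B ⧸ 𝔫 →+* k')
    (h : ∀ b : P.B, e (P.locIncl 𝔫 b) = ε (Ideal.Quotient.mk 𝔫 b)) (a : ↥(P.loc 𝔫)) :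
    e a = ε (P.locVal 𝔫 a) := by
  haveI := h𝔫.isPrime
  letI := P.locAlgebra 𝔫
  haveI := P.isLocalization_loc 𝔫
  have h1 : e = ε.comp (P.locVal 𝔫) := by
    refine IsLocalization.ringHom_ext 𝔫.primeCompl ?_
    ext b
    show e (P.locIncl 𝔫 b) = ε (P.locVal 𝔫 (P.locIncl 𝔫 b))
    rw [h, locVal_locIncl]
  rw [h1]; rfl

/-- branch values, evaluated with an arbitrary model `e : B_𝔫 → k'` of the residue field -/
theorem branchVal_iff_of_model (P : T4Pres F) {𝔫 : Ideal P.B} [h𝔫 : 𝔫.IsMaximal] {k' : Type*}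
    [CommRing k'] (e : ↥(P.loc 𝔫) →+* k') (ε : P.B ⧸ 𝔫 →+* k') (hε : Function.Injective ε)
    (h : ∀ b : P.B, e (P.locIncl 𝔫 b) = ε (Ideal.Quotient.mk 𝔫 b))
    {V : ValuationSubring F} (hV : V ∈ P.through 𝔫) {f : F} {κ : P.B ⧸ 𝔫} :
    P.BranchVal 𝔫 V f κ ↔ ∃ a : ↥(P.loc 𝔫), V.valuation (f - (a : F)) < 1 ∧ e a = ε κ := by
  rw [P.branchVal_iff hV]
  constructor
  · rintro ⟨a, ha, rfl⟩
    exact ⟨a, ha, P.locVal_unique e ε h a⟩
  · rintro ⟨a, ha, hea⟩
    refine ⟨a, ha, hε ?_⟩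
    rw [← hea, P.locVal_unique e ε h a]

end T4Pres

/-- the presentation `P` lies over the presentation `P1` along `F₁ → F` -/
structure T4PresOver (P1 : T4Pres F1) (P : T4Pres F) : Prop where
  map_mem : ∀ b ∈ P1.B, algebraMap F1 F b ∈ P.B
  integral : ∀ b ∈ P.B, IsIntegral ↥P1.B b

namespace T4PresOver

variable {P1 : T4Pres F1} {P : T4Pres F} (h : T4PresOver P1 P)

/-- `B₁ → B` -/
def incl : ↥P1.B →+* ↥P.B :=
  ((algebraMap F1 F).comp P1.B.subtype).codRestrict P.B fun b => h.map_mem b b.2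

@[simp]
theorem coe_incl (b : P1.B) : ((h.incl b : P.B) : F) = algebraMap F1 F (b : F1) := rfl

theorem incl_isIntegral : h.incl.IsIntegral := by
  intro b
  obtain ⟨p, hp, hpb⟩ := h.integral b b.2
  refine ⟨p, hp, ?_⟩
  apply Subtype.ext
  have h1 := Polynomial.hom_eval₂ p h.incl P.B.subtype b
  rw [Subring.coe_zero]
  show P.B.subtype (Polynomial.eval₂ h.incl b p) = 0
  rw [h1]
  exact hpb

/-- the point of `B₁` under a point of `B` -/
def under (𝔫 : Ideal P.B) : Ideal P1.B := 𝔫.comap h.incl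

theorem mem_under {𝔫 : Ideal P.B} {b : P1.B} : b ∈ h.under 𝔫 ↔ h.incl b ∈ 𝔫 := Iff.rfl

theorem under_isMaximal (𝔫 : Ideal P.B) [𝔫.IsMaximal] : (h.under 𝔫).IsMaximal :=
  Ideal.isMaximal_comap_of_isIntegral_of_isMaximal' h.incl h.incl_isIntegral 𝔫

/-- the restriction of a valuation ring through `𝔫` passes through `𝔫₁` -/
theorem comap_mem_through {𝔫 : Ideal P.B} {V : ValuationSubring F} (hV : V ∈ P.through 𝔫)
    (hV1 : V.comap (algebraMap F1 F) ∈ P1.vals) :
    V.comap (algebraMap F1 F) ∈ P1.through (h.under 𝔫) := by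
  refine ⟨hV1, fun b hb => ?_⟩
  rw [t4l_valuation_comap_lt_one] at hb
  exact hV.2 (h.incl b) hb

/-- if `𝔫` is the only point over `𝔫₁`, every valuation ring of `P` over a valuation ring through
`𝔫₁` passes through `𝔫` -/
theorem mem_through_of_comap (𝔫 : Ideal P.B) [h𝔫 : 𝔫.IsMaximal]
    (huniq : ∀ 𝔫' : Ideal P.B, 𝔫'.IsMaximal → 𝔫'.comap h.incl = h.under 𝔫 → 𝔫' = 𝔫)
    {V : ValuationSubring F} (hV : V ∈ P.vals)
    (hV1 : V.comap (algebraMap F1 F) ∈ P1.through (h.under 𝔫)) : V ∈ P.through 𝔫 := by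
  haveI := h.under_isMaximal 𝔫
  letI : Algebra ↥P1.B ↥P.B := h.incl.toAlgebra
  haveI : Algebra.IsIntegral ↥P1.B ↥P.B := ⟨h.incl_isIntegral⟩
  -- the centre of `V` on `B`
  let 𝔭 : Ideal P.B :=
    { carrier := {b | V.valuation (b : F) < 1}
      add_mem' := fun {a b} ha hb => lt_of_le_of_lt (V.valuation.map_add _ _) (max_lt ha hb)
      zero_mem' := by
        show V.valuation ((0 : P.B) : F) < 1
        rw [Subring.coe_zero, map_zero]; exact zero_lt_one
      smul_mem' := fun c b hb => by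
        show V.valuation ((c * b : P.B) : F) < 1
        rw [Subring.coe_mul, map_mul]
        have hc : V.valuation (c : F) ≤ 1 := (V.valuation_le_one_iff _).mpr (P.B_le hV c.2)
        calc V.valuation (c : F) * V.valuation (b : F) ≤ 1 * V.valuation (b : F) :=
              mul_le_mul_left hc _
          _ = V.valuation (b : F) := one_mul _
          _ < 1 := hb }
  have hle : 𝔭.comap (algebraMap ↥P1.B ↥P.B) ≤ h.under 𝔫 := by
    intro b hb
    have hb' : V.valuation (algebraMap F1 F (b : F1)) < 1 := hb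
    rw [← t4l_valuation_comap_lt_one] at hb'
    exact hV1.2 b hb'
  obtain ⟨Q, hIQ, hQp, hQ⟩ := Ideal.exists_ideal_over_prime_of_isIntegral (h.under 𝔫) 𝔭 hle
  have hQmax : Q.IsMaximal := by
    haveI := hQp
    refine Ideal.isMaximal_of_isIntegral_of_isMaximal_comap (R := ↥P1.B) Q ?_
    rw [hQ]; infer_instance
  have hQ𝔫 : Q = 𝔫 := huniq Q hQmax hQ
  refine ⟨hV, fun b hb => ?_⟩
  rw [← hQ𝔫]
  exact hIQ hb

/-- if `𝔫` is the only point over `𝔫₁`, denominators outside `𝔫` can be replaced by denominators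
from `B₁` outside `𝔫₁` -/
theorem exists_den (𝔫 : Ideal P.B) [h𝔫 : 𝔫.IsMaximal]
    (huniq : ∀ 𝔫' : Ideal P.B, 𝔫'.IsMaximal → 𝔫'.comap h.incl = h.under 𝔫 → 𝔫' = 𝔫)
    {c : P.B} (hc : c ∉ 𝔫) :
    ∃ (c1 : P1.B) (c' : P.B), c1 ∉ h.under 𝔫 ∧ h.incl c1 = c * c' := by
  by_contra hcon
  push Not at hcon
  haveI := h.under_isMaximal 𝔫
  letI : Algebra ↥P1.B ↥P.B := h.incl.toAlgebra
  haveI : Algebra.IsIntegral ↥P1.B ↥P.B := ⟨h.incl_isIntegral⟩
  have hle : (Ideal.span {c}).comap (algebraMap ↥P1.B ↥P.B) ≤ h.under 𝔫 := by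
    intro c1 hc1
    rw [Ideal.mem_comap, Ideal.mem_span_singleton'] at hc1
    obtain ⟨c', hc'⟩ := hc1
    by_contra hnot
    exact hcon c1 c' hnot (by rw [mul_comm]; exact hc'.symm)
  obtain ⟨Q, hIQ, hQp, hQ⟩ :=
    Ideal.exists_ideal_over_prime_of_isIntegral (h.under 𝔫) (Ideal.span {c}) hle
  have hQmax : Q.IsMaximal := by
    haveI := hQp
    refine Ideal.isMaximal_of_isIntegral_of_isMaximal_comap (R := ↥P1.B) Q ?_
    rw [hQ]; infer_instance
  have hQ𝔫 : Q = 𝔫 := huniq Q hQmax hQ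
  apply hc
  rw [← hQ𝔫]
  exact hIQ (Ideal.mem_span_singleton_self c)

/-- **`B_𝔫` is integral over `(B₁)_𝔫₁`** when `𝔫` is the only point over `𝔫₁` -/
theorem isIntegral_loc (𝔫 : Ideal P.B) [h𝔫 : 𝔫.IsMaximal]
    (huniq : ∀ 𝔫' : Ideal P.B, 𝔫'.IsMaximal → 𝔫'.comap h.incl = h.under 𝔫 → 𝔫' = 𝔫)
    {f : F} (hf : f ∈ P.loc 𝔫) : IsIntegral ↥(P1.loc (h.under 𝔫)) f := by
  haveI := h𝔫.isPrime
  haveI := h.under_isMaximal 𝔫
  haveI : (h.under 𝔫).IsPrime := (h.under_isMaximal 𝔫).isPrime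
  obtain ⟨c, hc, hcf⟩ := P.mem_loc_iff.mp hf
  obtain ⟨c1, c', hc1, hcc⟩ := h.exists_den 𝔫 huniq hc
  have hc10 : (c1 : F1) ≠ 0 := by
    intro h0
    apply hc1
    have : c1 = 0 := Subtype.ext h0
    rw [this]; exact (h.under 𝔫).zero_mem
  -- `c1⁻¹ ∈ (B₁)_𝔫₁`
  have hinv : (c1 : F1)⁻¹ ∈ P1.loc (h.under 𝔫) :=
    P1.mem_loc_iff.mpr ⟨c1, hc1, by rw [mul_inv_cancel₀ hc10]; exact P1.B.one_mem⟩
  -- `f = c1⁻¹ * (c' * (c * f))`
  have hcc' : algebraMap F1 F (c1 : F1) = (c : F) * (c' : F) := by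
    have := congrArg (fun t : P.B => (t : F)) hcc
    simpa using this
  have hc1F : algebraMap F1 F (c1 : F1) ≠ 0 := by
    rw [Ne, map_eq_zero]; exact hc10
  have hfeq : f = algebraMap ↥(P1.loc (h.under 𝔫)) F ⟨_, hinv⟩ * ((c' : F) * ((c : F) * f)) := by
    show f = algebraMap F1 F ((c1 : F1)⁻¹) * ((c' : F) * ((c : F) * f))
    rw [map_inv₀, hcc']
    have hc0 : (c : F) ≠ 0 := left_ne_zero_of_mul (hcc' ▸ hc1F)
    have hc'0 : (c' : F) ≠ 0 := right_ne_zero_of_mul (hcc' ▸ hc1F)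
    field_simp
  rw [hfeq]
  refine IsIntegral.mul isIntegral_algebraMap ?_
  -- `c' * (c * f) ∈ B` is integral over `B₁`, hence over `(B₁)_𝔫₁`
  have hmem : (c' : F) * ((c : F) * f) ∈ P.B := P.B.mul_mem c'.2 hcf
  obtain ⟨p, hp, hpb⟩ := h.integral _ hmem
  refine ⟨p.map (P1.locIncl (h.under 𝔫)), hp.map _, ?_⟩
  rw [Polynomial.eval₂_map]
  exact hpb

/-- **norms of local units**: if `𝔫` is the only point over `𝔫₁` and `u` is a unit at all
valuation rings through `𝔫`, then its norm is a unit at all valuation rings through `𝔫₁` -/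
theorem norm_valuation_eq_one (𝔫 : Ideal P.B) [h𝔫 : 𝔫.IsMaximal]
    (huniq : ∀ 𝔫' : Ideal P.B, 𝔫'.IsMaximal → 𝔫'.comap h.incl = h.under 𝔫 → 𝔫' = 𝔫)
    {u : F} (hu : ∀ V ∈ P.through 𝔫, V.valuation u = 1)
    {V1 : ValuationSubring F1} (hV1 : V1 ∈ P1.through (h.under 𝔫)) :
    V1.valuation (Algebra.norm F1 u) = 1 := by
  rcases eq_or_ne u 0 with rfl | hu0
  · -- then there is no valuation ring through `𝔫`, so `B_𝔫 = F` and `F` is integral over `V1`
    exfalso
    have hall : ∀ f : F, f ∈ P.loc 𝔫 := by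
      intro f V hV
      have := hu V hV
      rw [map_zero] at this
      exact absurd this zero_ne_one
    -- every element of `F₁` is then integral over `(B₁)_𝔫₁`, so `(B₁)_𝔫₁ = F₁`
    obtain ⟨ϖ, hϖ⟩ : ∃ x : F1, V1.valuation x < 1 ∧ x ≠ 0 := by
      haveI := P1.dvr V1 hV1.1
      obtain ⟨ϖ, hϖ⟩ := IsDiscreteValuationRing.exists_irreducible V1
      refine ⟨(ϖ : F1), ?_, ?_⟩
      · have h1 : ¬ IsUnit ϖ := hϖ.not_isUnit
        rw [V1.valuation_eq_one_iff] at h1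
        exact lt_of_le_of_ne (V1.valuation_le_one ϖ) h1
      · intro h0
        exact hϖ.ne_zero (Subtype.ext h0)
    have h1 : IsIntegral ↥(P1.loc (h.under 𝔫)) (algebraMap F1 F ϖ⁻¹) :=
      h.isIntegral_loc 𝔫 huniq (hall _)
    have h2 : IsIntegral ↥(P1.loc (h.under 𝔫)) ϖ⁻¹ :=
      (isIntegral_algebraMap_iff (algebraMap F1 F).injective).mp h1
    have h3 := P1.loc_integrallyClosed _ h2 V1 hV1
    rw [← V1.valuation_le_one_iff, map_inv₀] at h3
    have h4 : (1 : _) ≤ V1.valuation ϖ := by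
      have hne : V1.valuation ϖ ≠ 0 := (V1.valuation.ne_zero_iff).mpr hϖ.2
      exact (inv_le_one₀ (zero_lt_iff.mpr hne)).mp h3
    exact not_lt.mpr h4 hϖ.1
  have huloc : u ∈ P.loc 𝔫 := fun V hV => (V.valuation_le_one_iff _).mp (hu V hV).le
  have huinv : u⁻¹ ∈ P.loc 𝔫 := fun V hV => by
    rw [← V.valuation_le_one_iff, map_inv₀, hu V hV, inv_one]
  have hA := fun x hx => P1.loc_integrallyClosed (h.under 𝔫) (x := x) hx
  have h1 : Algebra.norm F1 u ∈ P1.loc (h.under 𝔫) :=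
    t4l_norm_mem _ hA (h.isIntegral_loc 𝔫 huniq huloc)
  have h2 : (Algebra.norm F1 u)⁻¹ ∈ P1.loc (h.under 𝔫) :=
    t4l_norm_inv_mem _ hA hu0 (h.isIntegral_loc 𝔫 huniq huinv)
  have h3 : V1.valuation (Algebra.norm F1 u) ≤ 1 := (V1.valuation_le_one_iff _).mpr (h1 V1 hV1)
  have h4 : V1.valuation (Algebra.norm F1 u)⁻¹ ≤ 1 := (V1.valuation_le_one_iff _).mpr (h2 V1 hV1)
  rw [map_inv₀] at h4
  rcases lt_or_eq_of_le h3 with h5 | h5
  · exfalso
    have hne : V1.valuation (Algebra.norm F1 u) ≠ 0 := by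
      intro h0
      rw [h0, inv_zero] at h4
      have h6 : Algebra.norm F1 u = 0 := (V1.valuation.zero_iff).mp h0
      have h7 : Algebra.norm F1 u * Algebra.norm F1 u⁻¹ = 1 := by
        rw [← map_mul, mul_inv_cancel₀ hu0, map_one]
      rw [h6, zero_mul] at h7
      exact zero_ne_one h7
    have h6 := (inv_le_one₀ (zero_lt_iff.mpr hne)).mp h4
    exact not_lt.mpr h6 h5
  · exact h5

end T4PresOver

end Fermat.Agent.T4
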