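/-
T4-L (helper5): the local lemma in GLOBAL form.

`P.glue`: `z ≡ 1 mod q · Ov`; at every maximal ideal `𝔫 ∋ q` of `B` there is a local generator `s`
(`s ^ m * z` a unit of `B_𝔫`) whose values on the vertical branches through `𝔫` are all equal to
one `κ ≠ 0`.  Then every `t ∈ Ov` with `t ^ m * z ∈ B` (a section of the twisted sheaf on the chart
`B`) lies in `B + q · Ov`: the gluing invariant of the twist is trivial on this chart.
-/
import Fermat.Agent.Lib.T4.Local.GlueMain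

set_option autoImplicit false
set_option linter.style.haveILetI false

namespace Fermat.Agent.T4

variable {F : Type*} [Field F]

namespace T4Pres

variable (P : T4Pres F)

/-- the ideal `{c | c t ∈ B + q · Ov}` -/
def glueIdeal (q t : F) : Ideal P.B where
  carrier := {c | ∃ b ∈ P.B, P.CongrOv q ((c : F) * t) b}
  add_mem' := by
    rintro c c' ⟨b, hb, o, ho, h⟩ ⟨b', hb', o', ho', h'⟩
    refine ⟨b + b', P.B.add_mem hb hb', o + o', (P.ov q).add_mem ho ho', ?_⟩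
    rw [Subring.coe_add, add_mul, mul_add, ← h, ← h']; ring
  zero_mem' := ⟨0, P.B.zero_mem, 0, (P.ov q).zero_mem, by simp⟩
  smul_mem' := by
    rintro a c ⟨b, hb, o, ho, h⟩
    refine ⟨a * b, P.B.mul_mem a.2 hb, a * o, (P.ov q).mul_mem (P.B_le_ov q a.2) ho, ?_⟩
    rw [smul_eq_mul, Subring.coe_mul, mul_assoc, ← mul_sub, h]; ring

theorem mem_glueIdeal {q t : F} {c : P.B} :
    c ∈ P.glueIdeal q t ↔ ∃ b ∈ P.B, P.CongrOv q ((c : F) * t) b := Iff.rfl

/-- **the local lemma, global form** -/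
theorem glue [IsNoetherianRing P.B] {q : F} (hq : q ∈ P.B) (hq0 : q ≠ 0) {m : ℕ}
    (hm : (m : F)⁻¹ ∈ P.B) (hmF : (m : F) ≠ 0) {z : F} (hz : P.CongrOv q z 1)
    (H : ∀ 𝔫 : Ideal P.B, 𝔫.IsMaximal → (⟨q, hq⟩ : P.B) ∈ 𝔫 →
      ∃ s : F, (∀ V ∈ P.through 𝔫, V.valuation (s ^ m * z) = 1) ∧
        ∃ κ : P.B ⧸ 𝔫, κ ≠ 0 ∧ ∀ V ∈ P.through 𝔫, V ∈ P.vert q → P.BranchVal 𝔫 V s κ)
    {t : F} (ht : t ∈ P.ov q) (htz : t ^ m * z ∈ P.B) :
    ∃ b ∈ P.B, P.CongrOv q t b := by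
  classical
  have hm0 : m ≠ 0 := by
    rintro rfl
    exact hmF (by simp)
  suffices htop : P.glueIdeal q t = ⊤ by
    have h1 : (1 : P.B) ∈ P.glueIdeal q t := by rw [htop]; trivial
    obtain ⟨b, hb, hc⟩ := h1
    refine ⟨b, hb, ?_⟩
    rwa [Subring.coe_one, one_mul] at hc
  by_contra hne
  obtain ⟨𝔫, h𝔫, hI𝔫⟩ := Ideal.exists_le_maximal _ hne
  haveI := h𝔫
  haveI h𝔫p : 𝔫.IsPrime := h𝔫.isPrime
  -- `q ∈ 𝔫`
  have hqI : (⟨q, hq⟩ : P.B) ∈ P.glueIdeal q t :=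
    ⟨0, P.B.zero_mem, t, ht, by simp⟩
  have hq𝔫 : (⟨q, hq⟩ : P.B) ∈ 𝔫 := hI𝔫 hqI
  obtain ⟨s, hs, κ, hκ0, hκ⟩ := H 𝔫 h𝔫 hq𝔫
  obtain ⟨bs, hbs, hsb⟩ := P.glue_local 𝔫 hq hq0 hm hmF hz hs hκ0 hκ
  -- some valuation ring passes through `𝔫`
  have hne' : (P.through 𝔫).Nonempty := by
    by_contra hemp
    rw [Set.not_nonempty_iff_eq_empty] at hemp
    have h1 : q⁻¹ ∈ P.loc 𝔫 := by
      intro V hV
      rw [hemp] at hV
      exact absurd hV (Set.notMem_empty V)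
    obtain ⟨c, hc, hcq⟩ := P.mem_loc_iff.mp h1
    apply hc
    have h2 : c = (⟨q, hq⟩ : P.B) * ⟨(c : F) * q⁻¹, hcq⟩ := by
      apply Subtype.ext
      show (c : F) = q * ((c : F) * q⁻¹)
      field_simp
    rw [h2]
    exact 𝔫.mul_mem_right _ hq𝔫
  have hs0 : s ≠ 0 := by
    obtain ⟨V, hV⟩ := hne'
    rintro rfl
    have := hs V hV
    rw [zero_pow hm0, zero_mul, map_zero] at this
    exact zero_ne_one this
  -- `w = t / s ∈ B_𝔫`
  have hw : t / s ∈ P.loc 𝔫 := by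
    intro V hV
    rw [← V.valuation_le_one_iff]
    by_contra hgt
    push Not at hgt
    have h1 : 1 < V.valuation (t / s) ^ m := one_lt_pow₀ hgt hm0
    have h2 : V.valuation (t / s) ^ m = V.valuation (t ^ m * z) / V.valuation (s ^ m * z) := by
      rw [← map_pow, ← map_div₀]
      congr 1
      have hz0 : z ≠ 0 := by
        intro h0
        have := hs V hV
        rw [h0, mul_zero, map_zero] at this
        exact zero_ne_one this
      rw [div_pow]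
      field_simp
    rw [h2, hs V hV, div_one] at h1
    have h3 : V.valuation (t ^ m * z) ≤ 1 := (V.valuation_le_one_iff _).mpr (P.B_le hV.1 htz)
    exact absurd h1 (not_lt.mpr h3)
  -- `a1 = w * bs ∈ B_𝔫`, `t ≡ a1` modulo `q` on the vertical branches through `𝔫`
  set a1 : F := t / s * bs with ha1
  have ha1loc : a1 ∈ P.loc 𝔫 := (P.loc 𝔫).mul_mem hw hbs
  have hta1 : (t - a1) / q ∈ P.ovAt 𝔫 q := by
    have h1 : (t - a1) / q = t / s * ((s - bs) / q) := by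
      rw [ha1]; field_simp
    rw [h1]
    exact (P.ovAt 𝔫 q).mul_mem (P.loc_le_ovAt 𝔫 q hw) hsb
  obtain ⟨c1, hc1, hc1a⟩ := P.mem_loc_iff.mp ha1loc
  -- kill the vertical valuation rings not through `𝔫`
  have hfin := P.vert_finite hq0
  have hbad : ∀ V ∈ hfin.toFinset, V ∉ P.through 𝔫 →
      ∃ d : P.B, d ∉ 𝔫 ∧ (d : F) * q⁻¹ ∈ V := by
    intro V hV hnt
    rw [Set.Finite.mem_toFinset] at hV
    rw [mem_through, not_and] at hnt
    have h1 := hnt hV.1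
    push Not at h1
    obtain ⟨b, hb1, hb2⟩ := h1
    haveI := P.dvr V hV.1
    have hb0 : (b : F) ≠ 0 := by
      intro h0
      apply hb2
      have : b = 0 := Subtype.ext h0
      rw [this]; exact 𝔫.zero_mem
    obtain ⟨n, hn⟩ := t4l_arch V hb1 hb0 q⁻¹
    refine ⟨b ^ n, fun h => hb2 (h𝔫p.mem_of_pow_mem n h), ?_⟩
    rwa [Subring.coe_pow]
  set T : Finset (ValuationSubring F) := hfin.toFinset.filter (fun V => V ∉ P.through 𝔫) with hT
  have hbad' : ∀ V ∈ T, ∃ d : P.B, d ∉ 𝔫 ∧ (d : F) * q⁻¹ ∈ V := by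
    intro V hV
    rw [hT, Finset.mem_filter] at hV
    exact hbad V hV.1 hV.2
  choose! dfun hd1 hd2 using hbad'
  set d : P.B := ∏ V ∈ T, dfun V with hd
  have hd𝔫 : d ∉ 𝔫 := by
    intro hmem
    obtain ⟨V, hV, hV'⟩ := (Ideal.IsPrime.prod_mem_iff).mp hmem
    exact hd1 V hV hV'
  have hdq : ∀ V ∈ T, (d : F) * q⁻¹ ∈ V := by
    intro V hV
    have hVvals : V ∈ P.vals := by
      rw [hT, Finset.mem_filter, Set.Finite.mem_toFinset] at hV
      exact hV.1.1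
    rw [hd, ← Finset.mul_prod_erase _ _ hV, Subring.coe_mul, mul_assoc,
      mul_comm ((∏ x ∈ T.erase V, dfun x : P.B) : F), ← mul_assoc]
    exact V.mul_mem _ _ (hd2 V hV) (P.B_le hVvals (∏ x ∈ T.erase V, dfun x).2)
  -- `c = c1 * d ∈ glueIdeal`, contradiction
  have hcI : c1 * d ∈ P.glueIdeal q t := by
    refine ⟨(c1 : F) * a1 * d, P.B.mul_mem hc1a d.2, ((c1 : F) * (d : F) * t - (c1 : F) * a1 * d) / q,
      ?_, ?_⟩
    · intro V hV
      by_cases hVt : V ∈ P.through 𝔫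
      · have h1 : ((c1 : F) * (d : F) * t - (c1 : F) * a1 * d) / q
            = (c1 : F) * (d : F) * ((t - a1) / q) := by field_simp
        rw [h1]
        exact V.mul_mem _ _ (V.mul_mem _ _ (P.B_le hV.1 c1.2) (P.B_le hV.1 d.2))
          (hta1 V ⟨hVt, hV⟩)
      · have hVT : V ∈ T := by
          rw [hT, Finset.mem_filter, Set.Finite.mem_toFinset]
          exact ⟨hV, hVt⟩
        have h1 : ((c1 : F) * (d : F) * t - (c1 : F) * a1 * d) / q
            = ((d : F) * q⁻¹) * ((c1 : F) * t - (c1 : F) * a1) := by field_simp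
        rw [h1]
        have h2 : (c1 : F) * t ∈ V := V.mul_mem _ _ (P.B_le hV.1 c1.2) (ht V hV)
        have h3 : (c1 : F) * a1 ∈ V := P.B_le hV.1 hc1a
        exact V.mul_mem _ _ (hdq V hVT) (V.toSubring.sub_mem h2 h3)
    · rw [Subring.coe_mul]
      field_simp
  exact (h𝔫p.mul_mem_iff_mem_or_mem.not.mpr (not_or.mpr ⟨hc1, hd𝔫⟩)) (hI𝔫 hcI)

end T4Pres

end Fermat.Agent.T4
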