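/-
T4-L (helper5): the gluing datum at a closed point, and smoothness criteria.

* `exists_datum`: at a regular point `𝔫` all of whose vertical branches are smooth, a Kummer
  element `z ≡ 1 mod q` has a local generator `s` (`u = s ^ m * z` a unit of `B_𝔫`) with branch
  values `κ_V` on all vertical branches, and `κ_V ^ m` is the value of `u` at `𝔫`.
* `glue_hyp_of_eq`: if all the `κ_V` coincide, the hypothesis of `T4Pres.glue` holds at `𝔫`.
* `exists_vert_through`: a vertical branch passes through every point of the special fibre.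
* `t4l_surjective_of_integral`, `smoothAt_of_sandwich`, `smoothAt_of_surjective`.
-/
import Fermat.Agent.Lib.T4.Local.BranchVal
import Fermat.Agent.Lib.T4.Local.Glue

set_option autoImplicit false
set_option linter.style.haveILetI false

namespace Fermat.Agent.T4

variable {F : Type*} [Field F]

/-- an injective integral ring homomorphism from an integrally closed domain which is "birational"
is surjective -/
theorem t4l_surjective_of_integral {A R : Type*} [CommRing A] [IsDomain A] [IsIntegrallyClosed A]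
    [CommRing R] [IsDomain R] (ψ : A →+* R) (hinj : Function.Injective ψ) (hint : ψ.IsIntegral)
    (hfrac : ∀ r : R, ∃ a b : A, b ≠ 0 ∧ ψ b * r = ψ a) : Function.Surjective ψ := by
  intro r
  obtain ⟨a, b, hb, hab⟩ := hfrac r
  letI : Algebra A R := ψ.toAlgebra
  let K := FractionRing A
  let E := FractionRing R
  have hAR : Function.Injective (algebraMap A R) := hinj
  haveI : FaithfulSMul A R := (faithfulSMul_iff_algebraMap_injective A R).mpr hAR
  -- `K → E`
  have hAE : Function.Injective (algebraMap A E) := by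
    rw [IsScalarTower.algebraMap_eq A R E]
    exact (IsFractionRing.injective R E).comp hAR
  let g : K →+* E := IsFractionRing.lift hAE
  letI : Algebra K E := g.toAlgebra
  haveI : IsScalarTower A K E := IsScalarTower.of_algebraMap_eq fun x => by
    show algebraMap A E x = g (algebraMap A K x)
    exact (IsFractionRing.lift_algebraMap hAE x).symm
  have hKE : Function.Injective (algebraMap K E) := (algebraMap K E).injective
  set x : K := algebraMap A K a / algebraMap A K b with hx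
  have hbK : algebraMap A K b ≠ 0 := by
    intro h0
    exact hb ((injective_iff_map_eq_zero _).mp (IsFractionRing.injective A K) b h0)
  have hbE : algebraMap A E b ≠ 0 := by
    intro h0
    exact hb ((injective_iff_map_eq_zero _).mp hAE b h0)
  have hxE : algebraMap K E x = algebraMap R E r := by
    rw [hx, map_div₀, ← IsScalarTower.algebraMap_apply A K E, ← IsScalarTower.algebraMap_apply A K E,
      div_eq_iff hbE, IsScalarTower.algebraMap_apply A R E a, IsScalarTower.algebraMap_apply A R E b,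
      ← map_mul]
    congr 1
    rw [mul_comm]; exact hab.symm
  have hrint : IsIntegral A r := hint r
  have hxint : IsIntegral A x := by
    rw [← isIntegral_algebraMap_iff hKE, hxE]
    exact hrint.algebraMap
  obtain ⟨y, hy⟩ := IsIntegrallyClosed.isIntegral_iff.mp hxint
  refine ⟨y, ?_⟩
  have h1 : algebraMap A K a = algebraMap A K (b * y) := by
    rw [map_mul, hy, hx, mul_div_cancel₀ _ hbK]
  have h2 : a = b * y := IsFractionRing.injective A K h1
  have h3 : ψ b * r = ψ b * ψ y := by rw [hab, h2, map_mul]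
  have hψb : ψ b ≠ 0 := fun h0 => hb ((injective_iff_map_eq_zero ψ).mp hinj b h0)
  exact (mul_left_cancel₀ hψb h3).symm

namespace T4Pres

variable (P : T4Pres F)

/-- smoothness from a surjection of a principal ideal ring onto the branch ring -/
theorem smoothAt_of_surjective {𝔫 : Ideal P.B} {V : ValuationSubring F} (hV : V ∈ P.through 𝔫)
    {A : Type*} [CommRing A] [IsPrincipalIdealRing A]
    (ψ : A →+* ↥(P.loc 𝔫) ⧸ P.center 𝔫 V hV) (hsurj : Function.Surjective ψ) :
    P.SmoothAt 𝔫 V hV :=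
  IsPrincipalIdealRing.of_surjective ψ hsurj

/-- smoothness by a sandwich: the branch ring is integral over (the image of) a principal ideal
domain with the same fraction field -/
theorem smoothAt_of_sandwich {𝔫 : Ideal P.B} {V : ValuationSubring F} (hV : V ∈ P.through 𝔫)
    {A : Type*} [CommRing A] [IsDomain A] [IsPrincipalIdealRing A]
    (ψ : A →+* ↥(P.loc 𝔫) ⧸ P.center 𝔫 V hV) (hinj : Function.Injective ψ)
    (hint : ψ.IsIntegral)
    (hfrac : ∀ r : ↥(P.loc 𝔫) ⧸ P.center 𝔫 V hV, ∃ a b : A, b ≠ 0 ∧ ψ b * r = ψ a) :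
    P.SmoothAt 𝔫 V hV := by
  haveI : (P.center 𝔫 V hV).IsPrime := P.center_isPrime hV
  haveI : IsDomain (↥(P.loc 𝔫) ⧸ P.center 𝔫 V hV) := Ideal.Quotient.isDomain _
  exact P.smoothAt_of_surjective hV ψ (t4l_surjective_of_integral ψ hinj hint hfrac)

/-- a vertical valuation ring passes through every point of the special fibre -/
theorem exists_vert_through {𝔫 : Ideal P.B} [h𝔫 : 𝔫.IsPrime] {q : F} (hq : q ∈ P.B) (hq0 : q ≠ 0)
    (hq𝔫 : (⟨q, hq⟩ : P.B) ∈ 𝔫) : ∃ V ∈ P.through 𝔫, V ∈ P.vert q := by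
  by_contra hcon
  push Not at hcon
  letI := P.isLocalRing_loc 𝔫
  have hu : IsUnit (P.locIncl 𝔫 ⟨q, hq⟩) := by
    rw [P.isUnit_loc_iff]
    refine ⟨hq0, fun V hV => ?_⟩
    rcases lt_or_eq_of_le ((V.valuation_le_one_iff _).mpr (P.B_le hV.1 hq)) with h | h
    · exact absurd ⟨hV.1, h⟩ (hcon V hV)
    · exact h
  have hmem : P.locIncl 𝔫 ⟨q, hq⟩ ∈ IsLocalRing.maximalIdeal ↥(P.loc 𝔫) :=
    (P.mem_maximalIdeal_loc_iff 𝔫 _).mpr ⟨⟨q, hq⟩, 1,
      hq𝔫, (Ideal.ne_top_iff_one 𝔫).mp h𝔫.ne_top, by simp [coe_locIncl]⟩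
  exact (IsLocalRing.mem_maximalIdeal _).mp hmem hu

/-- **the gluing datum**: at a regular point with smooth vertical branches, a Kummer element
`z ≡ 1 mod q` has a local generator with branch values on all vertical branches; their `m`-th
powers all equal the value of the unit `u = s ^ m * z` at the point -/
theorem exists_datum [IsNoetherianRing P.B] (𝔫 : Ideal P.B) [h𝔫 : 𝔫.IsMaximal]
    (hreg : P.RegAt 𝔫) {q : F} {m : ℕ} (hm : m ≠ 0) {z : F} (hz0 : z ≠ 0)
    (hz : P.CongrOv q z 1)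
    (hroot : ∀ V ∈ P.through 𝔫, V ∉ P.vert q → ∃ t : F, V.valuation (t ^ m * z) = 1)
    (hsm : ∀ (V : ValuationSubring F) (hV : V ∈ P.through 𝔫), V ∈ P.vert q → P.SmoothAt 𝔫 V hV) :
    ∃ (s : F) (u : ↥(P.loc 𝔫)), s ≠ 0 ∧ IsUnit u ∧ (u : F) = s ^ m * z ∧
      (∀ V ∈ P.through 𝔫, V.valuation (s ^ m * z) = 1) ∧
      ∀ V ∈ P.through 𝔫, V ∈ P.vert q →
        ∃ κ : P.B ⧸ 𝔫, κ ≠ 0 ∧ P.BranchVal 𝔫 V s κ ∧ κ ^ m = P.locVal 𝔫 u := by
  haveI := h𝔫.isPrime
  have hroot' : ∀ V ∈ P.through 𝔫, ∃ t : F, V.valuation (t ^ m * z) = 1 := by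
    intro V hV
    by_cases hv : V ∈ P.vert q
    · exact ⟨1, by rw [one_pow, one_mul]; exact P.valuation_eq_one_of_congrOv hz hv⟩
    · exact hroot V hV hv
  obtain ⟨s, hs0, hs⟩ := P.exists_gen 𝔫 hreg hm hz0 hroot'
  have hu : s ^ m * z ∈ P.loc 𝔫 := fun V hV => (V.valuation_le_one_iff _).mp (hs V hV).le
  have huu : IsUnit (⟨_, hu⟩ : ↥(P.loc 𝔫)) :=
    (P.isUnit_loc_iff _).mpr ⟨mul_ne_zero (pow_ne_zero _ hs0) hz0, hs⟩
  refine ⟨s, ⟨_, hu⟩, hs0, huu, rfl, hs, fun V hV hv => ?_⟩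
  -- `s` is a unit of `V`, and `s ^ m ≡ u`
  have hzV : V.valuation z = 1 := P.valuation_eq_one_of_congrOv hz hv
  have hsV : V.valuation s = 1 := by
    have h1 := hs V hV
    rw [map_mul, map_pow, hzV, mul_one] at h1
    exact t4l_eq_one_of_pow_eq_one hm h1
  have hval : V.valuation (s ^ m - s ^ m * z) < 1 := by
    obtain ⟨o, ho, hzo⟩ := hz
    have h1 : s ^ m - s ^ m * z = -(s ^ m * (q * o)) := by rw [← hzo]; ring
    rw [h1, Valuation.map_neg, map_mul, map_pow, hsV, one_pow, one_mul, map_mul]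
    have ho1 : V.valuation o ≤ 1 := (V.valuation_le_one_iff _).mpr (ho V hv)
    calc V.valuation q * V.valuation o ≤ V.valuation q * 1 := mul_le_mul_right ho1 _
      _ = V.valuation q := mul_one _
      _ < 1 := hv.2
  obtain ⟨κ, hκ⟩ := P.exists_branchVal_of_pow hV (hsm V hV hv) hm
    ((V.valuation_le_one_iff _).mp hsV.le) ⟨_, hu⟩ hval
  exact ⟨κ, BranchVal.ne_zero_of_pow P hV hm hκ ⟨_, hu⟩ huu hval, hκ,
    BranchVal.pow_eq_locVal P hV hκ ⟨_, hu⟩ hval⟩

/-- if a local generator has the same value on all vertical branches through `𝔫`, the hypothesis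
of `T4Pres.glue` at `𝔫` holds -/
theorem glue_hyp_of_eq {𝔫 : Ideal P.B} [h𝔫 : 𝔫.IsMaximal] {q : F} {m : ℕ} {z s : F}
    (hs : ∀ V ∈ P.through 𝔫, V.valuation (s ^ m * z) = 1)
    (hκ : ∀ V ∈ P.through 𝔫, V ∈ P.vert q → ∃ κ : P.B ⧸ 𝔫, κ ≠ 0 ∧ P.BranchVal 𝔫 V s κ)
    (heq : ∀ V ∈ P.through 𝔫, V ∈ P.vert q → ∀ W ∈ P.through 𝔫, W ∈ P.vert q →
      ∀ κ κ' : P.B ⧸ 𝔫, P.BranchVal 𝔫 V s κ → P.BranchVal 𝔫 W s κ' → κ = κ') :
    ∃ s : F, (∀ V ∈ P.through 𝔫, V.valuation (s ^ m * z) = 1) ∧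
      ∃ κ : P.B ⧸ 𝔫, κ ≠ 0 ∧ ∀ V ∈ P.through 𝔫, V ∈ P.vert q → P.BranchVal 𝔫 V s κ := by
  refine ⟨s, hs, ?_⟩
  by_cases hne : ∃ V ∈ P.through 𝔫, V ∈ P.vert q
  · obtain ⟨V, hV, hv⟩ := hne
    obtain ⟨κ, hκ0, hκV⟩ := hκ V hV hv
    refine ⟨κ, hκ0, fun W hW hw => ?_⟩
    obtain ⟨κ', _, hκW⟩ := hκ W hW hw
    rw [heq V hV hv W hW hw κ κ' hκV hκW]
    exact hκW
  · push Not at hne
    haveI : Nontrivial (P.B ⧸ 𝔫) := Ideal.Quotient.nontrivial_iff.mpr h𝔫.ne_top
    exact ⟨1, one_ne_zero, fun V hV hv => absurd hv (hne V hV)⟩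

end T4Pres

end Fermat.Agent.T4
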