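/-
T4-L (helper5): removing a constant gluing datum.

* `BranchVal.valuation_eq_one`, `BranchVal.inv`;
* `glue_hyp_of_ratio`: if the `E`-th powers of the branch values `κ_V` of a local generator `s` of
  `z` are proportional to constants `ξ_V ∈ B` which do not depend on the point, and `h ≡ ξ_V` on
  every vertical `V`, then `s ^ E / h` is a local generator of `z ^ E * h ^ m` with EQUAL branch
  values: the hypothesis of `T4Pres.glue` holds at the point.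
* `t4l_ratio_aux`, `ratio_of_relations`: the two norm relations
  `κ_inf κ_mid^{q-1} = κ_0^q a`, `κ_0 κ_mid^{q-1} = κ_inf^q b` give
  `κ_inf^{q²-1} (a b^q) = κ_mid^{q²-1} = κ_0^{q²-1} (a^q b)`.
* `congrOv_pow_mul`: `z ≡ 1`, `h ^ m ≡ 1` ⟹ `z ^ E * h ^ m ≡ 1`.
-/
import Fermat.Agent.Lib.T4.Local.Datum

set_option autoImplicit false
set_option linter.style.haveILetI false

namespace Fermat.Agent.T4

variable {F : Type*} [Field F]

/-- `x = w^q a`, `w = x^q b` ⟹ `x^(q²-1) (a b^q) = 1` -/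
theorem t4l_ratio_aux {K : Type*} [Field K] {x w a b : K} {q : ℕ} (hq : 0 < q) (hx0 : x ≠ 0)
    (h1 : x = w ^ q * a) (h2 : w = x ^ q * b) : x ^ (q * q - 1) * (a * b ^ q) = 1 := by
  have hqq : 1 ≤ q * q := Nat.mul_pos hq hq
  have h3 : x = x ^ (q * q) * (a * b ^ q) := by
    calc x = w ^ q * a := h1
      _ = (x ^ q * b) ^ q * a := by rw [← h2]
      _ = x ^ (q * q) * (a * b ^ q) := by rw [mul_pow, ← pow_mul]; ring
  have h4 : x ^ (q * q) = x ^ (q * q - 1) * x := by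
    rw [← pow_succ, Nat.sub_add_cancel hqq]
  rw [h4] at h3
  have h5 : x * 1 = x * (x ^ (q * q - 1) * (a * b ^ q)) := by
    rw [mul_one]
    calc x = x ^ (q * q - 1) * x * (a * b ^ q) := h3
      _ = x * (x ^ (q * q - 1) * (a * b ^ q)) := by ring
  exact (mul_left_cancel₀ hx0 h5).symm

/-- the two norm relations determine the `(q²-1)`-th powers of the ratios of the branch values -/
theorem t4l_ratio_of_relations {K : Type*} [Field K] {ki km k0 a b : K} {q : ℕ} (hq : 0 < q)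
    (hi : ki ≠ 0) (hm : km ≠ 0) (h0 : k0 ≠ 0)
    (hα : ki * km ^ (q - 1) = k0 ^ q * a) (hβ : k0 * km ^ (q - 1) = ki ^ q * b) :
    ki ^ (q * q - 1) * (a * b ^ q) = km ^ (q * q - 1) ∧
      k0 ^ (q * q - 1) * (a ^ q * b) = km ^ (q * q - 1) := by
  have hkq : km ^ q = km ^ (q - 1) * km := by rw [← pow_succ, Nat.sub_add_cancel hq]
  have h1 : ki / km = (k0 / km) ^ q * a := by
    rw [div_pow, div_mul_eq_mul_div, ← hα, hkq]
    field_simp
  have h2 : k0 / km = (ki / km) ^ q * b := by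
    rw [div_pow, div_mul_eq_mul_div, ← hβ, hkq]
    field_simp
  have hx0 : ki / km ≠ 0 := div_ne_zero hi hm
  have hw0 : k0 / km ≠ 0 := div_ne_zero h0 hm
  have e1 := t4l_ratio_aux hq hx0 h1 h2
  have e2 := t4l_ratio_aux hq hw0 h2 h1
  rw [div_pow] at e1 e2
  have hkm : km ^ (q * q - 1) ≠ 0 := pow_ne_zero _ hm
  constructor
  · field_simp at e1
    rw [← e1]; ring
  · field_simp at e2
    rw [← e2]; ring

namespace T4Pres

variable (P : T4Pres F)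

/-- an element with a non-zero branch value is a unit of `V` -/
theorem BranchVal.valuation_eq_one {𝔫 : Ideal P.B} [h𝔫 : 𝔫.IsMaximal] {V : ValuationSubring F}
    (hV : V ∈ P.through 𝔫) {f : F} {κ : P.B ⧸ 𝔫} (h : P.BranchVal 𝔫 V f κ) (hκ : κ ≠ 0) :
    V.valuation f = 1 := by
  obtain ⟨a, hval, rfl⟩ := (P.branchVal_iff hV).mp h
  have hu : IsUnit a := by
    by_contra hnu
    exact hκ ((P.locVal_eq_zero_iff a).mpr hnu)
  have ha1 : V.valuation (a : F) = 1 := ((P.isUnit_loc_iff a).mp hu).2 V hV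
  have h1 : f = (f - (a : F)) + (a : F) := by ring
  rw [h1, V.valuation.map_add_eq_of_lt_right (by rw [ha1]; exact hval), ha1]

/-- branch values of inverses -/
theorem BranchVal.inv {𝔫 : Ideal P.B} [h𝔫 : 𝔫.IsMaximal] {V : ValuationSubring F}
    (hV : V ∈ P.through 𝔫) {f : F} {κ : P.B ⧸ 𝔫} (h : P.BranchVal 𝔫 V f κ) (hκ : κ ≠ 0) :
    ∃ κ' : P.B ⧸ 𝔫, κ * κ' = 1 ∧ P.BranchVal 𝔫 V f⁻¹ κ' := by
  have hf1 := BranchVal.valuation_eq_one P hV h hκ
  obtain ⟨a, hval, rfl⟩ := (P.branchVal_iff hV).mp h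
  have hu : IsUnit a := by
    by_contra hnu
    exact hκ ((P.locVal_eq_zero_iff a).mpr hnu)
  obtain ⟨a', haa'⟩ := isUnit_iff_exists_inv.mp hu
  have ha1 : V.valuation (a : F) = 1 := ((P.isUnit_loc_iff a).mp hu).2 V hV
  have haF : (a : F) * (a' : F) = 1 := by
    have := congrArg (fun t : ↥(P.loc 𝔫) => (t : F)) haa'
    simpa using this
  have ha'1 : V.valuation (a' : F) = 1 := by
    have h2 : V.valuation ((a : F) * (a' : F)) = 1 := by rw [haF, map_one]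
    rwa [map_mul, ha1, one_mul] at h2
  have hf0 : f ≠ 0 := by
    rintro rfl
    rw [map_zero] at hf1
    exact zero_ne_one hf1
  refine ⟨P.locVal 𝔫 a', by rw [← map_mul, haa', map_one], (P.branchVal_iff hV).mpr ⟨a', ?_, rfl⟩⟩
  have h3 : f⁻¹ - (a' : F) = -((f - (a : F)) * f⁻¹ * (a' : F)) := by
    have ha0 : (a : F) ≠ 0 := left_ne_zero_of_mul_eq_one haF
    have : (a' : F) = (a : F)⁻¹ := eq_inv_of_mul_eq_one_right haF
    rw [this]
    field_simp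
    ring
  rw [h3, Valuation.map_neg, map_mul, map_mul, map_inv₀, hf1, inv_one, mul_one, ha'1, mul_one]
  exact hval

/-- products and powers of elements `≡ 1 mod q · Ov` -/
theorem congrOv_mul {q f g : F} (hq : q ∈ P.ov q) (hf : P.CongrOv q f 1) (hg : P.CongrOv q g 1) :
    P.CongrOv q (f * g) 1 := by
  obtain ⟨o, ho, hfo⟩ := hf
  obtain ⟨o', ho', hgo⟩ := hg
  have hgmem : g ∈ P.ov q := by
    have : g = 1 + q * o' := by rw [← hgo]; ring
    rw [this]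
    exact (P.ov q).add_mem (P.ov q).one_mem ((P.ov q).mul_mem hq ho')
  refine ⟨o * g + o', (P.ov q).add_mem ((P.ov q).mul_mem ho hgmem) ho', ?_⟩
  have : f * g - 1 = (f - 1) * g + (g - 1) := by ring
  rw [this, hfo, hgo]; ring

theorem congrOv_pow {q f : F} (hq : q ∈ P.ov q) (hf : P.CongrOv q f 1) (n : ℕ) :
    P.CongrOv q (f ^ n) 1 := by
  induction n with
  | zero => exact ⟨0, (P.ov q).zero_mem, by simp⟩
  | succ n ih => rw [pow_succ]; exact P.congrOv_mul hq ih hf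

theorem congrOv_pow_mul {q z h : F} (hq : q ∈ P.ov q) (hz : P.CongrOv q z 1) {m : ℕ}
    (hh : P.CongrOv q (h ^ m) 1) (E : ℕ) : P.CongrOv q (z ^ E * h ^ m) 1 :=
  P.congrOv_mul hq (P.congrOv_pow hq hz E) hh

/-- **removing a constant datum**: if the `E`-th powers of the branch values of the local generator
`s` of `z` at `𝔫` are proportional to constants `ξ V` and `h ≡ ξ V` on the vertical `V`, then
`s ^ E / h` is a local generator of `z ^ E * h ^ m` with equal branch values -/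
theorem glue_hyp_of_ratio {𝔫 : Ideal P.B} [h𝔫 : 𝔫.IsMaximal] {q : F} {m E : ℕ} {z s h : F}
    (hh0 : h ≠ 0) (ξ : ValuationSubring F → P.B)
    (hξ : ∀ V ∈ P.through 𝔫, V ∈ P.vert q → ξ V ∉ 𝔫)
    (hh : ∀ V ∈ P.through 𝔫, V ∈ P.vert q → V.valuation (h - (ξ V : F)) < 1)
    (hs : ∀ V ∈ P.through 𝔫, V.valuation (s ^ m * z) = 1)
    (hκ : ∀ V ∈ P.through 𝔫, V ∈ P.vert q → ∃ κ : P.B ⧸ 𝔫, κ ≠ 0 ∧ P.BranchVal 𝔫 V s κ)
    (hratio : ∀ V ∈ P.through 𝔫, V ∈ P.vert q → ∀ W ∈ P.through 𝔫, W ∈ P.vert q →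
      ∀ κ κ' : P.B ⧸ 𝔫, P.BranchVal 𝔫 V s κ → P.BranchVal 𝔫 W s κ' →
        κ ^ E * Ideal.Quotient.mk 𝔫 (ξ W) = κ' ^ E * Ideal.Quotient.mk 𝔫 (ξ V)) :
    ∃ s' : F, (∀ V ∈ P.through 𝔫, V.valuation (s' ^ m * (z ^ E * h ^ m)) = 1) ∧
      ∃ κ : P.B ⧸ 𝔫, κ ≠ 0 ∧ ∀ V ∈ P.through 𝔫, V ∈ P.vert q → P.BranchVal 𝔫 V s' κ := by
  haveI := h𝔫.isPrime
  haveI : IsDomain (P.B ⧸ 𝔫) := Ideal.Quotient.isDomain 𝔫
  have hs' : ∀ V ∈ P.through 𝔫, V.valuation ((s ^ E * h⁻¹) ^ m * (z ^ E * h ^ m)) = 1 := by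
    intro V hV
    have h1 : (s ^ E * h⁻¹) ^ m * (z ^ E * h ^ m) = (s ^ m * z) ^ E := by
      have h2 : h⁻¹ ^ m * h ^ m = 1 := by rw [← mul_pow, inv_mul_cancel₀ hh0, one_pow]
      calc (s ^ E * h⁻¹) ^ m * (z ^ E * h ^ m)
          = (s ^ m * z) ^ E * (h⁻¹ ^ m * h ^ m) := by ring
        _ = (s ^ m * z) ^ E := by rw [h2, mul_one]
    rw [h1, map_pow, hs V hV, one_pow]
  -- the branch values of `s ^ E / h`
  have hmkξ : ∀ V ∈ P.through 𝔫, V ∈ P.vert q → Ideal.Quotient.mk 𝔫 (ξ V) ≠ 0 :=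
    fun V hV hv h0 => hξ V hV hv (Ideal.Quotient.eq_zero_iff_mem.mp h0)
  have hbv : ∀ V ∈ P.through 𝔫, V ∈ P.vert q → ∀ κ : P.B ⧸ 𝔫, P.BranchVal 𝔫 V s κ →
      ∃ ι : P.B ⧸ 𝔫, Ideal.Quotient.mk 𝔫 (ξ V) * ι = 1 ∧
        P.BranchVal 𝔫 V (s ^ E * h⁻¹) (κ ^ E * ι) := by
    intro V hV hv κ hκV
    have hhV : P.BranchVal 𝔫 V h (Ideal.Quotient.mk 𝔫 (ξ V)) := by
      refine BranchVal.congr P hV.1 (P.branchVal_of_mem h𝔫.ne_top V (ξ V)) ?_
      rw [← Valuation.map_neg, neg_sub]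
      exact hh V hV hv
    obtain ⟨ι, hι, hιV⟩ := BranchVal.inv P hV hhV (hmkξ V hV hv)
    exact ⟨ι, hι, BranchVal.mul P hV.1 (BranchVal.pow P hV.1 hκV E) hιV⟩
  refine P.glue_hyp_of_eq hs' ?_ ?_
  · intro V hV hv
    obtain ⟨κ, hκ0, hκV⟩ := hκ V hV hv
    obtain ⟨ι, hι, hιV⟩ := hbv V hV hv κ hκV
    refine ⟨_, mul_ne_zero (pow_ne_zero _ hκ0) ?_, hιV⟩
    exact right_ne_zero_of_mul_eq_one hι
  · intro V hV hv W hW hw κ1 κ2 h1 h2
    obtain ⟨κ, _, hκV⟩ := hκ V hV hv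
    obtain ⟨κ', _, hκW⟩ := hκ W hW hw
    obtain ⟨ι, hι, hιV⟩ := hbv V hV hv κ hκV
    obtain ⟨ι', hι', hιW⟩ := hbv W hW hw κ' hκW
    rw [BranchVal.unique P hV h1 hιV, BranchVal.unique P hW h2 hιW]
    have hr := hratio V hV hv W hW hw κ κ' hκV hκW
    calc κ ^ E * ι = κ ^ E * ι * (Ideal.Quotient.mk 𝔫 (ξ W) * ι') := by rw [hι', mul_one]
      _ = κ ^ E * Ideal.Quotient.mk 𝔫 (ξ W) * (ι * ι') := by ring
      _ = κ' ^ E * Ideal.Quotient.mk 𝔫 (ξ V) * (ι * ι') := by rw [hr]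
      _ = κ' ^ E * ι' * (Ideal.Quotient.mk 𝔫 (ξ V) * ι) := by ring
      _ = κ' ^ E * ι' := by rw [hι, mul_one]

end T4Pres

end Fermat.Agent.T4
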