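/-
T4-L (helper5): the relation between the branch values of a local generator which is forced by a
norm condition (T4-N step C, one embedding `F₁ → F`).

`h : T4PresOver P1 P`, `𝔫` the only point of `B` over `𝔫₁ = h.under 𝔫`, `s` a local generator of
`z` at `𝔫`, and `N z = c * f ^ m` with `c` a unit at `𝔫₁` and `f ≡ φ` (resp. `φ'`), constants, on
the valuation rings `V1` (resp. `V1'`) through `𝔫₁`.
* SPLIT side: `Va, Vb` over `V1` with `N y ≡ a * a' ^ e` whenever `y ≡ a` on `Va`, `y ≡ a'` on `Vb`;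
* FROBENIUS side: `Vc` over `V1'` with `N y ≡ y ^ Q` on `Vc`.
Then `κa * κb ^ e * φ = κc ^ Q * φ'` in `B ⧸ 𝔫`  (`norm_relation`).
-/
import Fermat.Agent.Lib.T4.Local.Norm
import Fermat.Agent.Lib.T4.Local.Ratio

set_option autoImplicit false
set_option linter.style.haveILetI false

namespace Fermat.Agent.T4

variable {F1 F : Type*} [Field F1] [Field F] [Algebra F1 F]

namespace T4Pres

variable (P : T4Pres F)

/-- elements of `B_𝔫` which are congruent on some branch through `𝔫` have the same value at `𝔫` -/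
theorem locVal_eq_of_valuation_lt {𝔫 : Ideal P.B} [h𝔫 : 𝔫.IsMaximal] {V : ValuationSubring F}
    (hV : V ∈ P.through 𝔫) {x y : ↥(P.loc 𝔫)} (hxy : V.valuation ((x : F) - (y : F)) < 1) :
    P.locVal 𝔫 x = P.locVal 𝔫 y := by
  have h1 : ¬ IsUnit (x - y) := by
    intro hu
    have := ((P.isUnit_loc_iff (x - y)).mp hu).2 V hV
    rw [AddSubgroupClass.coe_sub] at this
    exact hxy.ne this
  have h2 := (P.locVal_eq_zero_iff (x - y)).mpr h1
  rw [map_sub, sub_eq_zero] at h2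
  exact h2

end T4Pres

namespace T4PresOver

variable {P1 : T4Pres F1} {P : T4Pres F} (h : T4PresOver P1 P)

instance under_isMaximal' (𝔫 : Ideal P.B) [𝔫.IsMaximal] : (h.under 𝔫).IsMaximal :=
  h.under_isMaximal 𝔫

theorem map_mem_loc (𝔫 : Ideal P.B) [h𝔫 : 𝔫.IsMaximal] {a : F1} (ha : a ∈ P1.loc (h.under 𝔫)) :
    algebraMap F1 F a ∈ P.loc 𝔫 := by
  haveI := h𝔫.isPrime
  haveI : (h.under 𝔫).IsPrime := (h.under_isMaximal 𝔫).isPrime
  obtain ⟨c, hc, hca⟩ := P1.mem_loc_iff.mp ha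
  refine P.mem_loc_iff.mpr ⟨h.incl c, hc, ?_⟩
  rw [coe_incl, ← map_mul]
  exact h.map_mem _ hca

/-- `(B₁)_𝔫₁ → B_𝔫` -/
def locMap (𝔫 : Ideal P.B) [𝔫.IsMaximal] : ↥(P1.loc (h.under 𝔫)) →+* ↥(P.loc 𝔫) :=
  ((algebraMap F1 F).comp (P1.loc (h.under 𝔫)).subtype).codRestrict (P.loc 𝔫)
    fun a => h.map_mem_loc 𝔫 a.2

@[simp]
theorem coe_locMap (𝔫 : Ideal P.B) [𝔫.IsMaximal] (a : ↥(P1.loc (h.under 𝔫))) :
    ((h.locMap 𝔫 a : ↥(P.loc 𝔫)) : F) = algebraMap F1 F (a : F1) := rfl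

/-- `B₁ ⧸ 𝔫₁ → B ⧸ 𝔫` -/
def quotMap (𝔫 : Ideal P.B) : P1.B ⧸ h.under 𝔫 →+* P.B ⧸ 𝔫 :=
  Ideal.quotientMap 𝔫 h.incl le_rfl

@[simp]
theorem quotMap_mk (𝔫 : Ideal P.B) (b : P1.B) :
    h.quotMap 𝔫 (Ideal.Quotient.mk _ b) = Ideal.Quotient.mk 𝔫 (h.incl b) :=
  Ideal.quotientMap_mk

theorem locVal_locMap (𝔫 : Ideal P.B) [h𝔫 : 𝔫.IsMaximal] (a : ↥(P1.loc (h.under 𝔫))) :
    P.locVal 𝔫 (h.locMap 𝔫 a) = h.quotMap 𝔫 (P1.locVal (h.under 𝔫) a) := by
  refine P1.locVal_unique ((P.locVal 𝔫).comp (h.locMap 𝔫)) (h.quotMap 𝔫) (fun b => ?_) a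
  have h1 : h.locMap 𝔫 (P1.locIncl (h.under 𝔫) b) = P.locIncl 𝔫 (h.incl b) := Subtype.ext rfl
  rw [RingHom.comp_apply, h1, T4Pres.locVal_locIncl, quotMap_mk]

/-- the value at `𝔫₁` of a unit `w ≡ N s * φ` on the SPLIT side -/
theorem norm_split_value (𝔫 : Ideal P.B) [h𝔫 : 𝔫.IsMaximal]
    {V1 : ValuationSubring F1} (hV1 : V1 ∈ P1.through (h.under 𝔫))
    {Va Vb : ValuationSubring F} (hVa : Va ∈ P.through 𝔫) (hVb : Vb ∈ P.through 𝔫) {e : ℕ}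
    (hsplit : ∀ (y : F) (a a' : F1), a ∈ P1.loc (h.under 𝔫) → a' ∈ P1.loc (h.under 𝔫) →
      Va.valuation y = 1 → Vb.valuation y = 1 →
      Va.valuation (y - algebraMap F1 F a) < 1 → Vb.valuation (y - algebraMap F1 F a') < 1 →
      V1.valuation (Algebra.norm F1 y - a * a' ^ e) < 1)
    (hIDa : ∀ x ∈ P.loc 𝔫, ∃ a ∈ P1.loc (h.under 𝔫), Va.valuation (x - algebraMap F1 F a) < 1)
    (hIDb : ∀ x ∈ P.loc 𝔫, ∃ a ∈ P1.loc (h.under 𝔫), Vb.valuation (x - algebraMap F1 F a) < 1)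
    {s : F} {κa κb : P.B ⧸ 𝔫} (hκa : P.BranchVal 𝔫 Va s κa) (hκb : P.BranchVal 𝔫 Vb s κb)
    (hκa0 : κa ≠ 0) (hκb0 : κb ≠ 0)
    (w : ↥(P1.loc (h.under 𝔫))) (φ : P1.B)
    (hw : V1.valuation (Algebra.norm F1 s * (φ : F1) - (w : F1)) < 1) :
    h.quotMap 𝔫 (P1.locVal (h.under 𝔫) w) =
      κa * κb ^ e * Ideal.Quotient.mk 𝔫 (h.incl φ) := by
  have hsa1 : Va.valuation s = 1 := T4Pres.BranchVal.valuation_eq_one P hVa hκa hκa0
  have hsb1 : Vb.valuation s = 1 := T4Pres.BranchVal.valuation_eq_one P hVb hκb hκb0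
  obtain ⟨xa, hxa, rfl⟩ := (P.branchVal_iff hVa).mp hκa
  obtain ⟨xb, hxb, rfl⟩ := (P.branchVal_iff hVb).mp hκb
  obtain ⟨a, ha, hxaa⟩ := hIDa xa xa.2
  obtain ⟨b, hb, hxbb⟩ := hIDb xb xb.2
  -- `s ≡ a` on `Va`, `s ≡ b` on `Vb`
  have hsa : Va.valuation (s - algebraMap F1 F a) < 1 := by
    have : s - algebraMap F1 F a = (s - (xa : F)) + ((xa : F) - algebraMap F1 F a) := by ring
    rw [this]
    exact lt_of_le_of_lt (Va.valuation.map_add _ _) (max_lt hxa hxaa)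
  have hsb : Vb.valuation (s - algebraMap F1 F b) < 1 := by
    have : s - algebraMap F1 F b = (s - (xb : F)) + ((xb : F) - algebraMap F1 F b) := by ring
    rw [this]
    exact lt_of_le_of_lt (Vb.valuation.map_add _ _) (max_lt hxb hxbb)
  have hN := hsplit s a b ha hb hsa1 hsb1 hsa hsb
  -- `w ≡ a * b ^ e * φ`
  set a' : ↥(P1.loc (h.under 𝔫)) := ⟨a, ha⟩ with ha'
  set b' : ↥(P1.loc (h.under 𝔫)) := ⟨b, hb⟩ with hb'
  have hφV : V1.valuation (φ : F1) ≤ 1 := (V1.valuation_le_one_iff _).mpr (P1.B_le hV1.1 φ.2)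
  have hcong : V1.valuation ((w : F1) -
      ((a' * b' ^ e * P1.locIncl (h.under 𝔫) φ : ↥(P1.loc (h.under 𝔫))) : F1)) < 1 := by
    have h1 : (w : F1) - ((a' * b' ^ e * P1.locIncl (h.under 𝔫) φ : ↥(P1.loc (h.under 𝔫))) : F1)
        = -(Algebra.norm F1 s * (φ : F1) - (w : F1)) +
          (Algebra.norm F1 s - a * b ^ e) * (φ : F1) := by
      push_cast
      simp only [T4Pres.coe_locIncl, ha', hb']
      ring
    rw [h1]
    refine lt_of_le_of_lt (V1.valuation.map_add _ _) (max_lt ?_ ?_)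
    · rw [Valuation.map_neg]; exact hw
    · rw [map_mul]
      calc V1.valuation (Algebra.norm F1 s - a * b ^ e) * V1.valuation (φ : F1)
          ≤ V1.valuation (Algebra.norm F1 s - a * b ^ e) * 1 := mul_le_mul_right hφV _
        _ = V1.valuation (Algebra.norm F1 s - a * b ^ e) := mul_one _
        _ < 1 := hN
  have hval := P1.locVal_eq_of_valuation_lt hV1 hcong
  rw [hval]
  simp only [map_mul, map_pow, T4Pres.locVal_locIncl, quotMap_mk]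
  rw [← h.locVal_locMap, ← h.locVal_locMap]
  -- `locVal (ι a) = locVal xa`
  have h2 : P.locVal 𝔫 (h.locMap 𝔫 a') = P.locVal 𝔫 xa := by
    refine P.locVal_eq_of_valuation_lt hVa ?_
    rw [coe_locMap, ← Valuation.map_neg, neg_sub]
    exact hxaa
  have h3 : P.locVal 𝔫 (h.locMap 𝔫 b') = P.locVal 𝔫 xb := by
    refine P.locVal_eq_of_valuation_lt hVb ?_
    rw [coe_locMap, ← Valuation.map_neg, neg_sub]
    exact hxbb
  rw [h2, h3]

/-- the value at `𝔫₁` of a unit `w ≡ N s * φ'` on the FROBENIUS side -/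
theorem norm_frob_value (𝔫 : Ideal P.B) [h𝔫 : 𝔫.IsMaximal]
    {V1' : ValuationSubring F1} {Vc : ValuationSubring F} (hVc : Vc ∈ P.through 𝔫)
    (hover : ∀ x : F1, V1'.valuation x < 1 → Vc.valuation (algebraMap F1 F x) < 1) {Q : ℕ}
    (hfrob : ∀ y : F, Vc.valuation y = 1 →
      Vc.valuation (algebraMap F1 F (Algebra.norm F1 y) - y ^ Q) < 1)
    {s : F} {κc : P.B ⧸ 𝔫} (hκc : P.BranchVal 𝔫 Vc s κc) (hκc0 : κc ≠ 0)
    (w : ↥(P1.loc (h.under 𝔫))) (φ' : P1.B)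
    (hw : V1'.valuation (Algebra.norm F1 s * (φ' : F1) - (w : F1)) < 1) :
    h.quotMap 𝔫 (P1.locVal (h.under 𝔫) w) = κc ^ Q * Ideal.Quotient.mk 𝔫 (h.incl φ') := by
  have hs1 : Vc.valuation s = 1 := T4Pres.BranchVal.valuation_eq_one P hVc hκc hκc0
  obtain ⟨xc, hxc, rfl⟩ := (P.branchVal_iff hVc).mp hκc
  have hN := hfrob s hs1
  have hw' := hover _ hw
  rw [map_sub, map_mul] at hw'
  have hxcV : (xc : F) ∈ Vc := xc.2 Vc hVc
  have hpow : Vc.valuation (s ^ Q - (xc : F) ^ Q) < 1 := t4l_pow_sub_pow_lt Vc hxcV hxc Q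
  have hφV : Vc.valuation ((h.incl φ' : P.B) : F) ≤ 1 :=
    (Vc.valuation_le_one_iff _).mpr (P.B_le hVc.1 (h.incl φ').2)
  rw [← h.locVal_locMap]
  have hcong : Vc.valuation (((h.locMap 𝔫 w : ↥(P.loc 𝔫)) : F) -
      ((xc ^ Q * P.locIncl 𝔫 (h.incl φ') : ↥(P.loc 𝔫)) : F)) < 1 := by
    have h1 : ((h.locMap 𝔫 w : ↥(P.loc 𝔫)) : F) -
        ((xc ^ Q * P.locIncl 𝔫 (h.incl φ') : ↥(P.loc 𝔫)) : F) =
        -(algebraMap F1 F (Algebra.norm F1 s) * algebraMap F1 F (φ' : F1) -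
            algebraMap F1 F (w : F1)) +
          ((algebraMap F1 F (Algebra.norm F1 s) - s ^ Q) + (s ^ Q - (xc : F) ^ Q)) *
            ((h.incl φ' : P.B) : F) := by
      push_cast
      simp only [coe_locMap, T4Pres.coe_locIncl, coe_incl]
      ring
    rw [h1]
    refine lt_of_le_of_lt (Vc.valuation.map_add _ _) (max_lt ?_ ?_)
    · rw [Valuation.map_neg]; exact hw'
    · rw [map_mul]
      have h2 : Vc.valuation ((algebraMap F1 F (Algebra.norm F1 s) - s ^ Q) +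
          (s ^ Q - (xc : F) ^ Q)) < 1 :=
        lt_of_le_of_lt (Vc.valuation.map_add _ _) (max_lt hN hpow)
      calc Vc.valuation ((algebraMap F1 F (Algebra.norm F1 s) - s ^ Q) + (s ^ Q - (xc : F) ^ Q))
            * Vc.valuation ((h.incl φ' : P.B) : F)
          ≤ Vc.valuation ((algebraMap F1 F (Algebra.norm F1 s) - s ^ Q) +
              (s ^ Q - (xc : F) ^ Q)) * 1 := mul_le_mul_right hφV _
        _ = _ := mul_one _
        _ < 1 := h2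
  rw [P.locVal_eq_of_valuation_lt hVc hcong, map_mul, map_pow, T4Pres.locVal_locIncl]

/-- the norm of a local generator, times `f`, is a unit at `𝔫₁` when `N z = c * f ^ m` -/
theorem exists_norm_unit (𝔫 : Ideal P.B) [h𝔫 : 𝔫.IsMaximal]
    (huniq : ∀ 𝔫' : Ideal P.B, 𝔫'.IsMaximal → 𝔫'.comap h.incl = h.under 𝔫 → 𝔫' = 𝔫)
    {m : ℕ} (hm : m ≠ 0) {z s : F} (hs : ∀ V ∈ P.through 𝔫, V.valuation (s ^ m * z) = 1)
    {c f : F1} (hNz : Algebra.norm F1 z = c * f ^ m)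
    (hc : ∀ V1 ∈ P1.through (h.under 𝔫), V1.valuation c = 1) :
    ∃ w : ↥(P1.loc (h.under 𝔫)), (w : F1) = Algebra.norm F1 s * f ∧
      ∀ V1 ∈ P1.through (h.under 𝔫), V1.valuation (w : F1) = 1 := by
  have hval : ∀ V1 ∈ P1.through (h.under 𝔫), V1.valuation (Algebra.norm F1 s * f) = 1 := by
    intro V1 hV1
    have h1 := h.norm_valuation_eq_one 𝔫 huniq hs hV1
    rw [map_mul, map_pow, hNz] at h1
    have h2 : Algebra.norm F1 s ^ m * (c * f ^ m) = c * (Algebra.norm F1 s * f) ^ m := by ring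
    rw [h2, map_mul, hc V1 hV1, one_mul, map_pow] at h1
    exact t4l_eq_one_of_pow_eq_one hm h1
  exact ⟨⟨_, fun V1 hV1 => (V1.valuation_le_one_iff _).mp (hval V1 hV1).le⟩, rfl, hval⟩

/-- **the norm relation**: `κa * κb ^ e * φ = κc ^ Q * φ'` -/
theorem norm_relation (𝔫 : Ideal P.B) [h𝔫 : 𝔫.IsMaximal]
    (huniq : ∀ 𝔫' : Ideal P.B, 𝔫'.IsMaximal → 𝔫'.comap h.incl = h.under 𝔫 → 𝔫' = 𝔫)
    {m : ℕ} (hm : m ≠ 0) {z s : F} (hs : ∀ V ∈ P.through 𝔫, V.valuation (s ^ m * z) = 1)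
    {c f : F1} (hNz : Algebra.norm F1 z = c * f ^ m)
    (hc : ∀ V1 ∈ P1.through (h.under 𝔫), V1.valuation c = 1)
    -- the split side
    {V1 : ValuationSubring F1} (hV1 : V1 ∈ P1.through (h.under 𝔫))
    {Va Vb : ValuationSubring F} (hVa : Va ∈ P.through 𝔫) (hVb : Vb ∈ P.through 𝔫) {e : ℕ}
    (hsplit : ∀ (y : F) (a a' : F1), a ∈ P1.loc (h.under 𝔫) → a' ∈ P1.loc (h.under 𝔫) →
      Va.valuation y = 1 → Vb.valuation y = 1 →
      Va.valuation (y - algebraMap F1 F a) < 1 → Vb.valuation (y - algebraMap F1 F a') < 1 →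
      V1.valuation (Algebra.norm F1 y - a * a' ^ e) < 1)
    (hIDa : ∀ x ∈ P.loc 𝔫, ∃ a ∈ P1.loc (h.under 𝔫), Va.valuation (x - algebraMap F1 F a) < 1)
    (hIDb : ∀ x ∈ P.loc 𝔫, ∃ a ∈ P1.loc (h.under 𝔫), Vb.valuation (x - algebraMap F1 F a) < 1)
    {φ : P1.B} (hφ : φ ∉ h.under 𝔫) (hfφ : V1.valuation (f - (φ : F1)) < 1)
    -- the Frobenius side
    {V1' : ValuationSubring F1} (hV1' : V1' ∈ P1.through (h.under 𝔫))
    {Vc : ValuationSubring F} (hVc : Vc ∈ P.through 𝔫)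
    (hover : ∀ x : F1, V1'.valuation x < 1 → Vc.valuation (algebraMap F1 F x) < 1) {Q : ℕ}
    (hfrob : ∀ y : F, Vc.valuation y = 1 →
      Vc.valuation (algebraMap F1 F (Algebra.norm F1 y) - y ^ Q) < 1)
    {φ' : P1.B} (hφ' : φ' ∉ h.under 𝔫) (hfφ' : V1'.valuation (f - (φ' : F1)) < 1)
    -- the branch values
    {κa κb κc : P.B ⧸ 𝔫} (hκa : P.BranchVal 𝔫 Va s κa) (hκb : P.BranchVal 𝔫 Vb s κb)
    (hκc : P.BranchVal 𝔫 Vc s κc) (hκa0 : κa ≠ 0) (hκb0 : κb ≠ 0) (hκc0 : κc ≠ 0) :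
    κa * κb ^ e * Ideal.Quotient.mk 𝔫 (h.incl φ) =
      κc ^ Q * Ideal.Quotient.mk 𝔫 (h.incl φ') := by
  obtain ⟨w, hw, hwu⟩ := h.exists_norm_unit 𝔫 huniq hm hs hNz hc
  -- `N s * φ ≡ w` where `f ≡ φ`
  have key : ∀ (W : ValuationSubring F1), W ∈ P1.through (h.under 𝔫) → ∀ ψ : P1.B,
      ψ ∉ h.under 𝔫 → W.valuation (f - (ψ : F1)) < 1 →
      W.valuation (Algebra.norm F1 s * (ψ : F1) - (w : F1)) < 1 := by
    intro W hW ψ hψ hfψ
    have hψ1 : W.valuation (ψ : F1) = 1 := P1.valuation_eq_one_of_not_mem hW hψ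
    have hf1 : W.valuation f = 1 := by
      have : f = (f - (ψ : F1)) + (ψ : F1) := by ring
      rw [this, W.valuation.map_add_eq_of_lt_right (by rw [hψ1]; exact hfψ), hψ1]
    have hN1 : W.valuation (Algebra.norm F1 s) = 1 := by
      have := hwu W hW
      rwa [hw, map_mul, hf1, mul_one] at this
    have h1 : Algebra.norm F1 s * (ψ : F1) - (w : F1) = -(Algebra.norm F1 s * (f - (ψ : F1))) := by
      rw [hw]; ring
    rw [h1, Valuation.map_neg, map_mul, hN1, one_mul]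
    exact hfψ
  have e1 := h.norm_split_value 𝔫 hV1 hVa hVb hsplit hIDa hIDb hκa hκb hκa0 hκb0 w φ
    (key V1 hV1 φ hφ hfφ)
  have e2 := h.norm_frob_value 𝔫 hVc hover hfrob hκc hκc0 w φ' (key V1' hV1' φ' hφ' hfφ')
  rw [← e1, e2]

end T4PresOver

end Fermat.Agent.T4
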