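/-
T4-L (helper5): uniqueness of the point over `𝔫₁` from residue-field identifications.

`h : T4PresOver P1 P`.  If every vertical valuation ring of `P` passes through `𝔫` and on each of
them every element of `B_𝔫` has a power which is congruent to (the image of) an element of
`(B₁)_𝔫₁`, then `𝔫` is the only maximal ideal of `B` over `𝔫₁ = h.under 𝔫`
(`T4PresOver.huniq_of_id`): this is the hypothesis `huniq` of `isIntegral_loc`,
`norm_valuation_eq_one` and `norm_relation`.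
-/
import Fermat.Agent.Lib.T4.Local.NormRel

set_option autoImplicit false
set_option linter.style.haveILetI false

namespace Fermat.Agent.T4

variable {F1 F : Type*} [Field F1] [Field F] [Algebra F1 F]

namespace T4PresOver

variable {P1 : T4Pres F1} {P : T4Pres F} (h : T4PresOver P1 P)

theorem quotMap_injective (𝔫 : Ideal P.B) [𝔫.IsMaximal] : Function.Injective (h.quotMap 𝔫) := by
  letI := Ideal.Quotient.field (h.under 𝔫)
  haveI : Nontrivial (P.B ⧸ 𝔫) := Ideal.Quotient.nontrivial_iff.mpr (Ideal.IsMaximal.ne_top ‹_›)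
  exact (h.quotMap 𝔫).injective

/-- if `V` passes through `𝔫` and through `𝔫'`, both over `𝔫₁`, and the residue field of `V` is
"purely inseparable" over that of its restriction (at `𝔫`), then `𝔫 ≤ 𝔫'` -/
theorem le_of_id (𝔫 : Ideal P.B) [h𝔫 : 𝔫.IsMaximal] {𝔫' : Ideal P.B} [h𝔫' : 𝔫'.IsPrime]
    (hover : 𝔫'.comap h.incl = h.under 𝔫) {V : ValuationSubring F} (hV : V ∈ P.through 𝔫)
    (hV' : V ∈ P.through 𝔫') {Q : ℕ} (hQ : Q ≠ 0)
    (hid : ∀ x ∈ P.loc 𝔫, ∃ a ∈ P1.loc (h.under 𝔫),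
      V.valuation (x ^ Q - algebraMap F1 F a) < 1) : 𝔫 ≤ 𝔫' := by
  haveI := h𝔫.isPrime
  haveI : (h.under 𝔫).IsPrime := (h.under_isMaximal 𝔫).isPrime
  letI := P1.isLocalRing_loc (h.under 𝔫)
  intro b hb
  obtain ⟨a, ha, hval⟩ := hid (b : F) (P.B_le_loc 𝔫 b.2)
  -- the value of `ι a` at `𝔫` is zero
  have h1 : P.locVal 𝔫 (h.locMap 𝔫 ⟨a, ha⟩) = P.locVal 𝔫 (P.locIncl 𝔫 b ^ Q) := by
    refine P.locVal_eq_of_valuation_lt hV ?_
    rw [← Valuation.map_neg, neg_sub]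
    exact hval
  rw [map_pow, T4Pres.locVal_locIncl, Ideal.Quotient.eq_zero_iff_mem.mpr hb, zero_pow hQ,
    h.locVal_locMap] at h1
  have h2 : P1.locVal (h.under 𝔫) ⟨a, ha⟩ = 0 := by
    apply h.quotMap_injective 𝔫
    rw [h1, map_zero]
  have h3 : ¬ IsUnit (⟨a, ha⟩ : ↥(P1.loc (h.under 𝔫))) := (P1.locVal_eq_zero_iff _).mp h2
  have h4 : (⟨a, ha⟩ : ↥(P1.loc (h.under 𝔫))) ∈ IsLocalRing.maximalIdeal _ :=
    (IsLocalRing.mem_maximalIdeal _).mpr h3
  obtain ⟨a1, c1, ha1, hc1, hca⟩ := (P1.mem_maximalIdeal_loc_iff (h.under 𝔫) _).mp h4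
  -- `ι c1 * b ^ Q - ι a1 ∈ 𝔭_V ⊆ 𝔫'`
  have hc1V : V.valuation ((h.incl c1 : P.B) : F) ≤ 1 :=
    (V.valuation_le_one_iff _).mpr (P.B_le hV.1 (h.incl c1).2)
  have h5 : V.valuation (((h.incl c1 * b ^ Q - h.incl a1 : P.B)) : F) < 1 := by
    have h6 : (((h.incl c1 * b ^ Q - h.incl a1 : P.B)) : F) =
        ((h.incl c1 : P.B) : F) * ((b : F) ^ Q - algebraMap F1 F a) := by
      have h7 : algebraMap F1 F (a1 : F1) = algebraMap F1 F (c1 : F1) * algebraMap F1 F a := by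
        rw [← map_mul]
        congr 1
        exact hca.symm
      push_cast
      rw [coe_incl, coe_incl, h7]
      ring
    rw [h6, map_mul]
    calc V.valuation ((h.incl c1 : P.B) : F) * V.valuation ((b : F) ^ Q - algebraMap F1 F a)
        ≤ 1 * V.valuation ((b : F) ^ Q - algebraMap F1 F a) := mul_le_mul_left hc1V _
      _ = V.valuation ((b : F) ^ Q - algebraMap F1 F a) := one_mul _
      _ < 1 := hval
  have h8 : h.incl c1 * b ^ Q - h.incl a1 ∈ 𝔫' := hV'.2 _ h5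
  have h9 : h.incl a1 ∈ 𝔫' := by
    have : a1 ∈ 𝔫'.comap h.incl := by rw [hover]; exact ha1
    exact this
  have h10 : h.incl c1 * b ^ Q ∈ 𝔫' := by
    have := 𝔫'.add_mem h8 h9
    rwa [sub_add_cancel] at this
  have h11 : h.incl c1 ∉ 𝔫' := by
    intro hmem
    apply hc1
    have : c1 ∈ 𝔫'.comap h.incl := hmem
    rwa [hover] at this
  exact h𝔫'.mem_of_pow_mem Q ((h𝔫'.mem_or_mem h10).resolve_left h11)

/-- **uniqueness of the point over `𝔫₁`** at a point through which all vertical valuation rings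
pass -/
theorem huniq_of_id (𝔫 : Ideal P.B) [h𝔫 : 𝔫.IsMaximal] {q : F} (hq : q ∈ P.B) (hq0 : q ≠ 0)
    {q1 : P1.B} (hq1 : h.incl q1 = ⟨q, hq⟩) (hq1𝔫 : q1 ∈ h.under 𝔫)
    (hall : ∀ V ∈ P.vert q, V ∈ P.through 𝔫)
    (hid : ∀ V ∈ P.vert q, ∃ Q : ℕ, Q ≠ 0 ∧ ∀ x ∈ P.loc 𝔫, ∃ a ∈ P1.loc (h.under 𝔫),
      V.valuation (x ^ Q - algebraMap F1 F a) < 1) :
    ∀ 𝔫' : Ideal P.B, 𝔫'.IsMaximal → 𝔫'.comap h.incl = h.under 𝔫 → 𝔫' = 𝔫 := by
  intro 𝔫' h𝔫' hover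
  haveI := h𝔫'.isPrime
  have hq𝔫' : (⟨q, hq⟩ : P.B) ∈ 𝔫' := by
    have : q1 ∈ 𝔫'.comap h.incl := by rw [hover]; exact hq1𝔫
    rw [← hq1]
    exact this
  obtain ⟨V, hV', hv⟩ := P.exists_vert_through hq hq0 hq𝔫'
  obtain ⟨Q, hQ, hidV⟩ := hid V hv
  have hle := h.le_of_id 𝔫 hover (hall V hv) hV' hQ hidV
  exact (h𝔫.eq_of_le h𝔫'.ne_top hle).symm

end T4PresOver

end Fermat.Agent.T4
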