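/-
T4-L (helper5): the abstract TRICHOTOMY ("at most one vertical branch through a closed point, or
all three") for a presentation `P` over a presentation `P1` (`h : T4PresOver P1 P`, any algebra
structure `F1 → F`; in the application `α₂` and `β₂`).

* `through_of_nonunit` (T2): a non-unit `b'` of `(B₁)_𝔫₁` whose image is a unit at every valuation
  ring through `𝔫` except possibly `Vc` forces `Vc` to pass through `𝔫`;
* `huniq_of_branch` (T3): if `Vc` passes through every point over `𝔫₁` and the residue field of `Vc`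
  is purely inseparable over that of `B₁` (global form `x ^ Q ≡ ι a`), then `𝔫` is the only point
  over `𝔫₁`;
* `through_of_glued` (T4): both, plus going-up (`mem_through_of_comap`): every valuation ring of `P`
  whose restriction passes through `𝔫₁` passes through `𝔫`;
* `T4Pres.trichotomy` (T5): the logical combination for the three verticals.
-/
import Fermat.Agent.Lib.T4.Local.Uniq

set_option autoImplicit false
set_option linter.style.haveILetI false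

namespace Fermat.Agent.T4

variable {F1 F : Type*} [Field F1] [Field F] [Algebra F1 F]

/-- `v (ι x) = 1 ↔ (v ∘ ι) x = 1` -/
theorem t4l_valuation_comap_eq_one (V : ValuationSubring F) (x : F1) :
    (V.comap (algebraMap F1 F)).valuation x = 1 ↔ V.valuation (algebraMap F1 F x) = 1 := by
  have h1 := t4l_valuation_comap_lt_one V x
  have h2 : (V.comap (algebraMap F1 F)).valuation x ≤ 1 ↔ V.valuation (algebraMap F1 F x) ≤ 1 := by
    rw [ValuationSubring.valuation_le_one_iff, ValuationSubring.valuation_le_one_iff,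
      ValuationSubring.mem_comap]
  constructor
  · intro h
    have h3 := h2.mp h.le
    rcases lt_or_eq_of_le h3 with h4 | h4
    · exact absurd (h1.mpr h4) (by rw [h]; exact lt_irrefl _)
    · exact h4
  · intro h
    have h3 := h2.mpr h.le
    rcases lt_or_eq_of_le h3 with h4 | h4
    · exact absurd (h1.mp h4) (by rw [h]; exact lt_irrefl _)
    · exact h4

namespace T4PresOver

variable {P1 : T4Pres F1} {P : T4Pres F} (h : T4PresOver P1 P)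

/-- the image of a non-unit of `(B₁)_𝔫₁` is a non-unit of `B_𝔫` -/
theorem not_isUnit_locMap (𝔫 : Ideal P.B) [h𝔫 : 𝔫.IsMaximal] {a : ↥(P1.loc (h.under 𝔫))}
    (ha : ¬ IsUnit a) : ¬ IsUnit (h.locMap 𝔫 a) := by
  haveI := h𝔫.isPrime
  haveI : (h.under 𝔫).IsPrime := (h.under_isMaximal 𝔫).isPrime
  letI := P1.isLocalRing_loc (h.under 𝔫)
  letI := P.isLocalRing_loc 𝔫
  have h1 : a ∈ IsLocalRing.maximalIdeal ↥(P1.loc (h.under 𝔫)) :=
    (IsLocalRing.mem_maximalIdeal _).mpr ha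
  obtain ⟨b, c, hb, hc, hca⟩ := (P1.mem_maximalIdeal_loc_iff (h.under 𝔫) a).mp h1
  have h2 : h.locMap 𝔫 a ∈ IsLocalRing.maximalIdeal ↥(P.loc 𝔫) := by
    rw [P.mem_maximalIdeal_loc_iff]
    refine ⟨h.incl b, h.incl c, hb, hc, ?_⟩
    rw [coe_incl, coe_incl, coe_locMap, ← map_mul, hca]
  exact (IsLocalRing.mem_maximalIdeal _).mp h2

/-- **(T2)** a non-unit of `(B₁)_𝔫₁` which becomes a unit at every valuation ring through `𝔫` other
than `Vc` forces `Vc` to pass through `𝔫` -/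
theorem through_of_nonunit (𝔫 : Ideal P.B) [h𝔫 : 𝔫.IsMaximal] {𝔫1 : Ideal P1.B}
    (h𝔫1 : h.under 𝔫 = 𝔫1) {Vc : ValuationSubring F}
    {b' : F1} (hb' : b' ∈ P1.loc 𝔫1)
    (hnu : ¬ IsUnit (⟨b', hb'⟩ : ↥(P1.loc 𝔫1))) (hb0 : b' ≠ 0)
    (hu : ∀ V ∈ P.through 𝔫, V ≠ Vc → V.valuation (algebraMap F1 F b') = 1) :
    Vc ∈ P.through 𝔫 := by
  subst h𝔫1
  by_contra hcon
  have h1 := h.not_isUnit_locMap 𝔫 hnu
  apply h1
  rw [P.isUnit_loc_iff]
  refine ⟨?_, fun V hV => ?_⟩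
  · rw [coe_locMap]
    exact (map_ne_zero (algebraMap F1 F)).mpr hb0
  · rw [coe_locMap]
    refine hu V hV ?_
    rintro rfl
    exact hcon hV

/-- (T2), with the unit hypothesis on the lower level -/
theorem through_of_nonunit' (𝔫 : Ideal P.B) [h𝔫 : 𝔫.IsMaximal] {𝔫1 : Ideal P1.B}
    (h𝔫1 : h.under 𝔫 = 𝔫1) {Vc : ValuationSubring F}
    {V1b : ValuationSubring F1}
    (hcomap : ∀ V ∈ P.vals, V.comap (algebraMap F1 F) ∈ P1.vals)
    (honly : ∀ V ∈ P.vals, V.comap (algebraMap F1 F) = V1b → V = Vc)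
    {b' : F1} (hb' : b' ∈ P1.loc 𝔫1)
    (hnu : ¬ IsUnit (⟨b', hb'⟩ : ↥(P1.loc 𝔫1))) (hb0 : b' ≠ 0)
    (hu1 : ∀ V1 ∈ P1.through 𝔫1, V1 ≠ V1b → V1.valuation b' = 1) :
    Vc ∈ P.through 𝔫 := by
  refine h.through_of_nonunit 𝔫 h𝔫1 hb' hnu hb0 fun V hV hne => ?_
  rw [← t4l_valuation_comap_eq_one]
  refine hu1 _ ?_ fun heq => hne (honly V hV.1 heq)
  rw [← h𝔫1]
  exact h.comap_mem_through hV (hcomap V hV.1)

/-- **(T3)** uniqueness of the point over `𝔫₁` from a single purely inseparable branch -/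
theorem huniq_of_branch (𝔫 : Ideal P.B) [h𝔫 : 𝔫.IsMaximal] {Vc : ValuationSubring F}
    (hthrough : ∀ 𝔫' : Ideal P.B, 𝔫'.IsMaximal → 𝔫'.comap h.incl = h.under 𝔫 →
      Vc ∈ P.through 𝔫')
    {Q : ℕ} (hQ : Q ≠ 0)
    (hpi : ∀ x ∈ P.B, ∃ a ∈ P1.B, Vc.valuation (x ^ Q - algebraMap F1 F a) < 1) :
    ∀ 𝔫' : Ideal P.B, 𝔫'.IsMaximal → 𝔫'.comap h.incl = h.under 𝔫 → 𝔫' = 𝔫 := by
  intro 𝔫' h𝔫' hover
  have hV : Vc ∈ P.through 𝔫 := hthrough 𝔫 h𝔫 rfl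
  have hV' : Vc ∈ P.through 𝔫' := hthrough 𝔫' h𝔫' hover
  have hle : 𝔫' ≤ 𝔫 := by
    intro x hx
    obtain ⟨a, ha, hval⟩ := hpi (x : F) x.2
    set a1 : P1.B := ⟨a, ha⟩ with ha1
    have h1 : ((x ^ Q - h.incl a1 : P.B) : F) = (x : F) ^ Q - algebraMap F1 F a := by
      push_cast
      rfl
    have h2 : (x ^ Q - h.incl a1 : P.B) ∈ 𝔫' := hV'.2 _ (by rw [h1]; exact hval)
    have h3 : (x ^ Q - h.incl a1 : P.B) ∈ 𝔫 := hV.2 _ (by rw [h1]; exact hval)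
    have h4 : h.incl a1 ∈ 𝔫' := by
      have := 𝔫'.sub_mem (𝔫'.pow_mem_of_mem hx Q (Nat.pos_of_ne_zero hQ)) h2
      rwa [sub_sub_cancel] at this
    have h5 : a1 ∈ h.under 𝔫 := by
      rw [← hover]
      exact h4
    have h6 : x ^ Q ∈ 𝔫 := by
      have := 𝔫.add_mem h3 (h.mem_under.mp h5)
      rwa [sub_add_cancel] at this
    exact h𝔫.isPrime.mem_of_pow_mem Q h6
  exact (h𝔫'.eq_of_le h𝔫.ne_top hle)

/-- **(T4)** over a "glued" point `𝔫₁` (witnessed by the non-unit `b'`): `Vc` passes through `𝔫`,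
`𝔫` is the only point over `𝔫₁`, and every valuation ring of `P` whose restriction passes through
`𝔫₁` passes through `𝔫` -/
theorem through_of_glued (𝔫 : Ideal P.B) [h𝔫 : 𝔫.IsMaximal] {Vc : ValuationSubring F}
    {b' : F1} (hb' : b' ∈ P1.loc (h.under 𝔫))
    (hnu : ¬ IsUnit (⟨b', hb'⟩ : ↥(P1.loc (h.under 𝔫)))) (hb0 : b' ≠ 0)
    (hu : ∀ 𝔫' : Ideal P.B, 𝔫'.IsMaximal → 𝔫'.comap h.incl = h.under 𝔫 →
      ∀ V ∈ P.through 𝔫', V ≠ Vc → V.valuation (algebraMap F1 F b') = 1)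
    {Q : ℕ} (hQ : Q ≠ 0)
    (hpi : ∀ x ∈ P.B, ∃ a ∈ P1.B, Vc.valuation (x ^ Q - algebraMap F1 F a) < 1) :
    Vc ∈ P.through 𝔫 ∧
      (∀ 𝔫' : Ideal P.B, 𝔫'.IsMaximal → 𝔫'.comap h.incl = h.under 𝔫 → 𝔫' = 𝔫) ∧
      ∀ V ∈ P.vals, V.comap (algebraMap F1 F) ∈ P1.through (h.under 𝔫) → V ∈ P.through 𝔫 := by
  have hthrough : ∀ 𝔫' : Ideal P.B, 𝔫'.IsMaximal → 𝔫'.comap h.incl = h.under 𝔫 →
      Vc ∈ P.through 𝔫' := by
    intro 𝔫' h𝔫' hover
    haveI := h𝔫'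
    exact h.through_of_nonunit 𝔫' hover hb' hnu hb0 (hu 𝔫' h𝔫' hover)
  have huniq := h.huniq_of_branch 𝔫 hthrough hQ hpi
  exact ⟨hthrough 𝔫 h𝔫 rfl, huniq, fun V hV hV1 => h.mem_through_of_comap 𝔫 huniq hV hV1⟩

/-- (T4), with the unit hypothesis on the lower level -/
theorem through_of_glued' (𝔫 : Ideal P.B) [h𝔫 : 𝔫.IsMaximal] {Vc : ValuationSubring F}
    {V1b : ValuationSubring F1}
    (hcomap : ∀ V ∈ P.vals, V.comap (algebraMap F1 F) ∈ P1.vals)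
    (honly : ∀ V ∈ P.vals, V.comap (algebraMap F1 F) = V1b → V = Vc)
    {b' : F1} (hb' : b' ∈ P1.loc (h.under 𝔫))
    (hnu : ¬ IsUnit (⟨b', hb'⟩ : ↥(P1.loc (h.under 𝔫)))) (hb0 : b' ≠ 0)
    (hu1 : ∀ V1 ∈ P1.through (h.under 𝔫), V1 ≠ V1b → V1.valuation b' = 1)
    {Q : ℕ} (hQ : Q ≠ 0)
    (hpi : ∀ x ∈ P.B, ∃ a ∈ P1.B, Vc.valuation (x ^ Q - algebraMap F1 F a) < 1) :
    Vc ∈ P.through 𝔫 ∧
      (∀ 𝔫' : Ideal P.B, 𝔫'.IsMaximal → 𝔫'.comap h.incl = h.under 𝔫 → 𝔫' = 𝔫) ∧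
      ∀ V ∈ P.vals, V.comap (algebraMap F1 F) ∈ P1.through (h.under 𝔫) → V ∈ P.through 𝔫 := by
  refine h.through_of_glued 𝔫 hb' hnu hb0 (fun 𝔫' h𝔫' hover V hV hne => ?_) hQ hpi
  haveI := h𝔫'
  rw [← t4l_valuation_comap_eq_one]
  refine hu1 _ ?_ fun heq => hne (honly V hV.1 heq)
  have := h.comap_mem_through hV (hcomap V hV.1)
  rwa [show h.under 𝔫' = h.under 𝔫 from hover] at this

/-- a non-unit of `(B₁)_𝔫₁` from a valuation ring through `𝔫₁` at which it is not a unit -/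
theorem not_isUnit_of_valuation_lt {𝔫1 : Ideal P1.B} {V1 : ValuationSubring F1}
    (hV1 : V1 ∈ P1.through 𝔫1) {b' : F1} (hb' : b' ∈ P1.loc 𝔫1) (hlt : V1.valuation b' < 1) :
    ¬ IsUnit (⟨b', hb'⟩ : ↥(P1.loc 𝔫1)) := by
  intro hu
  have := ((P1.isUnit_loc_iff _).mp hu).2 V1 hV1
  exact hlt.ne this

end T4PresOver

namespace T4Pres

variable (P : T4Pres F)

/-- **(T5) the trichotomy**, logical form: if "`V0` and one of `Vinf, Vmid` through `𝔫`" and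
"`Vinf` and `Vmid` through `𝔫`" each force all three through `𝔫`, then either any two vertical
valuation rings through `𝔫` coincide, or the vertical valuation rings through `𝔫` are exactly
`Vinf, Vmid, V0` -/
theorem trichotomy {q : F} {Vinf Vmid V0 : ValuationSubring F} (𝔫 : Ideal P.B)
    (hvert : ∀ V ∈ P.vert q, V = Vinf ∨ V = Vmid ∨ V = V0)
    (hi : Vinf ∈ P.vert q) (hm : Vmid ∈ P.vert q) (h0 : V0 ∈ P.vert q)
    (Hα : V0 ∈ P.through 𝔫 → (Vinf ∈ P.through 𝔫 ∨ Vmid ∈ P.through 𝔫) →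
      Vinf ∈ P.through 𝔫 ∧ Vmid ∈ P.through 𝔫)
    (Hβ : Vinf ∈ P.through 𝔫 → Vmid ∈ P.through 𝔫 → V0 ∈ P.through 𝔫) :
    (∀ V ∈ P.through 𝔫, V ∈ P.vert q → ∀ W ∈ P.through 𝔫, W ∈ P.vert q → V = W) ∨
      ((∀ V ∈ P.through 𝔫, V ∈ P.vert q → V = Vinf ∨ V = Vmid ∨ V = V0) ∧
        Vinf ∈ P.through 𝔫 ∧ Vmid ∈ P.through 𝔫 ∧ V0 ∈ P.through 𝔫 ∧
        Vinf ∈ P.vert q ∧ Vmid ∈ P.vert q ∧ V0 ∈ P.vert q) := by
  by_cases hall : Vinf ∈ P.through 𝔫 ∧ Vmid ∈ P.through 𝔫 ∧ V0 ∈ P.through 𝔫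
  · exact Or.inr ⟨fun V _ hV => hvert V hV, hall.1, hall.2.1, hall.2.2, hi, hm, h0⟩
  · left
    intro V hV hVq W hW hWq
    by_contra hne
    apply hall
    have key : ∀ {A B : ValuationSubring F}, A ∈ P.through 𝔫 → B ∈ P.through 𝔫 → A ≠ B →
        (A = Vinf ∨ A = Vmid ∨ A = V0) → (B = Vinf ∨ B = Vmid ∨ B = V0) →
        Vinf ∈ P.through 𝔫 ∧ Vmid ∈ P.through 𝔫 ∧ V0 ∈ P.through 𝔫 := by
      intro A B hA hB hAB hAc hBc
      rcases hAc with rfl | rfl | rfl <;> rcases hBc with rfl | rfl | rfl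
      · exact absurd rfl hAB
      · exact ⟨hA, hB, Hβ hA hB⟩
      · obtain ⟨h1, h2⟩ := Hα hB (Or.inl hA)
        exact ⟨h1, h2, hB⟩
      · exact ⟨hB, hA, Hβ hB hA⟩
      · exact absurd rfl hAB
      · obtain ⟨h1, h2⟩ := Hα hB (Or.inr hA)
        exact ⟨h1, h2, hB⟩
      · obtain ⟨h1, h2⟩ := Hα hA (Or.inl hB)
        exact ⟨h1, h2, hA⟩
      · obtain ⟨h1, h2⟩ := Hα hA (Or.inr hB)
        exact ⟨h1, h2, hA⟩
      · exact absurd rfl hAB
    exact key hV hW hne (hvert V hVq) (hvert W hWq)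

/-- `RegAt` from a local equation `a ∈ B_𝔫` (instead of `a ∈ B`) -/
theorem regAt_of_loc (𝔫 : Ideal P.B) [h𝔫 : 𝔫.IsPrime] {V₀ : ValuationSubring F}
    (hV₀ : V₀ ∈ P.through 𝔫) {a : F} (ha : a ∈ P.loc 𝔫) (ha1 : V₀.valuation a < 1)
    (hunif : ∀ x : F, V₀.valuation x < 1 → V₀.valuation x ≤ V₀.valuation a)
    (hother : ∀ V ∈ P.through 𝔫, V ≠ V₀ → V.valuation a = 1)
    (hsm : P.SmoothAt 𝔫 V₀ hV₀) : P.RegAt 𝔫 := by
  obtain ⟨c, hc, hca⟩ := P.mem_loc_iff.mp ha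
  have hc1 : ∀ V ∈ P.through 𝔫, V.valuation (c : F) = 1 := fun V hV =>
    P.valuation_eq_one_of_not_mem hV hc
  refine ⟨V₀, hV₀, (c : F) * a, hca, ?_, ?_, ?_, hsm⟩
  · rw [map_mul, hc1 V₀ hV₀, one_mul]
    exact ha1
  · intro x hx
    rw [map_mul, hc1 V₀ hV₀, one_mul]
    exact hunif x hx
  · intro V hV hne
    rw [map_mul, hc1 V hV, one_mul]
    exact hother V hV hne

end T4Pres

end Fermat.Agent.T4
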