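/-
T4-L (helper5): wrappers producing `P.RegAt 𝔫`.

* `regAt_of_mul_eq`: `a * b ∼ q` at all valuation rings through `𝔫` (`a ∈ B`), `q` a uniformiser of
  the vertical `V₀`, `b` a unit at `V₀`, `a` a unit at the other verticals through `𝔫`
  (triple points: `a = w - v^q`, `b = v - w^q`; points with one vertical: `a = q`, `b = 1`).
* `regAt_of_pow_eq`: `a ^ e ∼ q` at all valuation rings through `𝔫`, `V₀` the only vertical through
  `𝔫`, `a` a uniformiser of `V₀` (points on `C_mid` only: `a = ϖ_f`, `e = q - 1`).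
-/
import Fermat.Agent.Lib.T4.Local.Datum

set_option autoImplicit false
set_option linter.style.haveILetI false

namespace Fermat.Agent.T4

variable {F : Type*} [Field F]

namespace T4Pres

variable (P : T4Pres F)

/-- a non-vertical valuation ring of the presentation has `q` as a unit -/
theorem valuation_eq_one_of_not_vert {q : F} (hq : q ∈ P.B) {V : ValuationSubring F}
    (hV : V ∈ P.vals) (hv : V ∉ P.vert q) : V.valuation q = 1 := by
  rcases lt_or_eq_of_le ((V.valuation_le_one_iff _).mpr (P.B_le hV hq)) with h | h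
  · exact absurd ⟨hV, h⟩ hv
  · exact h

/-- regularity from a factorisation `a * b ∼ q` -/
theorem regAt_of_mul_eq {𝔫 : Ideal P.B} {q : F} (hq : q ∈ P.B) {V₀ : ValuationSubring F}
    (hV₀ : V₀ ∈ P.through 𝔫) {a b : F} (ha : a ∈ P.B) (hb : b ∈ P.loc 𝔫)
    (hab : ∀ V ∈ P.through 𝔫, V.valuation (a * b) = V.valuation q)
    (hqV₀ : V₀.valuation q < 1)
    (hunif : ∀ x : F, V₀.valuation x < 1 → V₀.valuation x ≤ V₀.valuation q)
    (hbV₀ : V₀.valuation b = 1)
    (hvert : ∀ V ∈ P.through 𝔫, V ≠ V₀ → V ∈ P.vert q → V.valuation a = 1)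
    (hsm : P.SmoothAt 𝔫 V₀ hV₀) : P.RegAt 𝔫 := by
  have haV₀ : V₀.valuation a = V₀.valuation q := by
    have := hab V₀ hV₀
    rwa [map_mul, hbV₀, mul_one] at this
  refine ⟨V₀, hV₀, a, ha, by rw [haV₀]; exact hqV₀, fun x hx => by rw [haV₀]; exact hunif x hx,
    fun V hV hne => ?_, hsm⟩
  by_cases hv : V ∈ P.vert q
  · exact hvert V hV hne hv
  · have h1 := hab V hV
    rw [P.valuation_eq_one_of_not_vert hq hV.1 hv, map_mul] at h1
    have ha1 : V.valuation a ≤ 1 := (V.valuation_le_one_iff _).mpr (P.B_le hV.1 ha)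
    have hb1 : V.valuation b ≤ 1 := (V.valuation_le_one_iff _).mpr (hb V hV)
    rcases lt_or_eq_of_le ha1 with h | h
    · exfalso
      have : V.valuation a * V.valuation b < 1 :=
        lt_of_le_of_lt (mul_le_mul_right hb1 _) (by rwa [mul_one])
      exact this.ne h1
    · exact h

/-- regularity at a point with a single vertical branch on which `q` is a uniformiser -/
theorem regAt_of_single {𝔫 : Ideal P.B} {q : F} (hq : q ∈ P.B) {V₀ : ValuationSubring F}
    (hV₀ : V₀ ∈ P.through 𝔫) (hqV₀ : V₀.valuation q < 1)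
    (hunif : ∀ x : F, V₀.valuation x < 1 → V₀.valuation x ≤ V₀.valuation q)
    (honly : ∀ V ∈ P.through 𝔫, V ∈ P.vert q → V = V₀)
    (hsm : P.SmoothAt 𝔫 V₀ hV₀) : P.RegAt 𝔫 :=
  P.regAt_of_mul_eq hq hV₀ hq (P.loc 𝔫).one_mem (fun V _ => by rw [mul_one]) hqV₀ hunif
    (map_one _) (fun V hV hne hv => absurd (honly V hV hv) hne) hsm

/-- regularity from `a ^ e ∼ q`, at a point with a single vertical branch -/
theorem regAt_of_pow_eq {𝔫 : Ideal P.B} {q : F} (hq : q ∈ P.B) {V₀ : ValuationSubring F}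
    (hV₀ : V₀ ∈ P.through 𝔫) {a : F} (ha : a ∈ P.B) {e : ℕ} (he : e ≠ 0)
    (hae : ∀ V ∈ P.through 𝔫, V.valuation (a ^ e) = V.valuation q)
    (haV₀ : V₀.valuation a < 1)
    (hunif : ∀ x : F, V₀.valuation x < 1 → V₀.valuation x ≤ V₀.valuation a)
    (honly : ∀ V ∈ P.through 𝔫, V ∈ P.vert q → V = V₀)
    (hsm : P.SmoothAt 𝔫 V₀ hV₀) : P.RegAt 𝔫 := by
  refine ⟨V₀, hV₀, a, ha, haV₀, hunif, fun V hV hne => ?_, hsm⟩
  have hv : V ∉ P.vert q := fun hv => hne (honly V hV hv)
  have h1 := hae V hV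
  rw [P.valuation_eq_one_of_not_vert hq hV.1 hv, map_pow] at h1
  exact t4l_eq_one_of_pow_eq_one he h1

end T4Pres

end Fermat.Agent.T4
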