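/-
T4-L (helper5): transfer of smoothness of a vertical branch along an extension of presentations.

`h : T4PresOver P' P` (e.g. `P'` the chart of level `N'`, embedded by `a0` or `a2`), `V` a valuation
ring of `P` through `𝔫` lying over `V'` through `𝔫' = h.under 𝔫`, such that every element of `B` is
congruent on `V` to (the image of) an element of `B'` ("the component of `V` is the component of
`V'`").  Then
* `exists_loc_congr`: every element of `B_𝔫` is congruent on `V` to an element of `B'_𝔫'` (this is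
  the hypothesis `hID` of `norm_relation` and `huniq_of_id`);
* `smoothAt_of_over`: if the branch of `V'` through `𝔫'` is smooth, so is the branch of `V`
  through `𝔫`.
-/
import Fermat.Agent.Lib.T4.Local.Uniq

set_option autoImplicit false
set_option linter.style.haveILetI false

namespace Fermat.Agent.T4

variable {F1 F : Type*} [Field F1] [Field F] [Algebra F1 F]

namespace T4PresOver

variable {P1 : T4Pres F1} {P : T4Pres F} (h : T4PresOver P1 P)

/-- every element of `B_𝔫` is congruent on `V` to an element of `(B₁)_𝔫₁` -/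
theorem exists_loc_congr (𝔫 : Ideal P.B) [h𝔫 : 𝔫.IsMaximal] {V : ValuationSubring F}
    (hV : V ∈ P.through 𝔫)
    (hsurj : ∀ b ∈ P.B, ∃ b' ∈ P1.B, V.valuation (b - algebraMap F1 F b') < 1)
    {x : F} (hx : x ∈ P.loc 𝔫) :
    ∃ a ∈ P1.loc (h.under 𝔫), V.valuation (x - algebraMap F1 F a) < 1 := by
  haveI := h𝔫.isPrime
  haveI : (h.under 𝔫).IsPrime := (h.under_isMaximal 𝔫).isPrime
  obtain ⟨c, hc, hcx⟩ := P.mem_loc_iff.mp hx
  obtain ⟨b', hb', hbb'⟩ := hsurj _ hcx
  obtain ⟨c', hc', hcc'⟩ := hsurj (c : F) c.2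
  have hcV : V.valuation (c : F) = 1 := P.valuation_eq_one_of_not_mem hV hc
  -- `c' ∉ 𝔫₁`
  have hc'V : V.valuation (algebraMap F1 F c') = 1 := by
    have h1 : algebraMap F1 F c' = (c : F) - ((c : F) - algebraMap F1 F c') := by ring
    rw [h1, V.valuation.map_sub_eq_of_lt_left (by rw [hcV]; exact hcc'), hcV]
  have hc'𝔫 : (⟨c', hc'⟩ : P1.B) ∉ h.under 𝔫 := by
    intro hmem
    have h1 : h.incl ⟨c', hc'⟩ ∈ 𝔫 := hmem
    have h2 : h.incl ⟨c', hc'⟩ - c ∈ 𝔫 := by
      refine hV.2 _ ?_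
      rw [AddSubgroupClass.coe_sub, coe_incl, ← Valuation.map_neg, neg_sub]
      exact hcc'
    apply hc
    have := 𝔫.sub_mem h1 h2
    rwa [sub_sub_cancel] at this
  have hc'0 : c' ≠ 0 := by
    rintro rfl
    rw [map_zero, map_zero] at hc'V
    exact zero_ne_one hc'V
  refine ⟨b' / c', P1.mem_loc_iff.mpr ⟨⟨c', hc'⟩, hc'𝔫, ?_⟩, ?_⟩
  · show c' * (b' / c') ∈ P1.B
    rw [mul_div_cancel₀ _ hc'0]
    exact hb'
  · -- `x - ι(b'/c') = ((c x - ι b') - x (c - ι c')) / ι c'`
    have hιc'0 : algebraMap F1 F c' ≠ 0 := by rw [Ne, map_eq_zero]; exact hc'0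
    have hxV : V.valuation x ≤ 1 := (V.valuation_le_one_iff _).mpr (hx V hV)
    have h1 : x - algebraMap F1 F (b' / c') =
        (((c : F) * x - algebraMap F1 F b') - x * ((c : F) - algebraMap F1 F c')) /
          algebraMap F1 F c' := by
      rw [map_div₀]
      field_simp
      ring
    rw [h1, map_div₀, hc'V, div_one]
    refine lt_of_le_of_lt (V.valuation.map_sub _ _) (max_lt hbb' ?_)
    rw [map_mul]
    calc V.valuation x * V.valuation ((c : F) - algebraMap F1 F c')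
        ≤ 1 * V.valuation ((c : F) - algebraMap F1 F c') := mul_le_mul_left hxV _
      _ = V.valuation ((c : F) - algebraMap F1 F c') := one_mul _
      _ < 1 := hcc'

/-- the same for `Q`-th powers (purely inseparable residue field extension) -/
theorem exists_loc_congr_pow (𝔫 : Ideal P.B) [h𝔫 : 𝔫.IsMaximal] {V : ValuationSubring F}
    (hV : V ∈ P.through 𝔫) (Q : ℕ)
    (hsurj : ∀ b ∈ P.B, ∃ b' ∈ P1.B, V.valuation (b ^ Q - algebraMap F1 F b') < 1)
    {x : F} (hx : x ∈ P.loc 𝔫) :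
    ∃ a ∈ P1.loc (h.under 𝔫), V.valuation (x ^ Q - algebraMap F1 F a) < 1 := by
  haveI := h𝔫.isPrime
  haveI : (h.under 𝔫).IsPrime := (h.under_isMaximal 𝔫).isPrime
  obtain ⟨c, hc, hcx⟩ := P.mem_loc_iff.mp hx
  obtain ⟨b', hb', hbb'⟩ := hsurj _ hcx
  obtain ⟨c', hc', hcc'⟩ := hsurj (c : F) c.2
  have hcV : V.valuation ((c : F) ^ Q) = 1 := by
    rw [map_pow, P.valuation_eq_one_of_not_mem hV hc, one_pow]
  have hc'V : V.valuation (algebraMap F1 F c') = 1 := by
    have h1 : algebraMap F1 F c' = (c : F) ^ Q - ((c : F) ^ Q - algebraMap F1 F c') := by ring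
    rw [h1, V.valuation.map_sub_eq_of_lt_left (by rw [hcV]; exact hcc'), hcV]
  have hc'𝔫 : (⟨c', hc'⟩ : P1.B) ∉ h.under 𝔫 := by
    intro hmem
    have h1 : h.incl ⟨c', hc'⟩ ∈ 𝔫 := hmem
    have h2 : h.incl ⟨c', hc'⟩ - c ^ Q ∈ 𝔫 := by
      refine hV.2 _ ?_
      rw [AddSubgroupClass.coe_sub, coe_incl, SubmonoidClass.coe_pow, ← Valuation.map_neg, neg_sub]
      exact hcc'
    apply hc
    have := 𝔫.sub_mem h1 h2
    rw [sub_sub_cancel] at this
    exact h𝔫.isPrime.mem_of_pow_mem Q this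
  have hc'0 : c' ≠ 0 := by
    rintro rfl
    rw [map_zero, map_zero] at hc'V
    exact zero_ne_one hc'V
  refine ⟨b' / c', P1.mem_loc_iff.mpr ⟨⟨c', hc'⟩, hc'𝔫, ?_⟩, ?_⟩
  · show c' * (b' / c') ∈ P1.B
    rw [mul_div_cancel₀ _ hc'0]
    exact hb'
  · have hιc'0 : algebraMap F1 F c' ≠ 0 := by rw [Ne, map_eq_zero]; exact hc'0
    have hxV : V.valuation (x ^ Q) ≤ 1 := by
      rw [map_pow]
      exact pow_le_one₀ zero_le ((V.valuation_le_one_iff _).mpr (hx V hV))
    have h1 : x ^ Q - algebraMap F1 F (b' / c') =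
        ((((c : F) * x) ^ Q - algebraMap F1 F b') - x ^ Q * ((c : F) ^ Q - algebraMap F1 F c')) /
          algebraMap F1 F c' := by
      rw [map_div₀]
      field_simp
      ring
    rw [h1, map_div₀, hc'V, div_one]
    refine lt_of_le_of_lt (V.valuation.map_sub _ _) (max_lt hbb' ?_)
    rw [map_mul]
    calc V.valuation (x ^ Q) * V.valuation ((c : F) ^ Q - algebraMap F1 F c')
        ≤ 1 * V.valuation ((c : F) ^ Q - algebraMap F1 F c') := mul_le_mul_left hxV _
      _ = V.valuation ((c : F) ^ Q - algebraMap F1 F c') := one_mul _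
      _ < 1 := hcc'

/-- **transfer of smoothness** -/
theorem smoothAt_of_over (𝔫 : Ideal P.B) [h𝔫 : 𝔫.IsMaximal] {V : ValuationSubring F}
    (hV : V ∈ P.through 𝔫) {V1 : ValuationSubring F1} (hV1 : V1 ∈ P1.through (h.under 𝔫))
    (hover : ∀ x : F1, V1.valuation x < 1 → V.valuation (algebraMap F1 F x) < 1)
    (hsurj : ∀ b ∈ P.B, ∃ b' ∈ P1.B, V.valuation (b - algebraMap F1 F b') < 1)
    (hsm : P1.SmoothAt (h.under 𝔫) V1 hV1) : P.SmoothAt 𝔫 V hV := by
  haveI : IsPrincipalIdealRing (↥(P1.loc (h.under 𝔫)) ⧸ P1.center (h.under 𝔫) V1 hV1) := hsm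
  have hle : P1.center (h.under 𝔫) V1 hV1 ≤ (P.center 𝔫 V hV).comap (h.locMap 𝔫) := by
    intro a ha
    rw [Ideal.mem_comap, T4Pres.mem_center, coe_locMap]
    exact hover _ ha
  refine P.smoothAt_of_surjective hV (Ideal.quotientMap (P.center 𝔫 V hV) (h.locMap 𝔫) hle) ?_
  intro r
  obtain ⟨x, rfl⟩ := Ideal.Quotient.mk_surjective r
  obtain ⟨a, ha, hxa⟩ := h.exists_loc_congr 𝔫 hV hsurj x.2
  refine ⟨Ideal.Quotient.mk _ ⟨a, ha⟩, ?_⟩
  rw [Ideal.quotientMap_mk, ← sub_eq_zero, ← map_sub, Ideal.Quotient.eq_zero_iff_mem,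
    T4Pres.mem_center, AddSubgroupClass.coe_sub, coe_locMap, ← Valuation.map_neg, neg_sub]
  exact hxa

end T4PresOver

end Fermat.Agent.T4
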