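/-
T4-L (helper5): T4-N step C at a point — from the two norm relations to the hypothesis of
`T4Pres.glue` for the modified Kummer element `z ^ (q² - 1) * h ^ m`.

The norm relations at a triple point, for the branch values `κi, κm, κ0` of a local generator:
  `κi * κm ^ (q - 1) * a1 = κ0 ^ q * a2`,   `κ0 * κm ^ (q - 1) * b1 = κi ^ q * b2`
with constants `a1, a2, b1, b2 ∈ B` (units).  Then `κ_V ^ (q² - 1) / ξ_V` does not depend on `V`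
for the constants `ξ_V = P.xiConst …`.
-/
import Fermat.Agent.Lib.T4.Local.Ratio

set_option autoImplicit false
set_option linter.style.haveILetI false

namespace Fermat.Agent.T4

variable {F : Type*} [Field F]

namespace T4Pres

variable (P : T4Pres F)

open Classical in
/-- the constants by which the three components are rescaled -/
noncomputable def xiConst (Vinf V0 : ValuationSubring F) (a1 a2 b1 b2 : P.B) (qq : ℕ)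
    (V : ValuationSubring F) : P.B :=
  if V = Vinf then a2 ^ qq * b2 * (a1 * b1 ^ qq)
  else if V = V0 then a2 * b2 ^ qq * (a1 ^ qq * b1)
  else a2 ^ (qq + 1) * b2 ^ (qq + 1)

theorem xiConst_inf (Vinf V0 : ValuationSubring F) (a1 a2 b1 b2 : P.B) (qq : ℕ) :
    P.xiConst Vinf V0 a1 a2 b1 b2 qq Vinf = a2 ^ qq * b2 * (a1 * b1 ^ qq) := by
  simp [xiConst]

theorem xiConst_zero {Vinf V0 : ValuationSubring F} (h : V0 ≠ Vinf) (a1 a2 b1 b2 : P.B) (qq : ℕ) :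
    P.xiConst Vinf V0 a1 a2 b1 b2 qq V0 = a2 * b2 ^ qq * (a1 ^ qq * b1) := by
  simp [xiConst, h]

theorem xiConst_mid {Vinf V0 Vmid : ValuationSubring F} (h1 : Vmid ≠ Vinf) (h2 : Vmid ≠ V0)
    (a1 a2 b1 b2 : P.B) (qq : ℕ) :
    P.xiConst Vinf V0 a1 a2 b1 b2 qq Vmid = a2 ^ (qq + 1) * b2 ^ (qq + 1) := by
  simp [xiConst, h1, h2]

theorem xiConst_not_mem {𝔫 : Ideal P.B} [h𝔫 : 𝔫.IsPrime] (Vinf V0 : ValuationSubring F)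
    {a1 a2 b1 b2 : P.B} (ha1 : a1 ∉ 𝔫) (ha2 : a2 ∉ 𝔫) (hb1 : b1 ∉ 𝔫) (hb2 : b2 ∉ 𝔫) (qq : ℕ)
    (V : ValuationSubring F) : P.xiConst Vinf V0 a1 a2 b1 b2 qq V ∉ 𝔫 := by
  have hpow : ∀ {c : P.B} (n : ℕ), c ∉ 𝔫 → c ^ n ∉ 𝔫 := fun n hc h => hc (h𝔫.mem_of_pow_mem _ h)
  have hmul : ∀ {c d : P.B}, c ∉ 𝔫 → d ∉ 𝔫 → c * d ∉ 𝔫 :=
    fun hc hd h => (h𝔫.mem_or_mem h).elim hc hd
  unfold xiConst
  split_ifs
  · exact hmul (hmul (hpow _ ha2) hb2) (hmul ha1 (hpow _ hb1))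
  · exact hmul (hmul ha2 (hpow _ hb2)) (hmul (hpow _ ha1) hb1)
  · exact hmul (hpow _ ha2) (hpow _ hb2)

/-- **step C at a point**: `s` a local generator of `z` at `𝔫` with non-zero branch values on all
vertical branches.  Either at most one vertical branch passes through `𝔫`, or exactly the three
branches `Vinf, Vmid, V0` do and the two norm relations hold.  If `h ≡ ξ_V` on the vertical
branches, then the hypothesis of `T4Pres.glue` holds at `𝔫` for `z ^ (q² - 1) * h ^ m`. -/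
theorem glue_hyp_of_relations {𝔫 : Ideal P.B} [h𝔫 : 𝔫.IsMaximal] {q : F} {m qq : ℕ}
    (hqq : 0 < qq) {z s h : F} (hh0 : h ≠ 0) {Vinf Vmid V0 : ValuationSubring F}
    (hmi : Vmid ≠ Vinf) (hm0 : Vmid ≠ V0) (h0i : V0 ≠ Vinf) {a1 a2 b1 b2 : P.B}
    (ha1 : a1 ∉ 𝔫) (ha2 : a2 ∉ 𝔫) (hb1 : b1 ∉ 𝔫) (hb2 : b2 ∉ 𝔫)
    (hs : ∀ V ∈ P.through 𝔫, V.valuation (s ^ m * z) = 1)
    (hκ : ∀ V ∈ P.through 𝔫, V ∈ P.vert q → ∃ κ : P.B ⧸ 𝔫, κ ≠ 0 ∧ P.BranchVal 𝔫 V s κ)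
    (hcase : (∀ V ∈ P.through 𝔫, V ∈ P.vert q → ∀ W ∈ P.through 𝔫, W ∈ P.vert q → V = W) ∨
      ((∀ V ∈ P.through 𝔫, V ∈ P.vert q → V = Vinf ∨ V = Vmid ∨ V = V0) ∧
        Vinf ∈ P.through 𝔫 ∧ Vmid ∈ P.through 𝔫 ∧ V0 ∈ P.through 𝔫 ∧
        Vinf ∈ P.vert q ∧ Vmid ∈ P.vert q ∧ V0 ∈ P.vert q ∧
        ∀ κi κm κ0 : P.B ⧸ 𝔫, P.BranchVal 𝔫 Vinf s κi → P.BranchVal 𝔫 Vmid s κm →
          P.BranchVal 𝔫 V0 s κ0 → κi ≠ 0 → κm ≠ 0 → κ0 ≠ 0 →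
          κi * κm ^ (qq - 1) * Ideal.Quotient.mk 𝔫 a1 = κ0 ^ qq * Ideal.Quotient.mk 𝔫 a2 ∧
          κ0 * κm ^ (qq - 1) * Ideal.Quotient.mk 𝔫 b1 = κi ^ qq * Ideal.Quotient.mk 𝔫 b2))
    (hh : ∀ V ∈ P.through 𝔫, V ∈ P.vert q →
      V.valuation (h - (P.xiConst Vinf V0 a1 a2 b1 b2 qq V : F)) < 1) :
    ∃ s' : F, (∀ V ∈ P.through 𝔫, V.valuation (s' ^ m * (z ^ (qq * qq - 1) * h ^ m)) = 1) ∧
      ∃ κ : P.B ⧸ 𝔫, κ ≠ 0 ∧ ∀ V ∈ P.through 𝔫, V ∈ P.vert q → P.BranchVal 𝔫 V s' κ := by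
  haveI := h𝔫.isPrime
  letI := Ideal.Quotient.field 𝔫
  refine P.glue_hyp_of_ratio hh0 (P.xiConst Vinf V0 a1 a2 b1 b2 qq)
    (fun V _ _ => P.xiConst_not_mem Vinf V0 ha1 ha2 hb1 hb2 qq V) hh hs hκ ?_
  intro V hV hv W hW hw κ κ' hκV hκW
  rcases hcase with hone | ⟨hthree, hVi, hVm, hV0, hvi, hvm, hv0, hrel⟩
  · obtain rfl := hone V hV hv W hW hw
    rw [BranchVal.unique P hV hκV hκW]
  · obtain ⟨κi, hi0, hi⟩ := hκ Vinf hVi hvi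
    obtain ⟨κm, hm0', hm⟩ := hκ Vmid hVm hvm
    obtain ⟨κ0, h00, h0⟩ := hκ V0 hV0 hv0
    obtain ⟨r1, r2⟩ := hrel κi κm κ0 hi hm h0 hi0 hm0' h00
    set α1 : P.B ⧸ 𝔫 := Ideal.Quotient.mk 𝔫 a1 with hα1
    set α2 : P.B ⧸ 𝔫 := Ideal.Quotient.mk 𝔫 a2 with hα2
    set β1 : P.B ⧸ 𝔫 := Ideal.Quotient.mk 𝔫 b1 with hβ1
    set β2 : P.B ⧸ 𝔫 := Ideal.Quotient.mk 𝔫 b2 with hβ2
    have hα10 : α1 ≠ 0 := fun h0 => ha1 (Ideal.Quotient.eq_zero_iff_mem.mp h0)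
    have hα20 : α2 ≠ 0 := fun h0 => ha2 (Ideal.Quotient.eq_zero_iff_mem.mp h0)
    have hβ10 : β1 ≠ 0 := fun h0 => hb1 (Ideal.Quotient.eq_zero_iff_mem.mp h0)
    have hβ20 : β2 ≠ 0 := fun h0 => hb2 (Ideal.Quotient.eq_zero_iff_mem.mp h0)
    have r1' : κi * κm ^ (qq - 1) = κ0 ^ qq * (α2 / α1) := by
      rw [mul_div_assoc', ← r1, mul_div_assoc, div_self hα10, mul_one]
    have r2' : κ0 * κm ^ (qq - 1) = κi ^ qq * (β2 / β1) := by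
      rw [mul_div_assoc', ← r2, mul_div_assoc, div_self hβ10, mul_one]
    obtain ⟨e1, e2⟩ := t4l_ratio_of_relations hqq hi0 hm0' h00 r1' r2'
    -- the uniform statement
    have key : ∀ U ∈ P.through 𝔫, U ∈ P.vert q → ∀ κU : P.B ⧸ 𝔫, P.BranchVal 𝔫 U s κU →
        κU ^ (qq * qq - 1) * (α2 ^ (qq + 1) * β2 ^ (qq + 1)) =
          κm ^ (qq * qq - 1) * Ideal.Quotient.mk 𝔫 (P.xiConst Vinf V0 a1 a2 b1 b2 qq U) := by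
      intro U hU hu κU hκU
      rcases hthree U hU hu with rfl | rfl | rfl
      · rw [BranchVal.unique P hU hκU hi, P.xiConst_inf]
        simp only [map_mul, map_pow]
        rw [← hα1, ← hα2, ← hβ1, ← hβ2, ← e1]
        have h1 : α2 / α1 * α1 = α2 := div_mul_cancel₀ _ hα10
        have h2 : (β2 / β1) ^ qq * β1 ^ qq = β2 ^ qq := by rw [← mul_pow, div_mul_cancel₀ _ hβ10]
        calc κi ^ (qq * qq - 1) * (α2 ^ (qq + 1) * β2 ^ (qq + 1))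
            = κi ^ (qq * qq - 1) * (α2 * β2 ^ qq * (α2 ^ qq * β2)) := by ring
          _ = κi ^ (qq * qq - 1) * ((α2 / α1 * α1) * ((β2 / β1) ^ qq * β1 ^ qq) *
                (α2 ^ qq * β2)) := by rw [h1, h2]
          _ = κi ^ (qq * qq - 1) * (α2 / α1 * (β2 / β1) ^ qq) *
                (α2 ^ qq * β2 * (α1 * β1 ^ qq)) := by ring
      · rw [BranchVal.unique P hU hκU hm, P.xiConst_mid hmi hm0]
        simp only [map_mul, map_pow]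
        rw [← hα2, ← hβ2]
      · rw [BranchVal.unique P hU hκU h0, P.xiConst_zero h0i]
        simp only [map_mul, map_pow]
        rw [← hα1, ← hα2, ← hβ1, ← hβ2, ← e2]
        have h1 : (α2 / α1) ^ qq * α1 ^ qq = α2 ^ qq := by rw [← mul_pow, div_mul_cancel₀ _ hα10]
        have h2 : β2 / β1 * β1 = β2 := div_mul_cancel₀ _ hβ10
        calc κ0 ^ (qq * qq - 1) * (α2 ^ (qq + 1) * β2 ^ (qq + 1))
            = κ0 ^ (qq * qq - 1) * (α2 ^ qq * β2 * (α2 * β2 ^ qq)) := by ring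
          _ = κ0 ^ (qq * qq - 1) * (((α2 / α1) ^ qq * α1 ^ qq) * (β2 / β1 * β1) *
                (α2 * β2 ^ qq)) := by rw [h1, h2]
          _ = κ0 ^ (qq * qq - 1) * ((α2 / α1) ^ qq * (β2 / β1)) *
                (α2 * β2 ^ qq * (α1 ^ qq * β1)) := by ring
    have kV := key V hV hv κ hκV
    have kW := key W hW hw κ' hκW
    have h12 : α2 ^ (qq + 1) * β2 ^ (qq + 1) ≠ 0 :=
      mul_ne_zero (pow_ne_zero _ hα20) (pow_ne_zero _ hβ20)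
    refine mul_right_cancel₀ h12 ?_
    calc κ ^ (qq * qq - 1) * Ideal.Quotient.mk 𝔫 (P.xiConst Vinf V0 a1 a2 b1 b2 qq W) *
          (α2 ^ (qq + 1) * β2 ^ (qq + 1))
        = κ ^ (qq * qq - 1) * (α2 ^ (qq + 1) * β2 ^ (qq + 1)) *
            Ideal.Quotient.mk 𝔫 (P.xiConst Vinf V0 a1 a2 b1 b2 qq W) := by ring
      _ = κm ^ (qq * qq - 1) * Ideal.Quotient.mk 𝔫 (P.xiConst Vinf V0 a1 a2 b1 b2 qq V) *
            Ideal.Quotient.mk 𝔫 (P.xiConst Vinf V0 a1 a2 b1 b2 qq W) := by rw [kV]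
      _ = κm ^ (qq * qq - 1) * Ideal.Quotient.mk 𝔫 (P.xiConst Vinf V0 a1 a2 b1 b2 qq W) *
            Ideal.Quotient.mk 𝔫 (P.xiConst Vinf V0 a1 a2 b1 b2 qq V) := by ring
      _ = κ' ^ (qq * qq - 1) * (α2 ^ (qq + 1) * β2 ^ (qq + 1)) *
            Ideal.Quotient.mk 𝔫 (P.xiConst Vinf V0 a1 a2 b1 b2 qq V) := by rw [kW]
      _ = κ' ^ (qq * qq - 1) * Ideal.Quotient.mk 𝔫 (P.xiConst Vinf V0 a1 a2 b1 b2 qq V) *
            (α2 ^ (qq + 1) * β2 ^ (qq + 1)) := by ring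

/-- **step C, global form**: regular points with smooth vertical branches, a Kummer element
`z ≡ 1 mod q`, the two norm relations at the triple points (for every local generator), and a
correcting element `h ≡ ξ_V` on the vertical branches with `h ^ m ≡ 1 mod q`.  Then every
`t ∈ Ov` with `t ^ m * z' ∈ B`, `z' = z ^ (q² - 1) * h ^ m`, lies in `B + q · Ov`. -/
theorem glue_stepC [IsNoetherianRing P.B] {q : F} (hq : q ∈ P.B) (hq0 : q ≠ 0) {m : ℕ}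
    (hm : (m : F)⁻¹ ∈ P.B) (hmF : (m : F) ≠ 0) {z : F} (hz0 : z ≠ 0) (hz : P.CongrOv q z 1)
    (hreg : ∀ 𝔫 : Ideal P.B, 𝔫.IsMaximal → (⟨q, hq⟩ : P.B) ∈ 𝔫 → P.RegAt 𝔫)
    (hsm : ∀ 𝔫 : Ideal P.B, 𝔫.IsMaximal → (⟨q, hq⟩ : P.B) ∈ 𝔫 →
      ∀ (V : ValuationSubring F) (hV : V ∈ P.through 𝔫), V ∈ P.vert q → P.SmoothAt 𝔫 V hV)
    (hroot : ∀ V ∈ P.vals, V ∉ P.vert q → ∃ t : F, V.valuation (t ^ m * z) = 1)
    {qq : ℕ} (hqq : 0 < qq) {Vinf Vmid V0 : ValuationSubring F}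
    (hmi : Vmid ≠ Vinf) (hm0 : Vmid ≠ V0) (h0i : V0 ≠ Vinf) {a1 a2 b1 b2 : P.B}
    (ha1 : ∀ 𝔫 : Ideal P.B, 𝔫.IsMaximal → a1 ∉ 𝔫) (ha2 : ∀ 𝔫 : Ideal P.B, 𝔫.IsMaximal → a2 ∉ 𝔫)
    (hb1 : ∀ 𝔫 : Ideal P.B, 𝔫.IsMaximal → b1 ∉ 𝔫) (hb2 : ∀ 𝔫 : Ideal P.B, 𝔫.IsMaximal → b2 ∉ 𝔫)
    (hcase : ∀ 𝔫 : Ideal P.B, 𝔫.IsMaximal → (⟨q, hq⟩ : P.B) ∈ 𝔫 → ∀ s : F,
      (∀ V ∈ P.through 𝔫, V.valuation (s ^ m * z) = 1) →
      (∀ V ∈ P.through 𝔫, V ∈ P.vert q → ∀ W ∈ P.through 𝔫, W ∈ P.vert q → V = W) ∨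
      ((∀ V ∈ P.through 𝔫, V ∈ P.vert q → V = Vinf ∨ V = Vmid ∨ V = V0) ∧
        Vinf ∈ P.through 𝔫 ∧ Vmid ∈ P.through 𝔫 ∧ V0 ∈ P.through 𝔫 ∧
        Vinf ∈ P.vert q ∧ Vmid ∈ P.vert q ∧ V0 ∈ P.vert q ∧
        ∀ κi κm κ0 : P.B ⧸ 𝔫, P.BranchVal 𝔫 Vinf s κi → P.BranchVal 𝔫 Vmid s κm →
          P.BranchVal 𝔫 V0 s κ0 → κi ≠ 0 → κm ≠ 0 → κ0 ≠ 0 →
          κi * κm ^ (qq - 1) * Ideal.Quotient.mk 𝔫 a1 = κ0 ^ qq * Ideal.Quotient.mk 𝔫 a2 ∧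
          κ0 * κm ^ (qq - 1) * Ideal.Quotient.mk 𝔫 b1 = κi ^ qq * Ideal.Quotient.mk 𝔫 b2))
    {h : F} (hh0 : h ≠ 0)
    (hh : ∀ V ∈ P.vert q, V.valuation (h - (P.xiConst Vinf V0 a1 a2 b1 b2 qq V : F)) < 1)
    (hhm : P.CongrOv q (h ^ m) 1)
    {t : F} (ht : t ∈ P.ov q) (htz : t ^ m * (z ^ (qq * qq - 1) * h ^ m) ∈ P.B) :
    ∃ b' ∈ P.B, P.CongrOv q t b' := by
  have hmne : m ≠ 0 := by
    rintro rfl
    exact hmF (by simp)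
  refine P.glue hq hq0 hm hmF (P.congrOv_pow_mul (P.B_le_ov q hq) hz hhm _) ?_ ht htz
  intro 𝔫 h𝔫 hq𝔫
  haveI := h𝔫
  obtain ⟨s, u, _, _, _, hs, hκ⟩ := P.exists_datum 𝔫 (hreg 𝔫 h𝔫 hq𝔫) hmne hz0 hz
    (fun V hV hv => hroot V hV.1 hv) (hsm 𝔫 h𝔫 hq𝔫)
  have hκ' : ∀ V ∈ P.through 𝔫, V ∈ P.vert q →
      ∃ κ : P.B ⧸ 𝔫, κ ≠ 0 ∧ P.BranchVal 𝔫 V s κ := by
    intro V hV hv
    obtain ⟨κ, hκ0, hκV, _⟩ := hκ V hV hv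
    exact ⟨κ, hκ0, hκV⟩
  exact P.glue_hyp_of_relations hqq hh0 hmi hm0 h0i (ha1 𝔫 h𝔫) (ha2 𝔫 h𝔫) (hb1 𝔫 h𝔫) (hb2 𝔫 h𝔫)
    hs hκ' (hcase 𝔫 h𝔫 hq𝔫 s hs) (fun V _ hv => hh V hv)

end T4Pres

end Fermat.Agent.T4
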