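/-
T4-L part 11 (helper5): smoothness of a branch from a Dedekind model of its reduction, separation of
branches, and the identification hypotheses `hID` of `norm_relation` from a common model.

* `t4l_pir_of_local_dedekind` : a local Dedekind domain is a principal ideal ring;
* `T4Pres.smoothAt_of_dedekind` : if `ρ : B → R` is a surjection onto a Dedekind domain with kernel
  `{b | V.valuation b < 1}` (the reduction of the chart ring on the component `V` is the coordinate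
  ring of a smooth affine curve), then the branch `V` is smooth at every point `𝔫` it passes through;
* `T4Pres.not_through_of_sep` : two valuation rings separated by an idempotent-like element
  `e ∈ B` (`e ≡ 0` on `V`, `e ≡ 1` on `W`) never pass through the same point;
* `T4PresOver.hID_of_model` : the hypothesis `hID` of `norm_relation` when the reduction of `B` on `V`
  is already the reduction of the image of `B₁`.
-/
import Fermat.Agent.Lib.T4.Local.Trich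

set_option autoImplicit false
set_option linter.style.haveILetI false
set_option linter.unusedSectionVars false
set_option linter.overlappingInstances false

namespace Fermat.Agent.T4

/-- a local Dedekind domain is a principal ideal ring -/
theorem t4l_pir_of_local_dedekind (A : Type*) [CommRing A] [IsDomain A] [IsDedekindDomain A]
    [IsLocalRing A] : IsPrincipalIdealRing A := by
  refine IsPrincipalIdealRing.of_finite_primes
    (Set.Finite.subset (Set.toFinite {⊥, IsLocalRing.maximalIdeal A}) ?_)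
  intro I hI
  by_cases h : I = ⊥
  · exact Or.inl h
  · exact Or.inr (IsLocalRing.eq_maximalIdeal (Ideal.IsPrime.isMaximal hI h))

variable {F : Type*} [Field F]

namespace T4Pres

variable (P : T4Pres F)

/-- **smoothness from a Dedekind model of the reduction**: `ρ : B → R` surjective onto a Dedekind
domain, with kernel the centre of `V` on `B`; then `B_𝔫 ⧸ center` is a localisation of `R` at a
maximal ideal, a principal ideal ring -/
theorem smoothAt_of_dedekind {𝔫 : Ideal P.B} [h𝔫 : 𝔫.IsMaximal] {V : ValuationSubring F}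
    (hV : V ∈ P.through 𝔫) {R : Type*} [CommRing R] [IsDomain R] [IsDedekindDomain R]
    (ρ : ↥P.B →+* R) (hρ : Function.Surjective ρ)
    (hker : ∀ b : P.B, ρ b = 0 ↔ V.valuation (b : F) < 1) : P.SmoothAt 𝔫 V hV := by
  haveI := h𝔫.isPrime
  -- the kernel of `ρ` lies in `𝔫`
  have hk𝔫 : RingHom.ker ρ ≤ 𝔫 := fun b hb => hV.2 b ((hker b).mp ((RingHom.mem_ker).mp hb))
  have hcomap : (𝔫.map ρ).comap ρ = 𝔫 := by
    rw [Ideal.comap_map_of_surjective ρ hρ]
    exact sup_eq_left.mpr hk𝔫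
  -- `𝔪 = ρ(𝔫)` is maximal
  have h𝔪 : (𝔫.map ρ).IsMaximal := by
    rcases Ideal.map_eq_top_or_isMaximal_of_surjective ρ hρ h𝔫 with h | h
    · exfalso
      rw [h, Ideal.comap_top] at hcomap
      exact h𝔫.ne_top hcomap.symm
    · exact h
  haveI : (𝔫.map ρ).IsPrime := h𝔪.isPrime
  have hmem𝔪 : ∀ b : P.B, ρ b ∈ 𝔫.map ρ ↔ b ∈ 𝔫 := by
    intro b
    constructor
    · intro hb
      have : b ∈ (𝔫.map ρ).comap ρ := hb
      rwa [hcomap] at this
    · exact fun hb => Ideal.mem_map_of_mem ρ hb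
  -- the localisation of `R` at `𝔪`
  haveI : IsPrincipalIdealRing (Localization.AtPrime (𝔫.map ρ)) :=
    t4l_pir_of_local_dedekind _
  -- `B → B_𝔫 ⧸ center`
  set g : ↥P.B →+* ↥(P.loc 𝔫) ⧸ P.center 𝔫 V hV :=
    (Ideal.Quotient.mk (P.center 𝔫 V hV)).comp (P.locIncl 𝔫) with hg
  have hgker : RingHom.ker ρ ≤ RingHom.ker g := by
    intro b hb
    rw [RingHom.mem_ker, hg, RingHom.comp_apply, Ideal.Quotient.eq_zero_iff_mem, mem_center]
    exact (hker b).mp ((RingHom.mem_ker).mp hb)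
  set g' : R →+* ↥(P.loc 𝔫) ⧸ P.center 𝔫 V hV := ρ.liftOfSurjective hρ ⟨g, hgker⟩ with hg'
  have hg'ρ : ∀ b : P.B, g' (ρ b) = g b := fun b =>
    RingHom.liftOfSurjective_comp_apply ρ hρ ⟨g, hgker⟩ b
  -- elements outside `𝔪` become units
  have hunit : ∀ y : (𝔫.map ρ).primeCompl, IsUnit (g' (y : R)) := by
    rintro ⟨y, hy⟩
    obtain ⟨b, rfl⟩ := hρ y
    have hb : b ∉ 𝔫 := fun hb => hy ((hmem𝔪 b).mpr hb)
    rw [hg'ρ, hg, RingHom.comp_apply]
    refine IsUnit.map _ ((P.isUnit_loc_iff _).mpr ⟨?_, fun V' hV' => ?_⟩)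
    · intro h0
      apply hb
      have : b = 0 := Subtype.ext h0
      rw [this]
      exact 𝔫.zero_mem
    · exact P.valuation_eq_one_of_not_mem hV' hb
  set ψ : Localization.AtPrime (𝔫.map ρ) →+* ↥(P.loc 𝔫) ⧸ P.center 𝔫 V hV :=
    IsLocalization.lift (M := (𝔫.map ρ).primeCompl) hunit with hψ
  refine P.smoothAt_of_surjective hV ψ ?_
  intro r
  obtain ⟨f, rfl⟩ := Ideal.Quotient.mk_surjective r
  obtain ⟨c, hc, hcf⟩ := (P.mem_loc_iff (𝔫 := 𝔫)).mp f.2
  have hρc : ρ c ∈ (𝔫.map ρ).primeCompl := fun h => hc ((hmem𝔪 c).mp h)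
  refine ⟨IsLocalization.mk' _ (ρ ⟨_, hcf⟩) ⟨ρ c, hρc⟩, ?_⟩
  rw [hψ, IsLocalization.lift_mk'_spec]
  show g' (ρ ⟨_, hcf⟩) = g' (ρ c) * _
  rw [hg'ρ, hg'ρ, hg, RingHom.comp_apply, RingHom.comp_apply, ← map_mul]
  congr 1

/-- **smoothness from a Dedekind model, local form**: `ρS : B_𝔫 → E` a reduction with kernel the
centre of `V`; `R ⊆ E` a Dedekind domain containing the reduction of `B`, every element of which is
the reduction of an element of `B_𝔫` (local surjectivity); then the branch of `V` at `𝔫` is smooth -/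
theorem smoothAt_of_dedekind_loc {𝔫 : Ideal P.B} [h𝔫 : 𝔫.IsMaximal] {V : ValuationSubring F}
    (hV : V ∈ P.through 𝔫) {E : Type*} [Field E] (ρS : ↥(P.loc 𝔫) →+* E)
    (hker : ∀ f : ↥(P.loc 𝔫), ρS f = 0 ↔ V.valuation (f : F) < 1)
    {R : Type*} [CommRing R] [IsDomain R] [IsDedekindDomain R] (ι : R →+* E)
    (hι : Function.Injective ι)
    (hBR : ∀ b : P.B, ∃ t : R, ι t = ρS (P.locIncl 𝔫 b))
    (hsurj : ∀ t : R, ∃ f : ↥(P.loc 𝔫), ρS f = ι t) : P.SmoothAt 𝔫 V hV := by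
  haveI := h𝔫.isPrime
  haveI : (P.center 𝔫 V hV).IsPrime := P.center_isPrime hV
  letI := P.isLocalRing_loc 𝔫
  haveI : IsDomain (↥(P.loc 𝔫) ⧸ P.center 𝔫 V hV) := Ideal.Quotient.isDomain _
  haveI : IsLocalRing (↥(P.loc 𝔫) ⧸ P.center 𝔫 V hV) :=
    IsLocalRing.of_surjective' (Ideal.Quotient.mk (P.center 𝔫 V hV)) Ideal.Quotient.mk_surjective
  -- the subring of `B_𝔫` of elements whose reduction lies in `R`
  set R₁ : Subring ↥(P.loc 𝔫) := ι.range.comap ρS with hR₁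
  -- the reduction `R₁ → R`
  have hex : ∀ f : ↥R₁, ∃ t : R, ι t = ρS (f : ↥(P.loc 𝔫)) := fun f => f.2
  choose ρ₁f hρ₁f using hex
  have hρ₁f_unique : ∀ (f : ↥R₁) (t : R), ι t = ρS (f : ↥(P.loc 𝔫)) → ρ₁f f = t := fun f t ht =>
    hι ((hρ₁f f).trans ht.symm)
  let ρ₁ : ↥R₁ →+* R :=
    { toFun := ρ₁f
      map_one' := hρ₁f_unique _ _ (by rw [map_one, OneMemClass.coe_one, map_one])
      map_mul' := fun f g => hρ₁f_unique _ _ (by
        rw [map_mul, hρ₁f, hρ₁f, MulMemClass.coe_mul, map_mul])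
      map_zero' := hρ₁f_unique _ _ (by rw [map_zero, ZeroMemClass.coe_zero, map_zero])
      map_add' := fun f g => hρ₁f_unique _ _ (by
        rw [map_add, hρ₁f, hρ₁f, AddMemClass.coe_add, map_add]) }
  have hρ₁ : ∀ f : ↥R₁, ι (ρ₁ f) = ρS (f : ↥(P.loc 𝔫)) := hρ₁f
  have hρ₁surj : Function.Surjective ρ₁ := by
    intro t
    obtain ⟨f, hf⟩ := hsurj t
    exact ⟨⟨f, ⟨t, hf.symm⟩⟩, hρ₁f_unique _ _ hf.symm⟩
  set g : ↥R₁ →+* ↥(P.loc 𝔫) ⧸ P.center 𝔫 V hV :=
    (Ideal.Quotient.mk (P.center 𝔫 V hV)).comp R₁.subtype with hg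
  have hgker : RingHom.ker ρ₁ ≤ RingHom.ker g := by
    intro f hf
    rw [RingHom.mem_ker] at hf
    rw [RingHom.mem_ker, hg, RingHom.comp_apply, Ideal.Quotient.eq_zero_iff_mem, mem_center]
    refine (hker _).mp ?_
    show ρS (f : ↥(P.loc 𝔫)) = 0
    rw [← hρ₁ f, hf, map_zero]
  set g' : R →+* ↥(P.loc 𝔫) ⧸ P.center 𝔫 V hV := ρ₁.liftOfSurjective hρ₁surj ⟨g, hgker⟩ with hg'
  have hg'ρ : ∀ f : ↥R₁, g' (ρ₁ f) = g f := fun f =>
    RingHom.liftOfSurjective_comp_apply ρ₁ hρ₁surj ⟨g, hgker⟩ f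
  -- elements of `B` lie in `R₁`
  have hB₁ : ∀ b : P.B, P.locIncl 𝔫 b ∈ R₁ := fun b => by
    obtain ⟨t, ht⟩ := hBR b
    exact ⟨t, ht⟩
  -- the prime of `R`
  set 𝔪 : Ideal R :=
    (IsLocalRing.maximalIdeal (↥(P.loc 𝔫) ⧸ P.center 𝔫 V hV)).comap g' with h𝔪
  haveI : 𝔪.IsPrime := Ideal.comap_isPrime g' _
  haveI : IsPrincipalIdealRing (Localization.AtPrime 𝔪) := t4l_pir_of_local_dedekind _
  have hunit : ∀ y : 𝔪.primeCompl, IsUnit (g' (y : R)) := by
    rintro ⟨y, hy⟩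
    by_contra hnu
    exact hy ((IsLocalRing.mem_maximalIdeal _).mpr hnu)
  set ψ : Localization.AtPrime 𝔪 →+* ↥(P.loc 𝔫) ⧸ P.center 𝔫 V hV :=
    IsLocalization.lift (M := 𝔪.primeCompl) hunit with hψ
  refine P.smoothAt_of_surjective hV ψ ?_
  intro r
  obtain ⟨f, rfl⟩ := Ideal.Quotient.mk_surjective r
  obtain ⟨c, hc, hcf⟩ := (P.mem_loc_iff (𝔫 := 𝔫)).mp f.2
  set cb : P.B := ⟨_, hcf⟩ with hcb
  have hcunit : IsUnit (P.locIncl 𝔫 c) := by
    refine (P.isUnit_loc_iff _).mpr ⟨?_, fun V' hV' => P.valuation_eq_one_of_not_mem hV' hc⟩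
    intro h0
    apply hc
    have : c = 0 := Subtype.ext h0
    rw [this]
    exact 𝔫.zero_mem
  have hρc : ρ₁ ⟨_, hB₁ c⟩ ∈ 𝔪.primeCompl := by
    intro hmem
    have h1 : g' (ρ₁ ⟨_, hB₁ c⟩) ∈ IsLocalRing.maximalIdeal _ := hmem
    rw [hg'ρ, hg, RingHom.comp_apply] at h1
    exact (IsLocalRing.mem_maximalIdeal _).mp h1 (hcunit.map _)
  refine ⟨IsLocalization.mk' _ (ρ₁ ⟨_, hB₁ cb⟩) ⟨ρ₁ ⟨_, hB₁ c⟩, hρc⟩, ?_⟩
  rw [hψ, IsLocalization.lift_mk'_spec]
  show g' (ρ₁ ⟨_, hB₁ cb⟩) = g' (ρ₁ ⟨_, hB₁ c⟩) * _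
  rw [hg'ρ, hg'ρ, hg, RingHom.comp_apply, RingHom.comp_apply, ← map_mul]
  congr 1

/-- two valuation rings separated by an element of `B` never pass through the same point -/
theorem not_through_of_sep {𝔫 : Ideal P.B} (h𝔫 : 𝔫 ≠ ⊤) {V W : ValuationSubring F} {e : F}
    (he : e ∈ P.B) (heV : V.valuation e < 1) (heW : W.valuation (1 - e) < 1)
    (hV : V ∈ P.through 𝔫) : W ∉ P.through 𝔫 := by
  intro hW
  have h1 : (⟨e, he⟩ : P.B) ∈ 𝔫 := hV.2 ⟨e, he⟩ heV
  have h2 : (1 - ⟨e, he⟩ : P.B) ∈ 𝔫 := hW.2 (1 - ⟨e, he⟩) heW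
  apply h𝔫
  rw [Ideal.eq_top_iff_one]
  have : (1 : P.B) = ⟨e, he⟩ + (1 - ⟨e, he⟩) := by ring
  rw [this]
  exact 𝔫.add_mem h1 h2

end T4Pres

namespace T4PresOver

variable {F1 : Type*} [Field F1] [Algebra F1 F] {P1 : T4Pres F1} {P : T4Pres F}
  (h : T4PresOver P1 P)

/-- **the hypothesis `hID` of `norm_relation` from a model**: if the reduction `ρ` of `B` on `V`
takes no more values than on the image of `B₁`, then every element of `B_𝔫` is congruent on `V` to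
an element of `(B₁)_{𝔫₁}` -/
theorem hID_of_model (𝔫 : Ideal P.B) [h𝔫 : 𝔫.IsMaximal] {V : ValuationSubring F}
    (hV : V ∈ P.through 𝔫) {R : Type*} [CommRing R] (ρ : ↥P.B →+* R)
    (hker : ∀ b : P.B, ρ b = 0 ↔ V.valuation (b : F) < 1)
    (hsurj : ∀ b : P.B, ∃ b1 : P1.B, ρ (h.incl b1) = ρ b) :
    ∀ x ∈ P.loc 𝔫, ∃ a ∈ P1.loc (h.under 𝔫), V.valuation (x - algebraMap F1 F a) < 1 := by
  haveI := h𝔫.isPrime
  haveI : (h.under 𝔫).IsMaximal := h.under_isMaximal 𝔫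
  haveI := (h.under_isMaximal 𝔫).isPrime
  intro x hx
  obtain ⟨c, hc, hcx⟩ := (P.mem_loc_iff (𝔫 := 𝔫)).mp hx
  obtain ⟨b1, hb1⟩ := hsurj ⟨_, hcx⟩
  obtain ⟨c1, hc1⟩ := hsurj c
  -- `c1 ∉ 𝔫₁`
  have hc1𝔫 : c1 ∉ h.under 𝔫 := by
    intro hmem
    have h1 : h.incl c1 ∈ 𝔫 := hmem
    have h2 : ρ (h.incl c1 - c) = 0 := by rw [map_sub, hc1, sub_self]
    have h3 : h.incl c1 - c ∈ 𝔫 := hV.2 _ ((hker _).mp h2)
    apply hc
    have : c = h.incl c1 - (h.incl c1 - c) := by ring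
    rw [this]
    exact 𝔫.sub_mem h1 h3
  have hc10 : (c1 : F1) ≠ 0 := by
    intro h0
    apply hc1𝔫
    have : c1 = 0 := Subtype.ext h0
    rw [this]
    exact (h.under 𝔫).zero_mem
  have hc0 : (c : F) ≠ 0 := by
    intro h0
    apply hc
    have : c = 0 := Subtype.ext h0
    rw [this]
    exact 𝔫.zero_mem
  refine ⟨(b1 : F1) / (c1 : F1), ?_, ?_⟩
  · rw [P1.mem_loc_iff]
    refine ⟨c1, hc1𝔫, ?_⟩
    rw [mul_div_cancel₀ _ hc10]
    exact b1.2
  · -- `x - α (b1 / c1) = (c x · α c1 - c · α b1) / (c · α c1)`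
    have hαc1 : algebraMap F1 F (c1 : F1) ≠ 0 := by
      rw [Ne, map_eq_zero]
      exact hc10
    have hVc : V.valuation (c : F) = 1 := P.valuation_eq_one_of_not_mem hV hc
    have hVc1 : V.valuation (algebraMap F1 F (c1 : F1)) = 1 :=
      P.valuation_eq_one_of_not_mem hV (c := h.incl c1) hc1𝔫
    have hnum : V.valuation ((c : F) * x * algebraMap F1 F (c1 : F1) -
        (c : F) * algebraMap F1 F (b1 : F1)) < 1 := by
      have h2 : ρ ((⟨_, hcx⟩ : P.B) * h.incl c1 - c * h.incl b1) = 0 := by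
        rw [map_sub, map_mul, map_mul, hb1, hc1]
        ring
      exact (hker _).mp h2
    have heq : x - algebraMap F1 F ((b1 : F1) / (c1 : F1)) =
        ((c : F) * x * algebraMap F1 F (c1 : F1) - (c : F) * algebraMap F1 F (b1 : F1)) *
          ((c : F) * algebraMap F1 F (c1 : F1))⁻¹ := by
      rw [map_div₀]
      field_simp
    rw [heq, map_mul, map_inv₀, map_mul, hVc, hVc1, mul_one, inv_one, mul_one]
    exact hnum

end T4PresOver

end Fermat.Agent.T4
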