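import Mathlib

set_option autoImplicit false
set_option linter.style.haveILetI false

namespace Fermat.Agent.T4

open Ideal IsLocalRing

/-- In a noetherian local domain `B` with a prime element `a` such that `B ⧸ (a)` is a principal
ideal ring, every prime ideal not containing `a` is principal. -/
theorem t4l_isPrincipal_of_not_mem {B : Type*} [CommRing B] [IsDomain B] [IsLocalRing B]
    [IsNoetherianRing B] {a : B} (ha : Prime a)
    [IsPrincipalIdealRing (B ⧸ Ideal.span {a})] (I : Ideal B) [hI : I.IsPrime] (haI : a ∉ I) :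
    I.IsPrincipal := by
  have ham : a ∈ maximalIdeal B := by
    rw [mem_maximalIdeal, mem_nonunits_iff]; exact ha.not_isUnit
  -- the image of `I` in the quotient is principal
  set π := Ideal.Quotient.mk (Ideal.span {a}) with hπ
  have hsurj : Function.Surjective π := Ideal.Quotient.mk_surjective
  obtain ⟨g, hg⟩ := (IsPrincipalIdealRing.principal (I.map π)).principal
  have hgmem : g ∈ I.map π := by rw [hg]; exact Submodule.mem_span_singleton_self g
  rw [Ideal.mem_map_iff_of_surjective π hsurj] at hgmem
  obtain ⟨x, hxI, hxg⟩ := hgmem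
  refine ⟨x, ?_⟩
  have hle : I ≤ Ideal.span {x} ⊔ (Ideal.span {a}) • I := by
    intro y hy
    have h1 : π y ∈ I.map π := Ideal.mem_map_of_mem π hy
    rw [hg] at h1
    obtain ⟨c, hc⟩ := Submodule.mem_span_singleton.mp h1
    obtain ⟨c', rfl⟩ := hsurj c
    have h2 : π (y - c' * x) = 0 := by
      rw [map_sub, map_mul, hxg, ← hc, smul_eq_mul, sub_self]
    rw [hπ, Ideal.Quotient.eq_zero_iff_mem, Ideal.mem_span_singleton] at h2
    obtain ⟨t, ht⟩ := h2
    have htI : t ∈ I := by
      have h3 : a * t ∈ I := by
        rw [← ht]; exact I.sub_mem hy (I.mul_mem_left _ hxI)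
      exact (hI.mem_or_mem h3).resolve_left haI
    have h4 : y = c' * x + a * t := by rw [← ht]; ring
    rw [h4]
    refine Submodule.add_mem_sup (Ideal.mem_span_singleton.mpr ⟨c', by ring⟩) ?_
    rw [smul_eq_mul]
    exact Ideal.mul_mem_mul (Ideal.mem_span_singleton_self a) htI
  have hjac : Ideal.span {a} ≤ Ideal.jacobson (⊥ : Ideal B) := by
    rw [IsLocalRing.jacobson_eq_maximalIdeal ⊥ bot_ne_top]
    exact (Ideal.span_singleton_le_iff_mem _).mpr ham
  have hfg : (I : Submodule B B).FG := IsNoetherian.noetherian I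
  have h5 : I ≤ Ideal.span {x} :=
    Submodule.le_of_le_smul_of_le_jacobson_bot hfg hjac hle
  exact le_antisymm h5 ((Ideal.span_singleton_le_iff_mem _).mpr hxI)

/-- **(UFD2)** a noetherian local domain `B` with a prime element `a` such that `B ⧸ (a)` is a
principal ideal ring (e.g. a discrete valuation ring) is a unique factorisation domain. -/
theorem t4l_ufd {B : Type*} [CommRing B] [IsDomain B] [IsLocalRing B]
    [IsNoetherianRing B] {a : B} (ha : Prime a)
    [IsPrincipalIdealRing (B ⧸ Ideal.span {a})] : UniqueFactorizationMonoid B := by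
  refine UniqueFactorizationMonoid.iff_exists_prime_mem_of_isPrime.mpr fun I hI0 hI => ?_
  by_cases haI : a ∈ I
  · exact ⟨a, haI, ha⟩
  · haveI := hI
    obtain ⟨x, hx⟩ := t4l_isPrincipal_of_not_mem ha I haI
    have hx' : I = Ideal.span {x} := hx
    have hx0 : x ≠ 0 := by
      rintro rfl
      apply hI0
      rw [hx']; simp
    refine ⟨x, ?_, ?_⟩
    · rw [hx']; exact Ideal.mem_span_singleton_self x
    · rw [← Ideal.span_singleton_prime hx0, ← hx']; exact hI

end Fermat.Agent.T4
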