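import Mathlib

set_option autoImplicit false

namespace Fermat.Agent.T4

/-- in a UFD, a nonzero element all of whose prime multiplicities are divisible by `m` is
associated to an `m`-th power -/
theorem t4l_assoc_pow {B : Type*} [CommRing B] [IsDomain B] [UniqueFactorizationMonoid B]
    {m : ℕ} (n : B) (hn : n ≠ 0) (H : ∀ π : B, Prime π → m ∣ multiplicity π n) :
    ∃ e : B, Associated (e ^ m) n := by
  revert hn H
  refine UniqueFactorizationMonoid.induction_on_coprime
    (P := fun n : B => n ≠ 0 → (∀ π : B, Prime π → m ∣ multiplicity π n) →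
      ∃ e : B, Associated (e ^ m) n) n ?_ ?_ ?_ ?_
  · intro h; exact absurd rfl h
  · intro x hx _ _
    exact ⟨1, by rw [one_pow]; exact (associated_one_iff_isUnit.mpr hx).symm⟩
  · intro p i hp _ H
    have h1 := H p hp
    rw [multiplicity_pow_self_of_prime hp] at h1
    obtain ⟨j, rfl⟩ := h1
    exact ⟨p ^ j, by rw [← pow_mul, mul_comm]⟩
  · intro x y hxy hx hy hxy0 H
    have hx0 : x ≠ 0 := left_ne_zero_of_mul hxy0
    have hy0 : y ≠ 0 := right_ne_zero_of_mul hxy0
    have key : ∀ π : B, Prime π → m ∣ multiplicity π x ∧ m ∣ multiplicity π y := by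
      intro π hπ
      have h1 := H π hπ
      rw [multiplicity_mul hπ (FiniteMultiplicity.of_prime_left hπ hxy0)] at h1
      by_cases hπx : π ∣ x
      · have hπy : ¬ π ∣ y := fun hπy => hπ.not_isUnit (hxy hπx hπy)
        have h2 : multiplicity π y = 0 := multiplicity_eq_zero.mpr hπy
        rw [h2, add_zero] at h1
        exact ⟨h1, by rw [h2]; exact dvd_zero m⟩
      · have h2 : multiplicity π x = 0 := multiplicity_eq_zero.mpr hπx
        rw [h2, zero_add] at h1
        exact ⟨by rw [h2]; exact dvd_zero m, h1⟩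
    obtain ⟨e₁, he₁⟩ := hx hx0 fun π hπ => (key π hπ).1
    obtain ⟨e₂, he₂⟩ := hy hy0 fun π hπ => (key π hπ).2
    exact ⟨e₁ * e₂, by rw [mul_pow]; exact he₁.mul_mul he₂⟩

/-- **local `m`-th roots in a UFD**: if for every prime element `π` of the UFD `B` the element
`z` of the fraction field becomes a `π`-adic unit after multiplication with an `m`-th power, then
`z` is a unit of `B` times an `m`-th power. -/
theorem t4l_exists_root {B K : Type*} [CommRing B] [IsDomain B] [UniqueFactorizationMonoid B]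
    [Field K] [Algebra B K] [IsFractionRing B K] {m : ℕ} (hm : m ≠ 0) {z : K} (hz : z ≠ 0)
    (H : ∀ π : B, Prime π → ∃ s : K, s ≠ 0 ∧ ∃ c c' : B, ¬ π ∣ c ∧ ¬ π ∣ c' ∧
      s ^ m * z * algebraMap B K c' = algebraMap B K c) :
    ∃ s : K, s ≠ 0 ∧ ∃ u : Bˣ, s ^ m * z = algebraMap B K (u : B) := by
  have hinj : Function.Injective (algebraMap B K) := IsFractionRing.injective B K
  obtain ⟨n, ⟨d, hd⟩, hcop, hnd⟩ := IsFractionRing.exists_reduced_fraction (A := B) z
  have hd0 : d ≠ 0 := nonZeroDivisors.ne_zero hd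
  have hzd : z * algebraMap B K d = algebraMap B K n := by
    rw [← hnd]; exact IsLocalization.mk'_spec K n ⟨d, hd⟩
  have hd0' : algebraMap B K d ≠ 0 := fun h => hd0 (hinj (h.trans (map_zero _).symm))
  have hn0 : n ≠ 0 := by
    rintro rfl
    rw [map_zero] at hzd
    rcases mul_eq_zero.mp hzd with h | h
    · exact hz h
    · exact hd0' h
  -- the multiplicities of `n` and `d` are divisible by `m`
  have key : ∀ π : B, Prime π → m ∣ multiplicity π n ∧ m ∣ multiplicity π d := by
    intro π hπ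
    obtain ⟨s, hs0, c, c', hc, hc', hs⟩ := H π hπ
    obtain ⟨e, f, hf, rfl⟩ := IsFractionRing.div_surjective (A := B) s
    have hf0 : f ≠ 0 := nonZeroDivisors.ne_zero hf
    have hf0' : algebraMap B K f ≠ 0 := fun h => hf0 (hinj (h.trans (map_zero _).symm))
    have he0 : e ≠ 0 := by
      rintro rfl
      rw [map_zero, zero_div] at hs0
      exact hs0 rfl
    have heq : e ^ m * n * c' = c * d * f ^ m := by
      apply hinj
      simp only [map_mul, map_pow]
      rw [← hzd]
      rw [div_pow] at hs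
      field_simp at hs
      linear_combination (algebraMap B K d) * hs
    have hc0 : c ≠ 0 := fun h => hc (h ▸ dvd_zero π)
    have hc'0 : c' ≠ 0 := fun h => hc' (h ▸ dvd_zero π)
    have hfin : ∀ x : B, x ≠ 0 → FiniteMultiplicity π x := fun x hx =>
      FiniteMultiplicity.of_prime_left hπ hx
    have hL : multiplicity π (e ^ m * n * c') = m * multiplicity π e + multiplicity π n := by
      rw [multiplicity_mul hπ (hfin _ (mul_ne_zero (mul_ne_zero (pow_ne_zero _ he0) hn0) hc'0)),
        multiplicity_mul hπ (hfin _ (mul_ne_zero (pow_ne_zero _ he0) hn0)),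
        (hfin e he0).multiplicity_pow hπ, multiplicity_eq_zero.mpr hc', add_zero]
    have hR : multiplicity π (c * d * f ^ m) = multiplicity π d + m * multiplicity π f := by
      rw [multiplicity_mul hπ (hfin _ (mul_ne_zero (mul_ne_zero hc0 hd0) (pow_ne_zero _ hf0))),
        multiplicity_mul hπ (hfin _ (mul_ne_zero hc0 hd0)),
        (hfin f hf0).multiplicity_pow hπ, multiplicity_eq_zero.mpr hc, zero_add]
    rw [heq, hR] at hL
    by_cases hπn : π ∣ n
    · have hπd : ¬ π ∣ d := fun hπd => hπ.not_isUnit (hcop hπn hπd)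
      have h2 : multiplicity π d = 0 := multiplicity_eq_zero.mpr hπd
      rw [h2, zero_add] at hL
      refine ⟨?_, by rw [h2]; exact dvd_zero m⟩
      have : m ∣ m * multiplicity π e + multiplicity π n := ⟨multiplicity π f, hL.symm⟩
      exact (Nat.dvd_add_right (dvd_mul_right m _)).mp this
    · have h2 : multiplicity π n = 0 := multiplicity_eq_zero.mpr hπn
      rw [h2, add_zero] at hL
      refine ⟨by rw [h2]; exact dvd_zero m, ?_⟩
      have : m ∣ multiplicity π d + m * multiplicity π f := ⟨multiplicity π e, hL⟩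
      exact (Nat.dvd_add_left (dvd_mul_right m _)).mp this
  obtain ⟨e₁, u₁, he₁⟩ := t4l_assoc_pow n hn0 fun π hπ => (key π hπ).1
  obtain ⟨e₂, u₂, he₂⟩ := t4l_assoc_pow d hd0 fun π hπ => (key π hπ).2
  have he₁0 : e₁ ≠ 0 := by
    rintro rfl
    rw [zero_pow hm, zero_mul] at he₁
    exact hn0 he₁.symm
  have he₂0 : e₂ ≠ 0 := by
    rintro rfl
    rw [zero_pow hm, zero_mul] at he₂
    exact hd0 he₂.symm
  have he₁0' : algebraMap B K e₁ ≠ 0 := fun h => he₁0 (hinj (h.trans (map_zero _).symm))
  have he₂0' : algebraMap B K e₂ ≠ 0 := fun h => he₂0 (hinj (h.trans (map_zero _).symm))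
  refine ⟨algebraMap B K e₂ / algebraMap B K e₁, div_ne_zero he₂0' he₁0', u₁ * u₂⁻¹, ?_⟩
  have h1 : algebraMap B K n = algebraMap B K e₁ ^ m * algebraMap B K (u₁ : B) := by
    rw [← he₁, map_mul, map_pow]
  have h2 : algebraMap B K d = algebraMap B K e₂ ^ m * algebraMap B K (u₂ : B) := by
    rw [← he₂, map_mul, map_pow]
  have hu₂ : algebraMap B K (u₂ : B) * algebraMap B K ((u₂⁻¹ : Bˣ) : B) = 1 := by
    rw [← map_mul, Units.mul_inv, map_one]
  have hu₂0 : algebraMap B K (u₂ : B) ≠ 0 := left_ne_zero_of_mul_eq_one hu₂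
  have hz' : z = algebraMap B K n / algebraMap B K d := by
    rw [eq_div_iff hd0', hzd]
  have hu₂' : algebraMap B K ((u₂⁻¹ : Bˣ) : B) = (algebraMap B K (u₂ : B))⁻¹ :=
    eq_inv_of_mul_eq_one_right hu₂
  rw [hz', h1, h2, Units.val_mul, map_mul, div_pow, hu₂']
  field_simp

end Fermat.Agent.T4
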