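/-
T4-L (helper5): regular points are factorial, and Kummer functions have local generators there.

`P.ufd_loc`: `P.RegAt 𝔫 → UniqueFactorizationMonoid B_𝔫`.
`P.exists_gen`: at a regular point, a function `z` which is an `m`-th power times a unit in every
valuation ring through `𝔫` is an `m`-th power times a unit of `B_𝔫`.
-/
import Fermat.Agent.Lib.T4.Local.Loc
import Fermat.Agent.Lib.T4.Local.Ufd
import Fermat.Agent.Lib.T4.Local.Roots

set_option autoImplicit false
set_option linter.style.haveILetI false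

namespace Fermat.Agent.T4

variable {F : Type*} [Field F]

/-- in a discrete valuation subring two nonzero non-units have powers of the same valuation -/
theorem t4l_pow_valuation_eq (V : ValuationSubring F) [IsDiscreteValuationRing V] {x y : F}
    (hx : V.valuation x < 1) (hx0 : x ≠ 0) (hy : V.valuation y < 1) (hy0 : y ≠ 0) :
    ∃ i j : ℕ, 0 < i ∧ 0 < j ∧ V.valuation (x ^ j) = V.valuation (y ^ i) := by
  have hxV : x ∈ V := (V.valuation_le_one_iff x).mp hx.le
  have hyV : y ∈ V := (V.valuation_le_one_iff y).mp hy.le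
  obtain ⟨ϖ, hϖ⟩ := IsDiscreteValuationRing.exists_irreducible V
  set x' : V := ⟨x, hxV⟩ with hx'
  set y' : V := ⟨y, hyV⟩ with hy'
  have hx'0 : x' ≠ 0 := fun h => hx0 (congrArg Subtype.val h)
  have hy'0 : y' ≠ 0 := fun h => hy0 (congrArg Subtype.val h)
  obtain ⟨i, hi⟩ := IsDiscreteValuationRing.associated_pow_irreducible hx'0 hϖ
  obtain ⟨j, hj⟩ := IsDiscreteValuationRing.associated_pow_irreducible hy'0 hϖ
  have hpos : ∀ (w : V) (n : ℕ), V.valuation (w : F) < 1 → Associated w (ϖ ^ n) → 0 < n := by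
    intro w n hw hn
    rcases Nat.eq_zero_or_pos n with rfl | h
    · exfalso
      rw [pow_zero] at hn
      have hu : IsUnit w := associated_one_iff_isUnit.mp hn
      rw [V.valuation_eq_one_iff] at hu
      exact hw.ne hu
    · exact h
  have hi1 := hpos x' i hx hi
  have hj1 := hpos y' j hy hj
  refine ⟨i, j, hi1, hj1, ?_⟩
  have h1 : Associated (x' ^ j) (y' ^ i) := by
    have h2 : Associated (x' ^ j) ((ϖ ^ i) ^ j) := hi.pow_pow
    have h3 : Associated (y' ^ i) ((ϖ ^ j) ^ i) := hj.pow_pow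
    rw [← pow_mul] at h2 h3
    rw [mul_comm] at h3
    exact h2.trans h3.symm
  obtain ⟨u, hu⟩ := h1
  have h4 : x ^ j * ((u : V) : F) = y ^ i := by
    have := congrArg Subtype.val hu
    simpa using this
  rw [← h4, map_mul, V.valuation_unit u, mul_one]

namespace T4Pres

variable (P : T4Pres F)

/-- at a regular point the equation `a` generates the centre of `V₀` -/
theorem span_eq_center {𝔫 : Ideal P.B} {V₀ : ValuationSubring F} (hV₀ : V₀ ∈ P.through 𝔫)
    {a : F} (ha : a ∈ P.B) (ha1 : V₀.valuation a < 1)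
    (hunif : ∀ x : F, V₀.valuation x < 1 → V₀.valuation x ≤ V₀.valuation a)
    (hother : ∀ V ∈ P.through 𝔫, V ≠ V₀ → V.valuation a = 1) :
    Ideal.span {(⟨a, P.B_le_loc 𝔫 ha⟩ : ↥(P.loc 𝔫))} = P.center 𝔫 V₀ hV₀ := by
  haveI := P.dvr V₀ hV₀.1
  have ha0 : a ≠ 0 := by
    obtain ⟨ϖ, hϖ⟩ := IsDiscreteValuationRing.exists_irreducible V₀
    have h1 : V₀.valuation (ϖ : F) < 1 := by
      have := hϖ.not_isUnit
      rw [V₀.valuation_eq_one_iff] at this
      exact lt_of_le_of_ne (V₀.valuation_le_one ϖ) this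
    have h2 := hunif _ h1
    intro h0
    rw [h0, map_zero, le_zero_iff, map_eq_zero] at h2
    exact hϖ.ne_zero (Subtype.ext h2)
  apply le_antisymm
  · rw [Ideal.span_singleton_le_iff_mem]
    exact ha1
  · intro f hf
    rw [P.mem_center] at hf
    rw [Ideal.mem_span_singleton]
    have hquot : (f : F) / a ∈ P.loc 𝔫 := by
      intro V hV
      rw [← V.valuation_le_one_iff, map_div₀]
      by_cases hVV : V = V₀
      · subst hVV
        have hva : V.valuation a ≠ 0 := by rwa [ne_eq, map_eq_zero]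
        rw [div_le_one₀ (zero_lt_iff.mpr hva)]
        exact hunif _ hf
      · rw [hother V hV hVV, div_one]
        exact (V.valuation_le_one_iff _).mpr (f.2 V hV)
    refine ⟨⟨_, hquot⟩, ?_⟩
    apply Subtype.ext
    show (f : F) = a * ((f : F) / a)
    field_simp

theorem center_isPrime {𝔫 : Ideal P.B} {V : ValuationSubring F} (hV : V ∈ P.through 𝔫) :
    (P.center 𝔫 V hV).IsPrime := by
  refine ⟨?_, ?_⟩
  · rw [Ideal.ne_top_iff_one, P.mem_center]
    show ¬ V.valuation ((1 : ↥(P.loc 𝔫)) : F) < 1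
    rw [Subring.coe_one, map_one]
    exact lt_irrefl 1
  · intro x y hxy
    rw [P.mem_center] at hxy ⊢
    rw [P.mem_center]
    rw [Subring.coe_mul, map_mul] at hxy
    by_contra hcon
    push Not at hcon
    have hx : V.valuation (x : F) = 1 :=
      le_antisymm ((V.valuation_le_one_iff _).mpr (x.2 V hV)) hcon.1
    have hy : V.valuation (y : F) = 1 :=
      le_antisymm ((V.valuation_le_one_iff _).mpr (y.2 V hV)) hcon.2
    rw [hx, hy, one_mul] at hxy
    exact lt_irrefl 1 hxy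

/-- **regular points are factorial** -/
theorem ufd_loc [IsNoetherianRing P.B] (𝔫 : Ideal P.B) [h𝔫 : 𝔫.IsPrime] (hreg : P.RegAt 𝔫) :
    UniqueFactorizationMonoid ↥(P.loc 𝔫) := by
  obtain ⟨V₀, hV₀, a, ha, ha1, hunif, hother, hsm⟩ := hreg
  haveI := P.isLocalRing_loc 𝔫
  haveI := P.isNoetherianRing_loc 𝔫
  set a' : ↥(P.loc 𝔫) := ⟨a, P.B_le_loc 𝔫 ha⟩ with ha'
  have hspan : Ideal.span {a'} = P.center 𝔫 V₀ hV₀ :=
    P.span_eq_center hV₀ ha ha1 hunif hother
  have ha'0 : a' ≠ 0 := by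
    intro h0
    have hbot : P.center 𝔫 V₀ hV₀ = ⊥ := by rw [← hspan, h0]; simp
    -- the centre of a DVR through `𝔫` is not zero: it contains `a`, and `a ≠ 0`
    haveI := P.dvr V₀ hV₀.1
    obtain ⟨ϖ, hϖ⟩ := IsDiscreteValuationRing.exists_irreducible V₀
    have h1 : V₀.valuation (ϖ : F) < 1 := by
      have := hϖ.not_isUnit
      rw [V₀.valuation_eq_one_iff] at this
      exact lt_of_le_of_ne (V₀.valuation_le_one ϖ) this
    have h2 := hunif _ h1
    have h3 : a = 0 := congrArg Subtype.val h0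
    rw [h3, map_zero, le_zero_iff, map_eq_zero] at h2
    exact hϖ.ne_zero (Subtype.ext h2)
  have hprime : Prime a' := by
    rw [← Ideal.span_singleton_prime ha'0, hspan]
    exact P.center_isPrime hV₀
  haveI : IsPrincipalIdealRing (↥(P.loc 𝔫) ⧸ Ideal.span {a'}) := by
    haveI : IsPrincipalIdealRing (↥(P.loc 𝔫) ⧸ P.center 𝔫 V₀ hV₀) := hsm
    exact IsPrincipalIdealRing.of_surjective
      (Ideal.quotEquivOfEq hspan.symm : _ ≃+* _).toRingHom
      (Ideal.quotEquivOfEq hspan.symm).surjective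
  exact t4l_ufd hprime

/-- for a prime element `π` of the factorial ring `B_𝔫` there is a valuation ring `V` through `𝔫`
whose centre is `(π)` -/
theorem exists_through_of_prime (𝔫 : Ideal P.B) [UniqueFactorizationMonoid ↥(P.loc 𝔫)]
    {π : ↥(P.loc 𝔫)} (hπ : Prime π) :
    ∃ V ∈ P.through 𝔫, V.valuation (π : F) < 1 ∧
      ∀ g : ↥(P.loc 𝔫), V.valuation (g : F) < 1 → π ∣ g := by
  -- `π` is not a unit
  have hnu : ¬ IsUnit π := hπ.not_isUnit
  have hπ0 : (π : F) ≠ 0 := fun h => hπ.ne_zero (Subtype.ext h)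
  rw [P.isUnit_loc_iff] at hnu
  push Not at hnu
  obtain ⟨V, hV, hVπ⟩ := hnu hπ0
  have hVπ' : V.valuation (π : F) < 1 :=
    lt_of_le_of_ne ((V.valuation_le_one_iff _).mpr (π.2 V hV)) hVπ
  refine ⟨V, hV, hVπ', ?_⟩
  intro g hg
  by_contra hndvd
  have hg0 : (g : F) ≠ 0 := by
    intro h0
    apply hndvd
    have : g = 0 := Subtype.ext h0
    rw [this]; exact dvd_zero π
  haveI := P.dvr V hV.1
  obtain ⟨i, j, hi, hj, hval⟩ := t4l_pow_valuation_eq V hVπ' hπ0 hg hg0
  -- `f = π^j / g^i` is a unit of `V`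
  set f : F := (π : F) ^ j / (g : F) ^ i with hf
  have hfval : V.valuation f = 1 := by
    rw [hf, map_div₀, hval]
    exact div_self (by rw [ne_eq, map_eq_zero]; exact pow_ne_zero _ hg0)
  have hfV : f ∈ V := (V.valuation_le_one_iff _).mp hfval.le
  obtain ⟨c, hc, hc1, hcf⟩ := P.essential V hV.1 f hfV
  set c' : ↥(P.loc 𝔫) := ⟨c, P.B_le_loc 𝔫 hc⟩ with hc'
  set d' : ↥(P.loc 𝔫) := ⟨c * f, P.B_le_loc 𝔫 hcf⟩ with hd'
  have heq : c' * π ^ j = d' * g ^ i := by
    apply Subtype.ext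
    show c * (π : F) ^ j = c * f * (g : F) ^ i
    rw [hf]
    field_simp
  have hndvd' : ¬ π ∣ g ^ i := fun h => hndvd (hπ.dvd_of_dvd_pow h)
  have h1 : π ^ j ∣ d' := by
    refine hπ.pow_dvd_of_dvd_mul_right j hndvd' ?_
    rw [← heq]
    exact Dvd.intro_left _ rfl
  obtain ⟨h, hh⟩ := h1
  have h2 : c' = h * g ^ i := by
    have h3 : π ^ j * c' = π ^ j * (h * g ^ i) := by
      rw [mul_comm, heq, hh]; ring
    exact mul_left_cancel₀ (pow_ne_zero _ hπ.ne_zero) h3
  have h4 : V.valuation (c : F) < 1 := by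
    have h5 : (c : F) = (h : F) * (g : F) ^ i := congrArg Subtype.val h2
    rw [h5, map_mul, map_pow]
    have hh1 : V.valuation (h : F) ≤ 1 := (V.valuation_le_one_iff _).mpr (h.2 V hV)
    have hg1 : V.valuation (g : F) ^ i < 1 := pow_lt_one₀ zero_le hg hi.ne'
    calc V.valuation (h : F) * V.valuation (g : F) ^ i ≤ 1 * V.valuation (g : F) ^ i :=
          mul_le_mul_left hh1 _
      _ = V.valuation (g : F) ^ i := one_mul _
      _ < 1 := hg1
  exact h4.ne hc1

/-- **local generators**: at a regular point `𝔫`, if `z` is an `m`-th power times a unit in every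
valuation ring through `𝔫`, then `z` is an `m`-th power times a unit of `B_𝔫`. -/
theorem exists_gen [IsNoetherianRing P.B] (𝔫 : Ideal P.B) [h𝔫 : 𝔫.IsPrime] (hreg : P.RegAt 𝔫)
    {m : ℕ} (hm : m ≠ 0) {z : F} (hz : z ≠ 0)
    (hroot : ∀ V ∈ P.through 𝔫, ∃ t : F, V.valuation (t ^ m * z) = 1) :
    ∃ s : F, s ≠ 0 ∧ ∀ V ∈ P.through 𝔫, V.valuation (s ^ m * z) = 1 := by
  haveI := P.ufd_loc 𝔫 hreg
  have hne : (P.through 𝔫).Nonempty := by
    obtain ⟨V₀, hV₀, _⟩ := hreg
    exact ⟨V₀, hV₀⟩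
  haveI := P.isFractionRing_loc 𝔫 hne
  obtain ⟨s, hs0, u, hu⟩ := t4l_exists_root (B := ↥(P.loc 𝔫)) (K := F) hm hz (by
    intro π hπ
    obtain ⟨V, hV, hVπ, hdvd⟩ := P.exists_through_of_prime 𝔫 hπ
    obtain ⟨t, ht⟩ := hroot V hV
    have ht0 : t ≠ 0 := by
      rintro rfl
      rw [zero_pow hm, zero_mul, map_zero] at ht
      exact zero_ne_one ht
    have hw : t ^ m * z ∈ V := (V.valuation_le_one_iff _).mp ht.le
    obtain ⟨c, hc, hc1, hcw⟩ := P.essential V hV.1 _ hw
    refine ⟨t, ht0, ⟨c * (t ^ m * z), P.B_le_loc 𝔫 hcw⟩, ⟨c, P.B_le_loc 𝔫 hc⟩, ?_, ?_, ?_⟩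
    · intro hdiv
      obtain ⟨e, he⟩ := hdiv
      have h1 : c * (t ^ m * z) = (π : F) * (e : F) := congrArg Subtype.val he
      have h2 : V.valuation (c * (t ^ m * z)) = 1 := by rw [map_mul, hc1, ht, one_mul]
      rw [h1, map_mul] at h2
      have he1 : V.valuation (e : F) ≤ 1 := (V.valuation_le_one_iff _).mpr (e.2 V hV)
      have : V.valuation (π : F) * V.valuation (e : F) < 1 :=
        lt_of_le_of_lt (mul_le_mul_right he1 _) (by rwa [mul_one])
      exact this.ne h2
    · intro hdiv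
      obtain ⟨e, he⟩ := hdiv
      have h1 : c = (π : F) * (e : F) := congrArg Subtype.val he
      have h2 := hc1
      rw [h1, map_mul] at h2
      have he1 : V.valuation (e : F) ≤ 1 := (V.valuation_le_one_iff _).mpr (e.2 V hV)
      have : V.valuation (π : F) * V.valuation (e : F) < 1 :=
        lt_of_le_of_lt (mul_le_mul_right he1 _) (by rwa [mul_one])
      exact this.ne h2
    · show t ^ m * z * c = c * (t ^ m * z)
      exact mul_comm _ _)
  refine ⟨s, hs0, fun V hV => ?_⟩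
  have h1 : s ^ m * z = ((u : ↥(P.loc 𝔫)) : F) := hu
  rw [h1]
  exact ((P.isUnit_loc_iff _).mp u.isUnit).2 V hV

end T4Pres

end Fermat.Agent.T4
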